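import Fermat.Agent.AV.Jac.Core.BaseChange

/-!
The structure bundle.
-/

set_option autoImplicit false

universe u

open scoped TensorProduct

namespace FermatLib.AV

namespace ChartData

variable {k : Type u} [Field k] (D : ChartData k) (R : Type u) [CommRing R] [Algebra k R]

/-- The action of the first chart on functions on the overlap. -/
noncomputable instance modR0 : Module (D.R0 R) (D.R01 R) :=
  Module.compHom _ (D.r0 R).toRingHom

/-- The action of the second chart on functions on the overlap. -/
noncomputable instance modR1 : Module (D.R1 R) (D.R01 R) :=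
  Module.compHom _ (D.r1 R).toRingHom

/-- The structure bundle. -/
@[reducible] noncomputable def structBundle : D.Bundle R :=
  haveI : IsScalarTower R (D.R0 R) (D.R01 R) := IsScalarTower.of_algebraMap_smul fun r m => by
    change D.r0 R (algebraMap R (D.R0 R) r) * m = r • m
    rw [AlgHom.commutes, Algebra.smul_def]
  haveI : IsScalarTower R (D.R1 R) (D.R01 R) := IsScalarTower.of_algebraMap_smul fun r m => by
    change D.r1 R (algebraMap R (D.R1 R) r) * m = r • m
    rw [AlgHom.commutes, Algebra.smul_def]
  { M := D.R01 R
    smul0 := fun _ _ => rfl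
    smul1 := fun _ _ => rfl
    L0 := Submodule.span (D.R0 R) {(1 : D.R01 R)}
    L1 := Submodule.span (D.R1 R) {(1 : D.R01 R)}
    invertible0 := by
      have hinj : Function.Injective (LinearMap.toSpanSingleton (D.R0 R) (D.R01 R) 1) :=
        fun a b h => D.r0_injective R (by
          change D.r0 R a * 1 = D.r0 R b * 1 at h
          simpa using h)
      exact Module.Invertible.congr
        ((LinearEquiv.ofInjective _ hinj).trans
          (LinearEquiv.ofEq _ _ (LinearMap.range_toSpanSingleton 1)))
    invertible1 := by
      have hinj : Function.Injective (LinearMap.toSpanSingleton (D.R1 R) (D.R01 R) 1) :=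
        fun a b h => D.r1_injective (by
          change D.r1 R a * 1 = D.r1 R b * 1 at h
          simpa using h)
      exact Module.Invertible.congr
        ((LinearEquiv.ofInjective _ hinj).trans
          (LinearEquiv.ofEq _ _ (LinearMap.range_toSpanSingleton 1)))
    exists_mem0 := fun m => by
      obtain ⟨N, a, h⟩ := D.exists_pow_mul_r0 R m
      refine ⟨N, Submodule.mem_span_singleton.2 ⟨a, ?_⟩⟩
      change D.r0 R a * 1 = D.r0 R (D.xR R ^ N) * m
      rw [mul_one, map_pow, h]
    exists_mem1 := fun m => by
      obtain ⟨N, a, h⟩ := D.exists_pow_mul_r1 R m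
      refine ⟨N, Submodule.mem_span_singleton.2 ⟨a, ?_⟩⟩
      change D.r1 R a * 1 = D.r1 R (D.yR R ^ N) * m
      rw [mul_one, map_pow, h] }

theorem isTrivial_structBundle : (D.structBundle R).IsTrivial := by
  refine ⟨(1 : D.R01 R), Submodule.mem_span_singleton_self _,
    Submodule.mem_span_singleton_self _, ?_, fun m hm => ?_, fun m hm => ?_⟩
  · exact ⟨fun a b h => by simpa using h, fun a => ⟨a, mul_one a⟩⟩
  · obtain ⟨a, ha⟩ := Submodule.mem_span_singleton.1 hm
    exact ⟨a, ha.symm⟩
  · obtain ⟨a, ha⟩ := Submodule.mem_span_singleton.1 hm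
    exact ⟨a, ha.symm⟩

end ChartData

end FermatLib.AV
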