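import Fermat.Agent.AV.Jac.Bundle

/-!
Elementary properties of the coefficient rings of a two-chart curve.
-/

set_option autoImplicit false

universe u

open scoped TensorProduct

namespace FermatLib.AV

namespace ChartData

variable {k : Type u} [Field k] (D : ChartData k)

theorem n_pos : 0 < D.n := by
  by_contra h
  have h0 : D.n = 0 := by omega
  have : IsEmpty (Fin D.n) := by rw [h0]; infer_instance
  obtain ⟨p, hp⟩ := D.basis0.2 1
  simp only [Finset.univ_eq_empty, Finset.sum_empty] at hp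
  have := congrArg D.ε0 hp
  simp at this

theorem x_ne_zero : D.x ≠ 0 := by
  intro h
  have i : Fin D.n := ⟨0, D.n_pos⟩
  have := D.basis0.1 (a₁ := fun j => if j = i then Polynomial.X else 0) (a₂ := 0) (by
    simp [h, Finset.sum_eq_zero, apply_ite (Polynomial.aeval (0 : D.A0))])
  simpa using congr_fun this i

/-- The `k`-linear identification of the first chart with coefficient families. -/
noncomputable def coeffEquiv0 : (Fin D.n → Polynomial k) ≃ₗ[k] D.A0 :=
  LinearEquiv.ofBijective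
    { toFun := fun p => ∑ i, Polynomial.aeval D.x (p i) * D.b0 i
      map_add' := fun p q => by simp [add_mul, Finset.sum_add_distrib]
      map_smul' := fun r p => by simp [Finset.smul_sum] } D.basis0

/-- The `k`-linear identification of the second chart with coefficient families. -/
noncomputable def coeffEquiv1 : (Fin D.n → Polynomial k) ≃ₗ[k] D.A1 :=
  LinearEquiv.ofBijective
    { toFun := fun p => ∑ i, Polynomial.aeval D.y (p i) * D.b1 i
      map_add' := fun p q => by simp [add_mul, Finset.sum_add_distrib]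
      map_smul' := fun r p => by simp [Finset.smul_sum] } D.basis1

/-- The monomial basis `x ^ e * b0 i` of the first chart. -/
noncomputable def kBasis0 : Module.Basis (Σ _ : Fin D.n, ℕ) k D.A0 :=
  (Pi.basis fun _ : Fin D.n => Polynomial.basisMonomials k).map D.coeffEquiv0

/-- The monomial basis `y ^ e * b1 i` of the second chart. -/
noncomputable def kBasis1 : Module.Basis (Σ _ : Fin D.n, ℕ) k D.A1 :=
  (Pi.basis fun _ : Fin D.n => Polynomial.basisMonomials k).map D.coeffEquiv1

theorem kBasis0_apply (p : Σ _ : Fin D.n, ℕ) : D.kBasis0 p = D.x ^ p.2 * D.b0 p.1 := by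
  classical
  obtain ⟨i, e⟩ := p
  simp only [kBasis0, Module.Basis.map_apply, Pi.basis_apply, coeffEquiv0,
    LinearEquiv.ofBijective_apply, LinearMap.coe_mk, AddHom.coe_mk]
  rw [Finset.sum_eq_single i (fun j _ hj => by simp [hj]) (by simp)]
  simp [Polynomial.aeval_monomial]

theorem kBasis1_apply (p : Σ _ : Fin D.n, ℕ) : D.kBasis1 p = D.y ^ p.2 * D.b1 p.1 := by
  classical
  obtain ⟨i, e⟩ := p
  simp only [kBasis1, Module.Basis.map_apply, Pi.basis_apply, coeffEquiv1,
    LinearEquiv.ofBijective_apply, LinearMap.coe_mk, AddHom.coe_mk]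
  rw [Finset.sum_eq_single i (fun j _ hj => by simp [hj]) (by simp)]
  simp [Polynomial.aeval_monomial]

theorem j0_injective : Function.Injective D.j0 := by
  let := D.j0.toRingHom.toAlgebra
  have := D.isLoc0
  have : IsDomain D.A0 := by
    have := D.isDomain0 k
    exact (Algebra.TensorProduct.lid k D.A0).symm.injective.isDomain
      (Algebra.TensorProduct.lid k D.A0).symm.toRingHom
  exact IsLocalization.injective D.A01
    (M := Submonoid.powers D.x) (powers_le_nonZeroDivisors_of_noZeroDivisors D.x_ne_zero)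

theorem exists_pow_mul0 (a : D.A01) : ∃ (N : ℕ) (a0 : D.A0), D.j0 D.x ^ N * a = D.j0 a0 := by
  let := D.j0.toRingHom.toAlgebra
  have := D.isLoc0
  obtain ⟨⟨a0, ⟨_, N, rfl⟩⟩, h⟩ := IsLocalization.surj (Submonoid.powers D.x) a
  refine ⟨N, a0, ?_⟩
  rw [mul_comm, ← map_pow]
  exact h

theorem exists_pow_mul1 (a : D.A01) : ∃ (N : ℕ) (a1 : D.A1), D.j1 D.y ^ N * a = D.j1 a1 := by
  let := D.j1.toRingHom.toAlgebra
  have := D.isLoc1
  obtain ⟨⟨a1, ⟨_, N, rfl⟩⟩, h⟩ := IsLocalization.surj (Submonoid.powers D.y) a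
  refine ⟨N, a1, ?_⟩
  rw [mul_comm, ← map_pow]
  exact h

variable (R : Type u) [CommRing R] [Algebra k R]

/-- The coordinate on the first chart with coefficients in `R`. -/
noncomputable abbrev xR : D.R0 R := (1 : R) ⊗ₜ[k] D.x
/-- The coordinate on the second chart with coefficients in `R`. -/
noncomputable abbrev yR : D.R1 R := (1 : R) ⊗ₜ[k] D.y

@[simp] theorem r0_tmul (r : R) (a : D.A0) : D.r0 R (r ⊗ₜ a) = r ⊗ₜ D.j0 a := rfl
@[simp] theorem r1_tmul (r : R) (a : D.A1) : D.r1 R (r ⊗ₜ a) = r ⊗ₜ D.j1 a := rfl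
@[simp] theorem εR_tmul (r : R) (a : D.A0) : D.εR R (r ⊗ₜ a) = r * algebraMap k R (D.ε0 a) := rfl

theorem r0_x_mul_r1_y : D.r0 R (D.xR R) * D.r1 R (D.yR R) = 1 := by
  simp [Algebra.TensorProduct.tmul_mul_tmul, D.x_mul_y, Algebra.TensorProduct.one_def]

theorem εR_xR : D.εR R (D.xR R) = 0 := by simp [D.ε0_x]

/-- The basis `x ^ e * b0 i` of the first chart with coefficients in `R`. -/
noncomputable def rBasis0 : Module.Basis (Σ _ : Fin D.n, ℕ) R (D.R0 R) :=
  Algebra.TensorProduct.basis R D.kBasis0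

/-- The basis `y ^ e * b1 i` of the second chart with coefficients in `R`. -/
noncomputable def rBasis1 : Module.Basis (Σ _ : Fin D.n, ℕ) R (D.R1 R) :=
  Algebra.TensorProduct.basis R D.kBasis1

theorem rBasis0_apply (p : Σ _ : Fin D.n, ℕ) :
    D.rBasis0 R p = D.xR R ^ p.2 * ((1 : R) ⊗ₜ D.b0 p.1) := by
  simp [rBasis0, kBasis0_apply, Algebra.TensorProduct.tmul_pow, Algebra.TensorProduct.tmul_mul_tmul]

theorem rBasis1_apply (p : Σ _ : Fin D.n, ℕ) :
    D.rBasis1 R p = D.yR R ^ p.2 * ((1 : R) ⊗ₜ D.b1 p.1) := by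
  simp [rBasis1, kBasis1_apply, Algebra.TensorProduct.tmul_pow, Algebra.TensorProduct.tmul_mul_tmul]

theorem exists_pow_mul_r0 (a : D.R01 R) :
    ∃ (N : ℕ) (a0 : D.R0 R), D.r0 R (D.xR R) ^ N * a = D.r0 R a0 := by
  induction a using TensorProduct.induction_on with
  | zero => exact ⟨0, 0, by simp⟩
  | tmul r a =>
    obtain ⟨N, a0, h⟩ := D.exists_pow_mul0 a
    refine ⟨N, r ⊗ₜ a0, ?_⟩
    simp only [r0_tmul, Algebra.TensorProduct.tmul_pow, Algebra.TensorProduct.tmul_mul_tmul,
      one_pow, one_mul, h]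
  | add a b ha hb =>
    obtain ⟨N, a0, ha⟩ := ha
    obtain ⟨N', b0, hb⟩ := hb
    refine ⟨N + N', D.xR R ^ N' * a0 + D.xR R ^ N * b0, ?_⟩
    rw [map_add, map_mul, map_mul, map_pow, map_pow, ← ha, ← hb]
    ring

theorem exists_pow_mul_r1 (a : D.R01 R) :
    ∃ (N : ℕ) (a1 : D.R1 R), D.r1 R (D.yR R) ^ N * a = D.r1 R a1 := by
  induction a using TensorProduct.induction_on with
  | zero => exact ⟨0, 0, by simp⟩
  | tmul r a =>
    obtain ⟨N, a1, h⟩ := D.exists_pow_mul1 a
    refine ⟨N, r ⊗ₜ a1, ?_⟩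
    simp only [r1_tmul, Algebra.TensorProduct.tmul_pow, Algebra.TensorProduct.tmul_mul_tmul,
      one_pow, one_mul, h]
  | add a b ha hb =>
    obtain ⟨N, a0, ha⟩ := ha
    obtain ⟨N', b0, hb⟩ := hb
    refine ⟨N + N', D.yR R ^ N' * a0 + D.yR R ^ N * b0, ?_⟩
    rw [map_add, map_mul, map_mul, map_pow, map_pow, ← ha, ← hb]
    ring

theorem r0_injective : Function.Injective (D.r0 R) :=
  Module.Flat.lTensor_preserves_injective_linearMap (M := R) D.j0.toLinearMap D.j0_injective

end ChartData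

end FermatLib.AV
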