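import Fermat.Agent.AV.Jac.Core.Basic

/-!
A module over a chart which is free of rank `n` over the coordinate ring is a line bundle.
-/

set_option autoImplicit false

universe u

open scoped TensorProduct
open Polynomial

namespace FermatLib.AV

namespace FreeInvertible

section Adjugate

variable {S A N : Type*} [CommRing S] [CommRing A] [Algebra S A] [AddCommGroup N] [Module A N]
  [Module S N] [IsScalarTower S A N] {ι : Type*} [Fintype ι] [DecidableEq ι]
  (bA : Module.Basis ι S A) (bN : Module.Basis ι S N)

/-- The determinant of `a ↦ a • v`. -/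
noncomputable def spanDet (v : N) : S :=
  (LinearMap.toMatrix bA bN ((LinearMap.toSpanSingleton A N v).restrictScalars S)).det

theorem exists_dual_eq (v : N) : ∃ f : Module.Dual A N,
    f v = algebraMap S A (spanDet bA bN v * spanDet bA bN v) ∧
      ∀ z, f z • v = (spanDet bA bN v * spanDet bA bN v) • z := by
  let μ : A →ₗ[S] N := (LinearMap.toSpanSingleton A N v).restrictScalars S
  let M := LinearMap.toMatrix bA bN μ
  let δ := spanDet bA bN v
  let ψ : N →ₗ[S] A := Matrix.toLin bN bA M.adjugate
  have h1 : ∀ a : A, ψ (a • v) = δ • a := fun a => by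
    have : ψ.comp μ = δ • LinearMap.id := by
      conv_lhs => rw [← Matrix.toLin_toMatrix bA bN μ]
      rw [← Matrix.toLin_mul, Matrix.adjugate_mul, map_smul, Matrix.toLin_one]
      rfl
    exact LinearMap.congr_fun this a
  have h2 : ∀ z : N, ψ z • v = δ • z := fun z => by
    have : μ.comp ψ = δ • LinearMap.id := by
      conv_lhs => rw [← Matrix.toLin_toMatrix bA bN μ]
      rw [← Matrix.toLin_mul, Matrix.mul_adjugate, map_smul, Matrix.toLin_one]
      rfl
    exact LinearMap.congr_fun this z
  let f : Module.Dual A N :=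
    { toFun := fun z => δ • ψ z
      map_add' := fun a b => by rw [map_add, smul_add]
      map_smul' := fun a z => by
        have h : (ψ (a • z) - a * ψ z) • v = 0 := by
          rw [sub_smul, h2, mul_smul, h2, smul_comm, sub_self]
        have h' := h1 (ψ (a • z) - a * ψ z)
        rw [h, map_zero, smul_sub, eq_comm, sub_eq_zero] at h'
        rw [h', RingHom.id_apply, smul_eq_mul, mul_smul_comm] }
  refine ⟨f, ?_, fun z => ?_⟩
  · change δ • ψ v = _
    conv_lhs => rw [← one_smul A v, h1]
    rw [smul_smul, ← Algebra.algebraMap_eq_smul_one]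
  · change (δ • ψ z) • v = _
    rw [smul_assoc, h2, smul_smul]

omit [Fintype ι] [DecidableEq ι] in
theorem repr_mem {q : Ideal S} {z : N}
    (hz : z ∈ q.map (algebraMap S A) • (⊤ : Submodule A N)) (i : ι) : bN.repr z i ∈ q := by
  have h : z ∈ q • (⊤ : Submodule S N) := by
    have h := (Submodule.restrictScalars_mem S _ z).2 hz
    rwa [Ideal.smul_restrictScalars, Submodule.restrictScalars_top] at h
  refine Submodule.smul_induction_on h (fun r hr n _ => ?_) fun a b ha hb => ?_
  · rw [map_smul, Finsupp.smul_apply, smul_eq_mul]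
    exact q.mul_mem_right _ hr
  · rw [map_add, Finsupp.add_apply]
    exact q.add_mem ha hb

theorem spanDet_notMem {q : Ideal S} (hq : q ≠ ⊤) {v : N}
    (hv : (⊤ : Submodule A N) ≤
      Submodule.span A {v} ⊔ q.map (algebraMap S A) • (⊤ : Submodule A N)) :
    spanDet bA bN v ∉ q := by
  intro hmem
  have hdec : ∀ j, ∃ a : A, bN j - a • v ∈ q.map (algebraMap S A) • (⊤ : Submodule A N) := by
    intro j
    obtain ⟨w, hw, t, ht, hwt⟩ :=
      Submodule.mem_sup.1 (hv (Submodule.mem_top : bN j ∈ (⊤ : Submodule A N)))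
    obtain ⟨a, rfl⟩ := Submodule.mem_span_singleton.1 hw
    exact ⟨a, by rwa [← hwt, add_sub_cancel_left]⟩
  choose a ha using hdec
  let μ : A →ₗ[S] N := (LinearMap.toSpanSingleton A N v).restrictScalars S
  let C : Matrix ι ι S := fun i j => bA.repr (a j) i
  have key : (Ideal.Quotient.mk q).mapMatrix (LinearMap.toMatrix bA bN μ * C) = 1 := by
    ext i j
    have h1 : (LinearMap.toMatrix bA bN μ * C) i j = bN.repr (a j • v) i :=
      congr_fun (LinearMap.toMatrix_mulVec_repr bA bN μ (a j)) i
    have h2 := repr_mem bN (ha j) i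
    rw [map_sub, Finsupp.sub_apply] at h2
    rw [RingHom.mapMatrix_apply, Matrix.map_apply, h1, ← Ideal.Quotient.eq.2 h2,
      bN.repr_self_apply, Matrix.one_apply, apply_ite (Ideal.Quotient.mk q), map_one, map_zero]
    simp only [eq_comm]
  have h := congrArg Matrix.det key
  rw [← RingHom.map_det, Matrix.det_mul, map_mul, Matrix.det_one] at h
  have h0 : Ideal.Quotient.mk q (spanDet bA bN v) = 0 := Ideal.Quotient.eq_zero_iff_mem.2 hmem
  unfold spanDet at h0
  rw [h0, zero_mul] at h
  exact hq ((Ideal.eq_top_iff_one q).2 (Ideal.Quotient.eq_zero_iff_mem.1 (by rw [map_one, ← h])))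

include bA bN in
/-- A module which is cyclic modulo every maximal ideal of the base is invertible. -/
theorem invertible_of_cyclic_mod
    (h : ∀ q : Ideal S, q.IsMaximal → ∃ v : N, (⊤ : Submodule A N) ≤
      Submodule.span A {v} ⊔ q.map (algebraMap S A) • (⊤ : Submodule A N)) :
    Module.Invertible A N := by
  let d : N → S := fun v => spanDet bA bN v * spanDet bA bN v
  have htop : Submodule.span S (Set.range d) = ⊤ := by
    by_contra hne
    obtain ⟨q, hq, hle⟩ := Ideal.exists_le_maximal _ hne
    obtain ⟨v, hv⟩ := h q hq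
    exact spanDet_notMem bA bN hq.ne_top hv
      ((or_self_iff).1 (hq.isPrime.mem_or_mem (hle (Submodule.subset_span ⟨v, rfl⟩))))
  obtain ⟨c, hc⟩ := (Finsupp.mem_span_range_iff_exists_finsupp (R := S)).1
    (htop ▸ Submodule.mem_top : (1 : S) ∈ Submodule.span S (Set.range d))
  choose f hf hfz using exists_dual_eq bA bN
  have hc' : ∑ v ∈ c.support, algebraMap S A (c v * d v) = 1 := by
    rw [← map_sum, ← map_one (algebraMap S A)]
    exact congrArg _ hc
  have rank_one : ∀ (g : Module.Dual A N) (m n : N), g m • n = g n • m := by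
    intro g m n
    have h' : ∀ v, algebraMap S A (d v * d v) • (g m • n) =
        algebraMap S A (d v * d v) • (g n • m) := by
      intro v
      have e : ∀ z, algebraMap S A (d v) • z = f v z • v := fun z => by
        rw [IsScalarTower.algebraMap_smul]; exact (hfz v z).symm
      have e' : ∀ x y, algebraMap S A (d v * d v) • (g x • y) =
          (f v x * g v * f v y) • v := by
        intro x y
        calc algebraMap S A (d v * d v) • (g x • y)
            = g (algebraMap S A (d v) • x) • (algebraMap S A (d v) • y) := by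
              rw [map_smul, smul_eq_mul, smul_smul, smul_smul, map_mul]
              congr 1
              ring
          _ = _ := by
              rw [e, e, map_smul, smul_eq_mul, smul_smul]
      rw [e', e']
      congr 1
      ring
    have htop2 : Submodule.span S (Set.range fun v => d v * d v) = ⊤ := by
      by_contra hne
      obtain ⟨q, hq, hle⟩ := Ideal.exists_le_maximal _ hne
      obtain ⟨v, hv⟩ := h q hq
      have := hq.isPrime.mem_or_mem (hle (Submodule.subset_span ⟨v, rfl⟩))
      exact spanDet_notMem bA bN hq.ne_top hv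
        ((or_self_iff).1 (hq.isPrime.mem_or_mem ((or_self_iff).1 this)))
    obtain ⟨c', hc''⟩ := (Finsupp.mem_span_range_iff_exists_finsupp (R := S)).1
      (htop2 ▸ Submodule.mem_top : (1 : S) ∈ Submodule.span S (Set.range fun v => d v * d v))
    rw [← one_smul A (g m • n), ← one_smul A (g n • m), ← map_one (algebraMap S A), ← hc'',
      Finsupp.sum, map_sum, Finset.sum_smul, Finset.sum_smul]
    exact Finset.sum_congr rfl fun v _ => by
      rw [smul_eq_mul, map_mul, mul_smul, mul_smul, h']
  let t : Module.Dual A N ⊗[A] N := ∑ v ∈ c.support, algebraMap S A (c v) • (f v ⊗ₜ v)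
  have ht : contractLeft A N t = 1 := by
    rw [map_sum, ← hc']
    refine Finset.sum_congr rfl fun v _ => ?_
    rw [map_smul, contractLeft_apply, hf, smul_eq_mul, ← map_mul]
  have hsurj : Function.Surjective (contractLeft A N) := fun a =>
    ⟨a • t, by rw [map_smul, ht, smul_eq_mul, mul_one]⟩
  have hx : ∀ x, x = contractLeft A N x • t := by
    intro x
    induction x using TensorProduct.induction_on with
    | zero => rw [map_zero, zero_smul]
    | tmul g m =>
      rw [contractLeft_apply, Finset.smul_sum]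
      calc g ⊗ₜ[A] m = (∑ v ∈ c.support, algebraMap S A (c v * d v)) • (g ⊗ₜ[A] m) := by
            rw [hc', one_smul]
        _ = ∑ v ∈ c.support, g m • algebraMap S A (c v) • (f v ⊗ₜ v) := by
            rw [Finset.sum_smul]
            refine Finset.sum_congr rfl fun v _ => ?_
            have e1 : g m • f v = f v m • g := by
              refine LinearMap.ext fun n => ?_
              have := congrArg (f v) (rank_one g m n)
              rw [map_smul, map_smul, smul_eq_mul, smul_eq_mul] at this
              simp only [LinearMap.smul_apply, smul_eq_mul]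
              rw [this, mul_comm]
            rw [map_mul, mul_smul, smul_comm (g m), show algebraMap S A (d v) = f v v from
              (hf v).symm, TensorProduct.smul_tmul' (g m), e1, TensorProduct.smul_tmul,
              ← rank_one (f v) v m, TensorProduct.tmul_smul]
    | add a b ha hb => rw [map_add, add_smul, ← ha, ← hb]
  exact ⟨⟨fun x y hxy => by rw [hx x, hx y, hxy], hsurj⟩⟩

theorem spanDet_ne_zero [IsDomain S] {v : N} (hinj : ∀ a : A, a • v = 0 → a = 0) :
    spanDet bA bN v ≠ 0 := by
  intro h0
  obtain ⟨w, hw, hw0⟩ := Matrix.exists_mulVec_eq_zero_iff.2 h0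
  have h := LinearMap.toMatrix_mulVec_repr bA bN
    ((LinearMap.toSpanSingleton A N v).restrictScalars S) (bA.equivFun.symm w)
  have hrepr : ⇑(bA.repr (bA.equivFun.symm w)) = w := bA.equivFun.apply_symm_apply w
  rw [hrepr, hw0] at h
  have ha : bA.equivFun.symm w = 0 := hinj _ (bN.repr.injective (Finsupp.ext fun i => by
    rw [map_zero]; exact (congr_fun h i).symm))
  exact hw (bA.equivFun.symm.map_eq_zero_iff.1 ha)

include bA bN in
/-- Over a Dedekind domain a free module is cyclic modulo every nonzero ideal of the base. -/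
theorem exists_cyclic_mod [Nonempty ι] [IsDomain S] [IsDomain A] [IsDedekindRing A]
    {q : Ideal S} (hq : q ≠ ⊥) : ∃ v : N, (⊤ : Submodule A N) ≤
      Submodule.span A {v} ⊔ q.map (algebraMap S A) • (⊤ : Submodule A N) := by
  have : IsDedekindDomain A := {}
  obtain ⟨i0⟩ := ‹Nonempty ι›
  have hcancel : ∀ (s : S), s ≠ 0 → ∀ z : N, s • z = 0 → z = 0 := fun s hs z hz => by
    have h := congrArg bN.repr hz
    rw [map_smul, map_zero] at h
    refine bN.repr.injective (Finsupp.ext fun i => ?_)
    simpa [hs] using DFunLike.congr_fun h i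
  have htf : ∀ a : A, a ≠ 0 → ∀ z : N, a • z = 0 → z = 0 := fun a ha z hz => by
    obtain ⟨g, -, hg⟩ := exists_dual_eq (N := A) bA bA a
    have hd : spanDet bA bA a ≠ 0 := spanDet_ne_zero bA bA fun a' h => by
      simpa [ha] using h
    refine hcancel _ (mul_ne_zero hd hd) z ?_
    rw [← IsScalarTower.algebraMap_smul A, Algebra.algebraMap_eq_smul_one, ← hg, smul_eq_mul,
      mul_smul, hz, smul_zero]
  let v0 := bN i0
  have hd0 : spanDet bA bN v0 ≠ 0 :=
    spanDet_ne_zero bA bN fun a h => not_imp_not.1 (fun ha h => bN.ne_zero i0 (htf a ha _ h)) h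
  obtain ⟨f, hf, hfz⟩ := exists_dual_eq bA bN v0
  have hinj : Function.Injective f := by
    rw [injective_iff_map_eq_zero]
    intro z hz
    exact hcancel _ (mul_ne_zero hd0 hd0) z (by rw [← hfz, hz, zero_smul])
  have halg : Function.Injective (algebraMap S A) := by
    rw [injective_iff_map_eq_zero]
    intro s hs
    have h : s • bA i0 = 0 := by rw [Algebra.smul_def, hs, zero_mul]
    have := DFunLike.congr_fun (congrArg bA.repr h) i0
    simpa using this
  let I : Ideal A := LinearMap.range f
  have hI : I ≠ ⊥ := by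
    intro h
    have hm : f v0 ∈ I := ⟨v0, rfl⟩
    rw [h, Submodule.mem_bot, hf, map_eq_zero_iff _ halg] at hm
    exact mul_ne_zero hd0 hd0 hm
  have hqA : q.map (algebraMap S A) ≠ ⊥ := fun h => hq (by
    rwa [Ideal.map_eq_bot_iff_of_injective halg] at h)
  obtain ⟨a, ha⟩ := IsDedekindDomain.exists_sup_span_eq (Ideal.mul_le_right (I := q.map _) (J := I))
    (mul_ne_zero hqA hI)
  have haI : a ∈ I := ha ▸ Ideal.mem_sup_right (Ideal.mem_span_singleton_self a)
  obtain ⟨v, rfl⟩ := haI
  refine ⟨v, fun n _ => ?_⟩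
  have hn : f n ∈ (Submodule.span A {v} ⊔
      q.map (algebraMap S A) • (⊤ : Submodule A N)).map f := by
    rw [Submodule.map_sup, Submodule.map_span, Set.image_singleton, Submodule.map_smul'',
      Submodule.map_top, sup_comm, smul_eq_mul]
    change f n ∈ q.map (algebraMap S A) * I ⊔ Ideal.span {f v}
    rw [ha]
    exact ⟨n, rfl⟩
  obtain ⟨z, hz, hzn⟩ := hn
  rwa [← hinj hzn]

end Adjugate

section BaseChange

variable {S S' A A' N : Type*} [CommRing S] [CommRing S'] [CommRing A] [CommRing A']
  [Algebra S S'] [Algebra S A] [Algebra A A'] [Algebra S A'] [Algebra S' A']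
  [IsScalarTower S A A'] [IsScalarTower S S' A'] [AddCommGroup N] [Module A N] [Module S N]
  [IsScalarTower S A N] {ι : Type*} [Fintype ι] [Nonempty ι]

/-- Cyclicity modulo an ideal descends from a Dedekind base change. -/
theorem exists_cyclic_mod_of_baseChange (bA : Module.Basis ι S A) (bA' : Module.Basis ι S' A')
    (hb : ∀ i, algebraMap A A' (bA i) = bA' i) (bN : Module.Basis ι S N)
    [IsDomain S'] [IsDomain A'] [IsDedekindRing A'] {q : Ideal S}
    (hq : q.map (algebraMap S S') ≠ ⊥) (θ : A' →ₐ[A] A ⧸ q.map (algebraMap S A)) :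
    ∃ v : N, (⊤ : Submodule A N) ≤
      Submodule.span A {v} ⊔ q.map (algebraMap S A) • (⊤ : Submodule A N) := by
  classical
  have hpush : Algebra.IsPushout S S' A A' := by
    constructor
    refine IsBaseChange.of_equiv ((bA.baseChange S').equiv bA' (Equiv.refl ι)) fun x => ?_
    have e : ((bA.baseChange S').equiv bA' (Equiv.refl ι)).toLinearMap.restrictScalars S ∘ₗ
        TensorProduct.mk S S' A 1 = (IsScalarTower.toAlgHom S A A').toLinearMap := by
      refine bA.ext fun i => ?_
      simp only [LinearMap.comp_apply, LinearMap.restrictScalars_apply, LinearEquiv.coe_coe,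
        TensorProduct.mk_apply, AlgHom.toLinearMap_apply, IsScalarTower.coe_toAlgHom', hb,
        ← Module.Basis.baseChange_apply, Module.Basis.equiv_apply, Equiv.refl_apply]
    exact LinearMap.congr_fun e x
  let bN' : Module.Basis ι S' (A' ⊗[A] N) :=
    (bN.baseChange S').map (Algebra.IsPushout.cancelBaseChange S S' A A' N).symm
  obtain ⟨v', hv'⟩ := exists_cyclic_mod bA' bN' hq
  let η : A' ⊗[A] N →ₗ[A] N ⧸ q.map (algebraMap S A) • (⊤ : Submodule A N) :=
    TensorProduct.lift (LinearMap.mk₂ A (fun a n => θ a • Submodule.Quotient.mk n)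
      (fun a b n => by rw [map_add, add_smul])
      (fun r a n => by rw [map_smul, smul_assoc])
      (fun a m n => by rw [Submodule.Quotient.mk_add, smul_add])
      (fun r a n => by rw [Submodule.Quotient.mk_smul, smul_comm]))
  have hη : ∀ (a : A') (z : A' ⊗[A] N), η (a • z) = θ a • η z := by
    intro a z
    induction z using TensorProduct.induction_on with
    | zero => rw [smul_zero, map_zero, smul_zero]
    | tmul b n =>
      simp only [TensorProduct.smul_tmul', smul_eq_mul, η, TensorProduct.lift.tmul,
        LinearMap.mk₂_apply, map_mul, mul_smul]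
    | add z w hz hw => rw [smul_add, map_add, hz, hw, map_add, smul_add]
  have hker : ∀ a ∈ (q.map (algebraMap S S')).map (algebraMap S' A'), θ a = 0 := by
    intro a ha
    rw [Ideal.map_map, ← IsScalarTower.algebraMap_eq, IsScalarTower.algebraMap_eq S A A',
      ← Ideal.map_map] at ha
    refine (Ideal.map_le_iff_le_comap.2 ?_ : _ ≤ RingHom.ker θ.toRingHom) ha
    intro b hb
    rw [Ideal.mem_comap, RingHom.mem_ker, AlgHom.toRingHom_eq_coe, RingHom.coe_coe,
      AlgHom.commutes, Ideal.Quotient.algebraMap_eq, Ideal.Quotient.eq_zero_iff_mem]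
    exact hb
  obtain ⟨v, hv⟩ := Submodule.Quotient.mk_surjective _ (η v')
  refine ⟨v, fun n _ => ?_⟩
  obtain ⟨w, hw, t, ht, hwt⟩ := Submodule.mem_sup.1
    (hv' (Submodule.mem_top : (1 : A') ⊗ₜ[A] n ∈ (⊤ : Submodule A' (A' ⊗[A] N))))
  obtain ⟨a', rfl⟩ := Submodule.mem_span_singleton.1 hw
  have ht0 : η t = 0 := by
    refine Submodule.smul_induction_on ht (fun r hr z _ => ?_) fun x y hx hy => ?_
    · rw [hη, hker r hr, zero_smul]
    · rw [map_add, hx, hy, add_zero]
  obtain ⟨a, ha⟩ := Ideal.Quotient.mk_surjective (θ a')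
  have hn : η (1 ⊗ₜ n) = Submodule.Quotient.mk n := by simp [η]
  rw [← hwt, map_add, ht0, add_zero, hη, ← ha, ← hv] at hn
  have hd : n - a • v ∈ q.map (algebraMap S A) • (⊤ : Submodule A N) :=
    (Submodule.Quotient.eq _).1 hn.symm
  exact Submodule.mem_sup.2
    ⟨a • v, Submodule.smul_mem _ _ (Submodule.mem_span_singleton_self v), _, hd,
      add_sub_cancel _ _⟩

end BaseChange

theorem bijective_tensor_sum {k : Type u} [Field k] {A : Type u} [CommRing A] [Algebra k A]
    {x : A} {n : ℕ} {b : Fin n → A}
    (hb : Function.Bijective fun p : Fin n → k[X] => ∑ i, aeval x (p i) * b i)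
    (R : Type u) [CommRing R] [Algebra k R] :
    Function.Bijective fun p : Fin n → R[X] =>
      ∑ i, aeval ((1 : R) ⊗ₜ[k] x : R ⊗[k] A) (p i) * ((1 : R) ⊗ₜ[k] b i) := by
  classical
  let c : (Fin n → k[X]) ≃ₗ[k] A := LinearEquiv.ofBijective
    { toFun := fun p => ∑ i, aeval x (p i) * b i
      map_add' := fun p q => by simp [add_mul, Finset.sum_add_distrib]
      map_smul' := fun r p => by simp [Finset.smul_sum] } hb
  let bk := (Pi.basis fun _ : Fin n => Polynomial.basisMonomials k).map c
  let bR := Algebra.TensorProduct.basis R bk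
  let Ψ : (Fin n → R[X]) →ₗ[R] R ⊗[k] A :=
    { toFun := fun p => ∑ i, aeval ((1 : R) ⊗ₜ[k] x : R ⊗[k] A) (p i) * ((1 : R) ⊗ₜ[k] b i)
      map_add' := fun p q => by simp [add_mul, Finset.sum_add_distrib]
      map_smul' := fun r p => by simp [Finset.smul_sum] }
  have h : Ψ = ((Pi.basis fun _ : Fin n => Polynomial.basisMonomials R).equiv bR
      (Equiv.refl _)).toLinearMap := by
    refine (Pi.basis fun _ : Fin n => Polynomial.basisMonomials R).ext fun p => ?_
    obtain ⟨i, e⟩ := p
    rw [LinearEquiv.coe_coe, Module.Basis.equiv_apply, Equiv.refl_apply]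
    simp only [Ψ, bR, bk, Pi.basis_apply, LinearMap.coe_mk, AddHom.coe_mk,
      Algebra.TensorProduct.basis_apply, Module.Basis.map_apply, c, LinearEquiv.ofBijective_apply]
    rw [Finset.sum_eq_single i (fun j _ hj => by simp [hj]) (by simp),
      Finset.sum_eq_single i (fun j _ hj => by simp [hj]) (by simp)]
    simp [Polynomial.aeval_monomial, Algebra.TensorProduct.tmul_pow,
      Algebra.TensorProduct.tmul_mul_tmul]
  change Function.Bijective Ψ
  rw [h]
  exact LinearEquiv.bijective _

end FreeInvertible

/-- A module over `R ⊗ A` free of the same rank as `A` over `R[x]` is invertible, if all the fibres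
of `A` are Dedekind domains. -/
theorem invertible_of_polynomial_basis {k : Type u} [Field k] {A : Type u} [CommRing A]
    [Algebra k A] (x : A) {n : ℕ} (b : Fin n → A)
    (hb : Function.Bijective fun p : Fin n → k[X] => ∑ i, aeval x (p i) * b i)
    (hdom : ∀ (K : Type u) [Field K] [Algebra k K], IsDomain (K ⊗[k] A))
    (hded : ∀ (K : Type u) [Field K] [Algebra k K], IsDedekindRing (K ⊗[k] A))
    (R : Type u) [CommRing R] [Algebra k R] {N : Type u} [AddCommGroup N]
    [Module (R ⊗[k] A) N] (e : Fin n → N)
    (he : Function.Bijective fun p : Fin n → R[X] =>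
      ∑ j, aeval ((1 : R) ⊗ₜ[k] x : R ⊗[k] A) (p j) • e j) :
    Module.Invertible (R ⊗[k] A) N := by
  classical
  let xR : R ⊗[k] A := (1 : R) ⊗ₜ[k] x
  let : Algebra R[X] (R ⊗[k] A) := (aeval xR).toRingHom.toAlgebra
  let : Module R[X] N := Module.compHom N (algebraMap R[X] (R ⊗[k] A))
  have : IsScalarTower R[X] (R ⊗[k] A) N := IsScalarTower.of_algebraMap_smul fun _ _ => rfl
  have halg : ∀ s, algebraMap R[X] (R ⊗[k] A) s = aeval xR s := fun _ => rfl
  let bA : Module.Basis (Fin n) R[X] (R ⊗[k] A) := Module.Basis.ofEquivFun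
    (LinearEquiv.ofBijective
      { toFun := fun p => ∑ i, aeval xR (p i) * ((1 : R) ⊗ₜ[k] b i)
        map_add' := fun p q => by simp [add_mul, Finset.sum_add_distrib]
        map_smul' := fun r p => by
          simp [Algebra.smul_def, halg, Finset.mul_sum, mul_assoc] }
      (FreeInvertible.bijective_tensor_sum hb R)).symm
  have hbA : ∀ i, bA i = (1 : R) ⊗ₜ[k] b i := fun i => by
    simp [bA, Pi.single_apply, apply_ite (aeval xR), ite_mul]
  let bN : Module.Basis (Fin n) R[X] N := Module.Basis.ofEquivFun
    (LinearEquiv.ofBijective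
      { toFun := fun p => ∑ j, aeval xR (p j) • e j
        map_add' := fun p q => by simp [add_smul, Finset.sum_add_distrib]
        map_smul' := fun r p => by
          simp only [Pi.smul_apply, smul_eq_mul, map_mul, mul_smul, RingHom.id_apply,
            Finset.smul_sum]
          rfl }
      he).symm
  refine FreeInvertible.invertible_of_cyclic_mod bA bN fun q hq => ?_
  have hn : Nonempty (Fin n) := by
    by_contra h
    rw [not_nonempty_iff] at h
    have : Subsingleton A := hb.2.subsingleton
    have : Subsingleton (k ⊗[k] A) :=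
      (Algebra.TensorProduct.lid k A).toEquiv.subsingleton
    exact not_subsingleton (k ⊗[k] A) this
  let p : Ideal R := q.comap C
  let κ := p.ResidueField
  let xκ : κ ⊗[k] A := (1 : κ) ⊗ₜ[k] x
  let φ : R ⊗[k] A →ₐ[k] κ ⊗[k] A :=
    Algebra.TensorProduct.map (IsScalarTower.toAlgHom k R κ) (AlgHom.id k A)
  let : Algebra (R ⊗[k] A) (κ ⊗[k] A) := φ.toRingHom.toAlgebra
  let : Algebra R[X] κ[X] := (Polynomial.mapRingHom (algebraMap R κ)).toAlgebra
  let : Algebra κ[X] (κ ⊗[k] A) := (aeval xκ).toRingHom.toAlgebra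
  let : Algebra R[X] (κ ⊗[k] A) := (φ.toRingHom.comp (aeval xR).toRingHom).toAlgebra
  have : IsScalarTower R[X] (R ⊗[k] A) (κ ⊗[k] A) := IsScalarTower.of_algebraMap_eq fun _ => rfl
  have : IsScalarTower R[X] κ[X] (κ ⊗[k] A) := by
    refine IsScalarTower.of_algebraMap_eq fun s => ?_
    change φ (aeval xR s) = aeval xκ (s.map (algebraMap R κ))
    induction s using Polynomial.induction_on' with
    | add a c ha hc => rw [map_add, map_add, ha, hc, Polynomial.map_add, map_add]
    | monomial j r =>
      simp [xR, xκ, φ, Polynomial.aeval_monomial, Algebra.TensorProduct.tmul_pow,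
        Algebra.TensorProduct.tmul_mul_tmul, IsScalarTower.coe_toAlgHom']
  have hκ : ∀ s, algebraMap κ[X] (κ ⊗[k] A) s = aeval xκ s := fun _ => rfl
  let bA' : Module.Basis (Fin n) κ[X] (κ ⊗[k] A) := Module.Basis.ofEquivFun
    (LinearEquiv.ofBijective
      { toFun := fun p => ∑ i, aeval xκ (p i) * ((1 : κ) ⊗ₜ[k] b i)
        map_add' := fun p q => by simp [add_mul, Finset.sum_add_distrib]
        map_smul' := fun r p => by
          simp [Algebra.smul_def, hκ, Finset.mul_sum, mul_assoc] }
      (FreeInvertible.bijective_tensor_sum hb κ)).symm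
  have hbA' : ∀ i, bA' i = (1 : κ) ⊗ₜ[k] b i := fun i => by
    simp [bA', Pi.single_apply, apply_ite (aeval xκ), ite_mul]
  have := hdom κ
  have := hded κ
  have hq' : q.map (algebraMap R[X] κ[X]) ≠ ⊥ := by
    intro h0
    have hmem : ∀ i ∈ q, i.map (algebraMap R κ) = 0 := fun i hi => by
      have : algebraMap R[X] κ[X] i ∈ q.map (algebraMap R[X] κ[X]) := Ideal.mem_map_of_mem _ hi
      rwa [h0, Ideal.mem_bot] at this
    by_cases hX : (X : R[X]) ∈ q
    · exact Polynomial.X_ne_zero (R := κ) (by simpa using hmem X hX)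
    · obtain ⟨g, i, hi, hgi⟩ := hq.exists_inv hX
      have h := congrArg (Polynomial.map (algebraMap R κ)) hgi
      rw [Polynomial.map_add, Polynomial.map_mul, Polynomial.map_X, hmem i hi, add_zero,
        Polynomial.map_one] at h
      exact Polynomial.not_isUnit_X (IsUnit.of_mul_eq_one_right _ h)
  let qA : Ideal (R ⊗[k] A) := q.map (algebraMap R[X] (R ⊗[k] A))
  let mkR : R →ₐ[k] (R ⊗[k] A) ⧸ qA :=
    (Ideal.Quotient.mkₐ k qA).comp Algebra.TensorProduct.includeLeft
  have hC : ∀ r : R, algebraMap R[X] (R ⊗[k] A) (C r) = r ⊗ₜ[k] (1 : A) := fun r => by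
    rw [halg, aeval_C, Algebra.TensorProduct.algebraMap_apply, Algebra.algebraMap_self,
      RingHom.id_apply]
  have hp1 : p ≤ RingHom.ker mkR := fun r hr => by
    change Ideal.Quotient.mk qA (r ⊗ₜ[k] (1 : A)) = 0
    rw [Ideal.Quotient.eq_zero_iff_mem, ← hC]
    exact Ideal.mem_map_of_mem _ hr
  have hp2 : p.primeCompl ≤ (IsUnit.submonoid _).comap mkR := fun r hr => by
    change IsUnit (Ideal.Quotient.mk qA (r ⊗ₜ[k] (1 : A)))
    obtain ⟨g, i, hi, hgi⟩ := hq.exists_inv (x := C r) hr
    refine IsUnit.of_mul_eq_one_right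
      (Ideal.Quotient.mk qA (algebraMap R[X] (R ⊗[k] A) g)) ?_
    rw [← hC, ← map_mul, ← map_mul, ← map_one (Ideal.Quotient.mk qA), Ideal.Quotient.eq,
      ← map_one (algebraMap R[X] (R ⊗[k] A)), ← map_sub, ← hgi, sub_add_cancel_left]
    exact Ideal.mem_map_of_mem _ (q.neg_mem hi)
  let θ0 : κ ⊗[k] A →ₐ[k] (R ⊗[k] A) ⧸ qA :=
    Algebra.TensorProduct.lift (Ideal.ResidueField.liftₐ p mkR hp1 hp2)
      ((Ideal.Quotient.mkₐ k qA).comp Algebra.TensorProduct.includeRight)
      fun _ _ => Commute.all _ _
  let θ : κ ⊗[k] A →ₐ[R ⊗[k] A] (R ⊗[k] A) ⧸ qA :=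
    { θ0.toRingHom with
      commutes' := fun a => by
        change θ0 (φ a) = Ideal.Quotient.mk qA a
        induction a using TensorProduct.induction_on with
        | zero => simp
        | tmul r a =>
          simp only [φ, θ0, Algebra.TensorProduct.map_tmul, Algebra.TensorProduct.lift_tmul,
            IsScalarTower.coe_toAlgHom', AlgHom.id_apply]
          rw [Ideal.ResidueField.liftₐ_algebraMap p mkR hp1 hp2 r]
          simp only [mkR, AlgHom.comp_apply, Ideal.Quotient.mkₐ_eq_mk, ← map_mul,
            Algebra.TensorProduct.includeLeft_apply, Algebra.TensorProduct.includeRight_apply,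
            Algebra.TensorProduct.tmul_mul_tmul, mul_one, one_mul]
        | add a c ha hc => rw [map_add, map_add, ha, hc, map_add] }
  exact FreeInvertible.exists_cyclic_mod_of_baseChange bA bA'
    (fun i => by rw [hbA, hbA']; change φ _ = _; simp [φ]) bN hq' θ

namespace ChartData

variable {k : Type u} [Field k] (D : ChartData k) {R : Type u} [CommRing R] [Algebra k R]
  {N : Type u} [AddCommGroup N]

theorem invertible0_of_basis [Module (D.R0 R) N] (e : Fin D.n → N)
    (he : Function.Bijective fun p : Fin D.n → R[X] => ∑ j, aeval (D.xR R) (p j) • e j) :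
    Module.Invertible (D.R0 R) N :=
  invertible_of_polynomial_basis D.x D.b0 D.basis0 D.isDomain0 D.isDedekind0 R e he

theorem invertible1_of_basis [Module (D.R1 R) N] (e : Fin D.n → N)
    (he : Function.Bijective fun p : Fin D.n → R[X] => ∑ j, aeval (D.yR R) (p j) • e j) :
    Module.Invertible (D.R1 R) N :=
  invertible_of_polynomial_basis D.y D.b1 D.basis1 D.isDomain1 D.isDedekind1 R e he

end ChartData

end FermatLib.AV
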