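import Fermat.Agent.AV.Jac.Core.Ops

/-!
Recognising isomorphisms of bundles from their lattices.
-/

set_option autoImplicit false

universe u

open scoped TensorProduct

namespace FermatLib.AV

namespace ChartData

variable {k : Type u} [Field k] {D : ChartData k} {R : Type u} [CommRing R] [Algebra k R]

namespace Bundle

variable {B B' B'' : D.Bundle R}

theorem Isom.refl (B : D.Bundle R) : B.Isom B :=
  ⟨⟨LinearEquiv.refl _ _, fun _ => Iff.rfl, fun _ => Iff.rfl⟩⟩

theorem Isom.symm (h : B.Isom B') : B'.Isom B := by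
  obtain ⟨e⟩ := h
  exact ⟨⟨e.toEquiv.symm, fun m => by rw [← e.mem0, LinearEquiv.apply_symm_apply],
    fun m => by rw [← e.mem1, LinearEquiv.apply_symm_apply]⟩⟩

theorem Isom.trans (h : B.Isom B') (h' : B'.Isom B'') : B.Isom B'' := by
  obtain ⟨e⟩ := h
  obtain ⟨e'⟩ := h'
  exact ⟨⟨e.toEquiv.trans e'.toEquiv, fun m => (e'.mem0 _).trans (e.mem0 m),
    fun m => (e'.mem1 _).trans (e.mem1 m)⟩⟩

/-- Change of scalars from the overlap to the first chart. -/
noncomputable def linear0 (f : B.M →ₗ[D.R01 R] B'.M) : B.M →ₗ[D.R0 R] B'.M where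
  toFun := f
  map_add' := map_add f
  map_smul' a m := by rw [← B.smul0, map_smul, B'.smul0, RingHom.id_apply]

/-- Change of scalars from the overlap to the second chart. -/
noncomputable def linear1 (f : B.M →ₗ[D.R01 R] B'.M) : B.M →ₗ[D.R1 R] B'.M where
  toFun := f
  map_add' := map_add f
  map_smul' a m := by rw [← B.smul1, map_smul, B'.smul1, RingHom.id_apply]

theorem map_xR_pow_smul (f : B.M →ₗ[D.R01 R] B'.M) (N : ℕ) (m : B.M) :
    f (D.xR R ^ N • m) = D.xR R ^ N • f m := (linear0 f).map_smul _ m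

/-- A linear map carrying each lattice onto the corresponding one is an isomorphism of bundles. -/
theorem isom_of_map_eq (f : B.M →ₗ[D.R01 R] B'.M) (h0 : B.L0.map (linear0 f) = B'.L0)
    (h1 : B.L1.map (linear1 f) = B'.L1) : B.Isom B' := by
  have hm0 : ∀ m ∈ B.L0, f m ∈ B'.L0 := fun m hm => h0 ▸ ⟨m, hm, rfl⟩
  have hm1 : ∀ m ∈ B.L1, f m ∈ B'.L1 := fun m hm => h1 ▸ ⟨m, hm, rfl⟩
  let g0 : B.L0 →ₗ[D.R0 R] B'.L0 := (linear0 f).restrict hm0
  let g1 : B.L1 →ₗ[D.R1 R] B'.L1 := (linear1 f).restrict hm1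
  have hg0 : Function.Bijective g0 := Module.Invertible.bijective_of_surjective fun m => by
    obtain ⟨a, ha, h⟩ := (h0.symm ▸ m.2 : (m : B'.M) ∈ B.L0.map (linear0 f))
    exact ⟨⟨a, ha⟩, Subtype.ext h⟩
  have hg1 : Function.Bijective g1 := Module.Invertible.bijective_of_surjective fun m => by
    obtain ⟨a, ha, h⟩ := (h1.symm ▸ m.2 : (m : B'.M) ∈ B.L1.map (linear1 f))
    exact ⟨⟨a, ha⟩, Subtype.ext h⟩
  have hinj : Function.Injective f := by
    rw [injective_iff_map_eq_zero]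
    intro m hm
    obtain ⟨N, hN⟩ := B.exists_mem0 m
    have : g0 ⟨_, hN⟩ = g0 0 := Subtype.ext (by
      change f (D.xR R ^ N • m) = f 0
      rw [map_xR_pow_smul, hm, smul_zero, map_zero])
    rw [← B.yR_pow_smul_xR_pow_smul N m, show D.xR R ^ N • m = 0 from
      congrArg Subtype.val (hg0.1 this), smul_zero]
  have hsurj : Function.Surjective f := by
    intro m
    obtain ⟨N, hN⟩ := B'.exists_mem0 m
    obtain ⟨a, ha⟩ := hg0.2 ⟨_, hN⟩
    refine ⟨D.yR R ^ N • (a : B.M), ?_⟩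
    change linear1 f _ = m
    rw [map_smul]
    change D.yR R ^ N • f a = m
    rw [show f a = D.xR R ^ N • m from congrArg Subtype.val ha, B'.yR_pow_smul_xR_pow_smul]
  refine ⟨⟨LinearEquiv.ofBijective f ⟨hinj, hsurj⟩, fun m => ⟨fun h => ?_, hm0 m⟩,
    fun m => ⟨fun h => ?_, hm1 m⟩⟩⟩
  · obtain ⟨a, ha⟩ := hg0.2 ⟨_, h⟩
    exact (hinj (congrArg Subtype.val ha)) ▸ a.2
  · obtain ⟨a, ha⟩ := hg1.2 ⟨_, h⟩
    exact (hinj (congrArg Subtype.val ha)) ▸ a.2

end Bundle

end ChartData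

end FermatLib.AV
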