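import Fermat.Agent.AV.Jac.Core.Fibre
import Fermat.Agent.AV.Jac.Core.Trivial

/-!
Functoriality of the change of coefficients up to isomorphism.
-/

set_option autoImplicit false

universe u

open scoped TensorProduct

namespace FermatLib.AV

namespace ChartData

variable {k : Type u} [Field k] (D : ChartData k)
variable {R S T : Type u} [CommRing R] [Algebra k R] [CommRing S] [Algebra k S] [CommRing T]
  [Algebra k T]

theorem map01_comp (φ : R →ₐ[k] S) (ψ : S →ₐ[k] T) (a : D.R01 R) :
    D.map01 ψ (D.map01 φ a) = D.map01 (ψ.comp φ) a := by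
  induction a using TensorProduct.induction_on with
  | zero => simp
  | tmul r a => rfl
  | add a b ha hb => simp only [map_add, ha, hb]

theorem map01_id (a : D.R01 R) : D.map01 (AlgHom.id k R) a = a := by
  induction a using TensorProduct.induction_on with
  | zero => simp
  | tmul r a => rfl
  | add a b ha hb => simp only [map_add, ha, hb]

variable {D}

namespace Bundle

variable {B B' : D.Bundle R}

/-- An additive map semilinear for the two charts carries the span of a set into the span of its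
image. -/
theorem map_span0 {C : D.Bundle S} {φ : R →ₐ[k] S} (g : B.M →+ C.M)
    (hg : ∀ (a : D.R01 R) (m : B.M), g (a • m) = D.map01 φ a • g m) (s : Set B.M) :
    ∀ m ∈ Submodule.span (D.R0 R) s, g m ∈ Submodule.span (D.R0 S) (g '' s) := by
  intro m hm
  refine Submodule.span_induction (fun m hm => Submodule.subset_span ⟨m, hm, rfl⟩) ?_ ?_ ?_ hm
  · rw [map_zero]; exact Submodule.zero_mem _
  · intro a b _ _ ha hb; rw [map_add]; exact Submodule.add_mem _ ha hb
  · intro a m _ h
    rw [← B.smul0, hg, map01_r0, C.smul0]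
    exact Submodule.smul_mem _ _ h

theorem map_span1 {C : D.Bundle S} {φ : R →ₐ[k] S} (g : B.M →+ C.M)
    (hg : ∀ (a : D.R01 R) (m : B.M), g (a • m) = D.map01 φ a • g m) (s : Set B.M) :
    ∀ m ∈ Submodule.span (D.R1 R) s, g m ∈ Submodule.span (D.R1 S) (g '' s) := by
  intro m hm
  refine Submodule.span_induction (fun m hm => Submodule.subset_span ⟨m, hm, rfl⟩) ?_ ?_ ?_ hm
  · rw [map_zero]; exact Submodule.zero_mem _
  · intro a b _ _ ha hb; rw [map_add]; exact Submodule.add_mem _ ha hb
  · intro a m _ h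
    rw [← B.smul1, hg, map01_r1, C.smul1]
    exact Submodule.smul_mem _ _ h

theorem Isom.map (h : B.Isom B') (φ : R →ₐ[k] S) : (B.map φ).Isom (B'.map φ) := by
  obtain ⟨e⟩ := h
  refine IsPullback.isom_map (g := (B'.mapHom φ).comp e.toEquiv.toLinearMap.toAddMonoidHom)
    ⟨fun a m => ?_, ?_, ?_⟩
  · change B'.mapHom φ (e.toEquiv (a • m)) = _
    rw [map_smul, mapHom_smul]
    rfl
  · change Submodule.span _ ((fun m => B'.mapHom φ (e.toEquiv m)) '' _) = _
    refine congrArg _ ?_
    rw [← Set.image_image (B'.mapHom φ) e.toEquiv]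
    refine congrArg _ (Set.ext fun z => ⟨?_, fun hz => ⟨e.toEquiv.symm z, ?_, by simp⟩⟩)
    · rintro ⟨m, hm, rfl⟩; exact (e.mem0 m).2 hm
    · exact (e.mem0 _).1 (by simpa using hz)
  · change Submodule.span _ ((fun m => B'.mapHom φ (e.toEquiv m)) '' _) = _
    refine congrArg _ ?_
    rw [← Set.image_image (B'.mapHom φ) e.toEquiv]
    refine congrArg _ (Set.ext fun z => ⟨?_, fun hz => ⟨e.toEquiv.symm z, ?_, by simp⟩⟩)
    · rintro ⟨m, hm, rfl⟩; exact (e.mem1 m).2 hm
    · exact (e.mem1 _).1 (by simpa using hz)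

variable (B)

theorem isom_map_map (φ : R →ₐ[k] S) (ψ : S →ₐ[k] T) :
    ((B.map φ).map ψ).Isom (B.map (ψ.comp φ)) := by
  refine (IsPullback.isom_map (g := ((B.map φ).mapHom ψ).comp (B.mapHom φ))
    ⟨fun a m => ?_, ?_, ?_⟩).symm
  · change (B.map φ).mapHom ψ (B.mapHom φ (a • m)) = _
    rw [mapHom_smul, mapHom_smul, map01_comp]
    rfl
  · refine le_antisymm (Submodule.span_le.2 ?_) (Submodule.span_le.2 ?_)
    · rintro _ ⟨m, hm, rfl⟩
      exact Submodule.subset_span ⟨B.mapHom φ m, Submodule.subset_span ⟨m, hm, rfl⟩, rfl⟩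
    · rintro _ ⟨z, hz, rfl⟩
      have h := map_span0 (φ := ψ) (B := B.map φ) (C := (B.map φ).map ψ) ((B.map φ).mapHom ψ)
        (fun a m => mapHom_smul ψ (B.map φ) a m) _ z hz
      rwa [Set.image_image] at h
  · refine le_antisymm (Submodule.span_le.2 ?_) (Submodule.span_le.2 ?_)
    · rintro _ ⟨m, hm, rfl⟩
      exact Submodule.subset_span ⟨B.mapHom φ m, Submodule.subset_span ⟨m, hm, rfl⟩, rfl⟩
    · rintro _ ⟨z, hz, rfl⟩
      have h := map_span1 (φ := ψ) (B := B.map φ) (C := (B.map φ).map ψ) ((B.map φ).mapHom ψ)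
        (fun a m => mapHom_smul ψ (B.map φ) a m) _ z hz
      rwa [Set.image_image] at h

theorem isom_map_id : (B.map (AlgHom.id k R)).Isom B := by
  refine IsPullback.isom_map (g := AddMonoidHom.id B.M) ⟨fun a m => ?_, ?_, ?_⟩
  · rw [map01_id]; rfl
  · rw [AddMonoidHom.coe_id, Set.image_id, Submodule.span_eq]
  · rw [AddMonoidHom.coe_id, Set.image_id, Submodule.span_eq]

theorem isom_map_structBundle (φ : R →ₐ[k] S) :
    ((D.structBundle R).map φ).Isom (D.structBundle S) := by
  refine IsPullback.isom_map (g := (D.map01 φ).toAddMonoidHom) ⟨fun a m => ?_, ?_, ?_⟩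
  · exact map_mul (D.map01 φ) a m
  · refine le_antisymm (Submodule.span_le.2 ?_) (Submodule.span_le.2 ?_)
    · rintro _ ⟨m, hm, rfl⟩
      have h := map_span0 (B := D.structBundle R) (C := D.structBundle S) (φ := φ)
        (D.map01 φ).toAddMonoidHom (fun a m => map_mul (D.map01 φ) a m) _ m hm
      have e : (D.map01 φ).toAddMonoidHom '' {1} = {(1 : D.R01 S)} := by simp
      rwa [e] at h
    · intro z hz
      rw [Set.mem_singleton_iff] at hz
      subst hz
      exact Submodule.subset_span ⟨1, Submodule.mem_span_singleton_self _, map_one (D.map01 φ)⟩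
  · refine le_antisymm (Submodule.span_le.2 ?_) (Submodule.span_le.2 ?_)
    · rintro _ ⟨m, hm, rfl⟩
      have h := map_span1 (B := D.structBundle R) (C := D.structBundle S) (φ := φ)
        (D.map01 φ).toAddMonoidHom (fun a m => map_mul (D.map01 φ) a m) _ m hm
      have e : (D.map01 φ).toAddMonoidHom '' {1} = {(1 : D.R01 S)} := by simp
      rwa [e] at h
    · intro z hz
      rw [Set.mem_singleton_iff] at hz
      subst hz
      exact Submodule.subset_span ⟨1, Submodule.mem_span_singleton_self _, map_one (D.map01 φ)⟩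

theorem mapHom_xR_pow (φ : R →ₐ[k] S) (N : ℕ) (m : B.M) :
    B.mapHom φ (D.xR R ^ N • m) = D.xR S ^ N • B.mapHom φ m := by
  rw [mapHom_smul0, map_pow, map0_xR]

/-- Twisting by a power of the coordinate commutes with change of coefficients. -/
theorem isom_map_twist_xAut (φ : R →ₐ[k] S) (N : ℕ) :
    ((B.twist (B.xAut ^ N)).map φ).Isom ((B.map φ).twist ((B.map φ).xAut ^ N)) := by
  refine IsPullback.isom_map (g := (B.mapHom φ : (B.twist (B.xAut ^ N)).M →+ _))
    ⟨fun a m => mapHom_smul φ B a m, rfl, ?_⟩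
  refine le_antisymm (Submodule.span_le.2 ?_) (fun z hz => ?_)
  · rintro _ ⟨_, ⟨a, ha, rfl⟩, rfl⟩
    refine ⟨B.mapHom φ a, Submodule.subset_span ⟨a, ha, rfl⟩, ?_⟩
    rw [(B.map φ).xAut_pow_apply, B.xAut_pow_apply]
    exact (B.mapHom_xR_pow φ N a).symm
  · obtain ⟨w, hw, rfl⟩ := hz
    rw [(B.map φ).xAut_pow_apply]
    refine Submodule.span_induction ?_ ?_ ?_ ?_ hw
    · rintro _ ⟨a, ha, rfl⟩
      refine Submodule.subset_span ⟨D.xR R ^ N • a, ⟨a, ha, B.xAut_pow_apply N a⟩, ?_⟩
      exact B.mapHom_xR_pow φ N a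
    · rw [smul_zero]; exact Submodule.zero_mem _
    · intro a b _ _ ha hb; rw [smul_add]; exact Submodule.add_mem _ ha hb
    · intro a m _ h
      rw [(B.map φ).smul_comm01]
      exact Submodule.smul_mem _ _ h

end Bundle

end ChartData

end FermatLib.AV
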