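import Mathlib

/-!
Extending an invertible lattice along a square of rings.
-/

set_option autoImplicit false

universe u

open scoped TensorProduct

namespace FermatLib.AV

/-- Given a square of rings `A → A'`, `B → B'` with `B → B'` injective, the span of an invertible
lattice `L` in the base change of a module it generates is invertible. -/
theorem invertible_span_image {A B A' B' : Type u} [CommRing A] [CommRing B] [CommRing A']
    [CommRing B'] [Algebra A B] [Algebra A A'] [Algebra B B'] [Algebra A' B'] [Algebra A B']
    [IsScalarTower A B B'] [IsScalarTower A A' B'] {M N : Type u} [AddCommGroup M] [Module A M]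
    [Module A' M] [IsScalarTower A A' M] [AddCommGroup N] [Module A N] [Module B N]
    [Module A' N] [Module B' N] [IsScalarTower A B N] [IsScalarTower A A' N]
    [IsScalarTower A' B' N] [IsScalarTower B B' N] [IsScalarTower A B' N]
    (g : M →ₗ[A'] N) (hg : IsBaseChange B' g) (L : Submodule A M) [Module.Invertible A L]
    (hL : IsBaseChange A' L.subtype) (hinj : Function.Injective (algebraMap B B')) :
    Module.Invertible B (Submodule.span B (g '' (L : Set M))) := by
  have hcomp : IsBaseChange B' ((g.restrictScalars A).comp L.subtype) := hL.comp hg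
  let e : B' ⊗[A] L ≃ₗ[B'] N := hcomp.equiv
  let f : B →ₗ[B] B' := Algebra.linearMap B B'
  let ψ : B ⊗[A] L →ₗ[B] N :=
    (e.toLinearMap.restrictScalars B).comp
      (TensorProduct.AlgebraTensorModule.map f LinearMap.id)
  have hψ : ∀ (b : B) (l : L), ψ (b ⊗ₜ l) = b • g (l : M) := by
    intro b l
    simp only [ψ, LinearMap.comp_apply, TensorProduct.AlgebraTensorModule.map_tmul,
      LinearMap.id_apply, LinearMap.coe_restrictScalars, LinearEquiv.coe_coe]
    rw [show e (f b ⊗ₜ[A] l) = f b • g (l : M) from hcomp.equiv_tmul _ _]
    exact algebraMap_smul B' b (g (l : M))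
  have hψinj : Function.Injective ψ :=
    e.injective.comp
      (Module.Flat.rTensor_preserves_injective_linearMap (M := L) (f.restrictScalars A) hinj)
  have hrange : LinearMap.range ψ = Submodule.span B (g '' (L : Set M)) := by
    refine le_antisymm ?_ (Submodule.span_le.2 ?_)
    · rintro _ ⟨t, rfl⟩
      induction t using TensorProduct.induction_on with
      | zero => rw [map_zero]; exact Submodule.zero_mem _
      | tmul b l => rw [hψ]; exact Submodule.smul_mem _ _ (Submodule.subset_span ⟨l, l.2, rfl⟩)
      | add a b ha hb => rw [map_add]; exact Submodule.add_mem _ ha hb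
    · rintro _ ⟨m, hm, rfl⟩
      exact ⟨1 ⊗ₜ ⟨m, hm⟩, by rw [hψ, one_smul]⟩
  exact Module.Invertible.congr ((LinearEquiv.ofInjective ψ hψinj).trans
    (LinearEquiv.ofEq _ _ hrange))

end FermatLib.AV
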