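import Fermat.Agent.AV.Jac.Core.Iso
import Fermat.Agent.AV.Jac.Core.Extend

/-!
Change of coefficients of bundles.
-/

set_option autoImplicit false

universe u

open scoped TensorProduct

namespace FermatLib.AV

namespace ChartData

variable {k : Type u} [Field k] (D : ChartData k)
variable {R S : Type u} [CommRing R] [Algebra k R] [CommRing S] [Algebra k S] (φ : R →ₐ[k] S)

theorem map01_r0 (a : D.R0 R) : D.map01 φ (D.r0 R a) = D.r0 S (D.map0 φ a) := by
  induction a using TensorProduct.induction_on with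
  | zero => simp
  | tmul r a => rfl
  | add a b ha hb => simp only [map_add, ha, hb]

theorem map01_r1 (a : D.R1 R) : D.map01 φ (D.r1 R a) = D.r1 S (D.map1 φ a) := by
  induction a using TensorProduct.induction_on with
  | zero => simp
  | tmul r a => rfl
  | add a b ha hb => simp only [map_add, ha, hb]

theorem map0_algebraMap (r : R) : D.map0 φ (algebraMap R (D.R0 R) r) = algebraMap S (D.R0 S) (φ r) := by
  simp [ChartData.map0, Algebra.TensorProduct.algebraMap_apply]

theorem map01_algebraMap (r : R) :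
    D.map01 φ (algebraMap R (D.R01 R) r) = algebraMap S (D.R01 S) (φ r) := by
  simp [ChartData.map01, Algebra.TensorProduct.algebraMap_apply]

theorem map0_xR : D.map0 φ (D.xR R) = D.xR S := by simp [ChartData.map0]
theorem map1_yR : D.map1 φ (D.yR R) = D.yR S := by simp [ChartData.map1]
theorem εR_map0 (a : D.R0 R) : D.εR S (D.map0 φ a) = φ (D.εR R a) := by
  induction a using TensorProduct.induction_on with
  | zero => simp
  | tmul r a => simp [ChartData.map0]
  | add a b ha hb => simp only [map_add, ha, hb]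

theorem r1_injective : Function.Injective (D.r1 R) := by
  refine Module.Flat.lTensor_preserves_injective_linearMap (M := R) D.j1.toLinearMap ?_
  intro a b h
  let := D.j1.toRingHom.toAlgebra
  have := D.isLoc1
  have hd : IsDomain D.A1 := by
    have := D.isDomain1 k
    exact (Algebra.TensorProduct.lid k D.A1).symm.injective.isDomain
      (Algebra.TensorProduct.lid k D.A1).symm.toRingHom
  refine IsLocalization.injective D.A01
    (M := Submonoid.powers D.y) (powers_le_nonZeroDivisors_of_noZeroDivisors ?_) h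
  intro hy
  have h1 := D.x_mul_y
  rw [hy, map_zero, mul_zero] at h1
  have h0 : D.j0 1 = D.j0 0 := by rw [map_one, map_zero]; exact h1.symm
  exact one_ne_zero (α := k) (by simpa using congrArg D.ε0 (D.j0_injective h0))

variable {D}

/-- The overlap algebra of a change of coefficients. -/
@[reducible] noncomputable def alg01 : Algebra (D.R01 R) (D.R01 S) := (D.map01 φ).toRingHom.toAlgebra

namespace Bundle

variable (B : D.Bundle R)

/-- The sections over the overlap of the change of coefficients. -/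
def MapM : Type u := letI := alg01 (D := D) φ; D.R01 S ⊗[D.R01 R] B.M

noncomputable instance instAddCommGroupMapM : AddCommGroup (B.MapM φ) :=
  letI := alg01 (D := D) φ; (inferInstance : AddCommGroup (D.R01 S ⊗[D.R01 R] B.M))

noncomputable instance instModule01MapM : Module (D.R01 S) (B.MapM φ) :=
  letI := alg01 (D := D) φ; (inferInstance : Module (D.R01 S) (D.R01 S ⊗[D.R01 R] B.M))

noncomputable instance instModule0MapM : Module (D.R0 S) (B.MapM φ) :=
  Module.compHom _ (D.r0 S).toRingHom

noncomputable instance instModule1MapM : Module (D.R1 S) (B.MapM φ) :=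
  Module.compHom _ (D.r1 S).toRingHom

noncomputable instance instModuleMapM : Module S (B.MapM φ) :=
  Module.compHom _ (algebraMap S (D.R01 S))

instance instTower01MapM : IsScalarTower S (D.R01 S) (B.MapM φ) :=
  IsScalarTower.of_algebraMap_smul fun _ _ => rfl

instance instTower0MapM : IsScalarTower S (D.R0 S) (B.MapM φ) :=
  IsScalarTower.of_algebraMap_smul fun s m => by
    change D.r0 S (algebraMap S (D.R0 S) s) • m = algebraMap S (D.R01 S) s • m
    rw [AlgHom.commutes]

instance instTower1MapM : IsScalarTower S (D.R1 S) (B.MapM φ) :=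
  IsScalarTower.of_algebraMap_smul fun s m => by
    change D.r1 S (algebraMap S (D.R1 S) s) • m = algebraMap S (D.R01 S) s • m
    rw [AlgHom.commutes]

/-- The canonical map to the change of coefficients. -/
noncomputable def mapHom : B.M →+ B.MapM φ :=
  letI := alg01 (D := D) φ
  ((TensorProduct.mk (D.R01 R) (D.R01 S) B.M 1).toAddMonoidHom : B.M →+ D.R01 S ⊗[D.R01 R] B.M)

theorem mapHom_smul (a : D.R01 R) (m : B.M) :
    B.mapHom φ (a • m) = D.map01 φ a • B.mapHom φ m := by
  let := alg01 (D := D) φ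
  change (1 : D.R01 S) ⊗ₜ[D.R01 R] (a • m) = D.map01 φ a • ((1 : D.R01 S) ⊗ₜ[D.R01 R] m)
  rw [TensorProduct.tmul_smul, TensorProduct.smul_tmul', TensorProduct.smul_tmul', Algebra.smul_def,
    smul_eq_mul]
  rfl

theorem mapHom_smul0 (a : D.R0 R) (m : B.M) :
    B.mapHom φ (a • m) = D.map0 φ a • B.mapHom φ m := by
  rw [← B.smul0, mapHom_smul, map01_r0]
  rfl

theorem mapHom_smul1 (a : D.R1 R) (m : B.M) :
    B.mapHom φ (a • m) = D.map1 φ a • B.mapHom φ m := by
  rw [← B.smul1, mapHom_smul, map01_r1]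
  rfl

theorem mapM_induction {p : B.MapM φ → Prop} (zero : p 0)
    (smul : ∀ (a : D.R01 S) (m : B.M), p (a • B.mapHom φ m))
    (add : ∀ x y, p x → p y → p (x + y)) (z : B.MapM φ) : p z := by
  let := alg01 (D := D) φ
  induction (z : D.R01 S ⊗[D.R01 R] B.M) using TensorProduct.induction_on with
  | zero => exact zero
  | tmul a m =>
    have h : (a ⊗ₜ[D.R01 R] m : D.R01 S ⊗[D.R01 R] B.M) = a • ((1 : D.R01 S) ⊗ₜ[D.R01 R] m) := by
      rw [TensorProduct.smul_tmul', smul_eq_mul, mul_one]
    rw [h]
    exact smul a m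
  | add x y hx hy => exact add x y hx hy

theorem isLocalizedModule_L0 : let := ((D.r0 R).toRingHom.toAlgebra)
    ∀ [IsScalarTower (D.R0 R) (D.R01 R) B.M],
      IsBaseChange (D.R01 R) B.L0.subtype := by
  intro _ _
  have hloc : IsLocalization.Away (D.xR R) (D.R01 R) :=
    { map_units := by
        rintro ⟨_, N, rfl⟩
        exact IsUnit.of_mul_eq_one (D.r1 R (D.yR R) ^ N) (by
          change D.r0 R (D.xR R ^ N) * _ = 1
          rw [map_pow, ← mul_pow, D.r0_x_mul_r1_y, one_pow])
      surj := fun a => by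
        obtain ⟨N, a0, h⟩ := D.exists_pow_mul_r0 R a
        exact ⟨⟨a0, ⟨_, N, rfl⟩⟩, by rw [mul_comm]; simpa [RingHom.algebraMap_toAlgebra] using h⟩
      exists_of_eq := fun {a b} h => ⟨1, by rw [D.r0_injective R h]⟩ }
  have : IsLocalizedModule (Submonoid.powers (D.xR R)) B.L0.subtype :=
    { map_units := by
        rintro ⟨_, N, rfl⟩
        refine (Module.End.isUnit_iff _).2 (Function.bijective_iff_has_inverse.2
          ⟨fun m => D.yR R ^ N • m, fun m => ?_, fun m => ?_⟩)
        · exact B.yR_pow_smul_xR_pow_smul N m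
        · exact B.xR_pow_smul_yR_pow_smul N m
      surj := fun m => by
        obtain ⟨N, hN⟩ := B.exists_mem0 m
        exact ⟨⟨⟨_, hN⟩, ⟨_, N, rfl⟩⟩, rfl⟩
      exists_of_eq := fun {a b} h => ⟨1, by rw [Subtype.ext h]⟩ }
  exact IsLocalizedModule.isBaseChange (Submonoid.powers (D.xR R)) (D.R01 R) _

theorem isLocalizedModule_L1 : let := ((D.r1 R).toRingHom.toAlgebra)
    ∀ [IsScalarTower (D.R1 R) (D.R01 R) B.M],
      IsBaseChange (D.R01 R) B.L1.subtype := by
  intro _ _
  have hloc : IsLocalization.Away (D.yR R) (D.R01 R) :=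
    { map_units := by
        rintro ⟨_, N, rfl⟩
        exact IsUnit.of_mul_eq_one (D.r0 R (D.xR R) ^ N) (by
          change D.r1 R (D.yR R ^ N) * _ = 1
          rw [map_pow, ← mul_pow, mul_comm, D.r0_x_mul_r1_y, one_pow])
      surj := fun a => by
        obtain ⟨N, a0, h⟩ := D.exists_pow_mul_r1 R a
        exact ⟨⟨a0, ⟨_, N, rfl⟩⟩, by rw [mul_comm]; simpa [RingHom.algebraMap_toAlgebra] using h⟩
      exists_of_eq := fun {a b} h => ⟨1, by rw [D.r1_injective h]⟩ }
  have : IsLocalizedModule (Submonoid.powers (D.yR R)) B.L1.subtype :=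
    { map_units := by
        rintro ⟨_, N, rfl⟩
        refine (Module.End.isUnit_iff _).2 (Function.bijective_iff_has_inverse.2
          ⟨fun m => D.xR R ^ N • m, fun m => ?_, fun m => ?_⟩)
        · exact B.xR_pow_smul_yR_pow_smul N m
        · exact B.yR_pow_smul_xR_pow_smul N m
      surj := fun m => by
        obtain ⟨N, hN⟩ := B.exists_mem1 m
        exact ⟨⟨⟨_, hN⟩, ⟨_, N, rfl⟩⟩, rfl⟩
      exists_of_eq := fun {a b} h => ⟨1, by rw [Subtype.ext h]⟩ }
  exact IsLocalizedModule.isBaseChange (Submonoid.powers (D.yR R)) (D.R01 R) _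

theorem invertible_span0 :
    Module.Invertible (D.R0 S) (Submodule.span (D.R0 S) (B.mapHom φ '' (B.L0 : Set B.M))) := by
  let := alg01 (D := D) φ
  let : Algebra (D.R0 R) (D.R0 S) := (D.map0 φ).toRingHom.toAlgebra
  let : Algebra (D.R0 R) (D.R01 R) := (D.r0 R).toRingHom.toAlgebra
  let : Algebra (D.R0 S) (D.R01 S) := (D.r0 S).toRingHom.toAlgebra
  let : Algebra (D.R0 R) (D.R01 S) := ((D.map01 φ).toRingHom.comp (D.r0 R).toRingHom).toAlgebra
  let : Module (D.R01 R) (B.MapM φ) := Module.compHom _ (D.map01 φ).toRingHom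
  let : Module (D.R0 R) (B.MapM φ) :=
    Module.compHom _ ((D.map01 φ).toRingHom.comp (D.r0 R).toRingHom)
  have : IsScalarTower (D.R0 R) (D.R0 S) (D.R01 S) :=
    IsScalarTower.of_algebraMap_eq fun a => map01_r0 D φ a
  have : IsScalarTower (D.R0 R) (D.R01 R) (D.R01 S) := IsScalarTower.of_algebraMap_eq fun _ => rfl
  have hM : IsScalarTower (D.R0 R) (D.R01 R) B.M := IsScalarTower.of_algebraMap_smul B.smul0
  have : IsScalarTower (D.R0 R) (D.R0 S) (B.MapM φ) :=
    IsScalarTower.of_algebraMap_smul fun a m => by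
      change D.r0 S (D.map0 φ a) • m = D.map01 φ (D.r0 R a) • m
      rw [map01_r0]
  have : IsScalarTower (D.R0 R) (D.R01 R) (B.MapM φ) :=
    IsScalarTower.of_algebraMap_smul fun _ _ => rfl
  have : IsScalarTower (D.R01 R) (D.R01 S) (B.MapM φ) :=
    IsScalarTower.of_algebraMap_smul fun _ _ => rfl
  have : IsScalarTower (D.R0 R) (D.R01 S) (B.MapM φ) :=
    IsScalarTower.of_algebraMap_smul fun _ _ => rfl
  have : IsScalarTower (D.R0 S) (D.R01 S) (B.MapM φ) :=
    IsScalarTower.of_algebraMap_smul fun _ _ => rfl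
  let g : B.M →ₗ[D.R01 R] B.MapM φ :=
    { toFun := B.mapHom φ, map_add' := map_add _, map_smul' := B.mapHom_smul φ }
  have hg : IsBaseChange (D.R01 S) g :=
    IsBaseChange.of_equiv
      ({ toFun := id, map_add' := fun _ _ => rfl, map_smul' := fun _ _ => rfl, invFun := id,
         left_inv := fun _ => rfl, right_inv := fun _ => rfl } :
        D.R01 S ⊗[D.R01 R] B.M ≃ₗ[D.R01 S] B.MapM φ) fun _ => rfl
  exact invertible_span_image g hg B.L0 (B.isLocalizedModule_L0) (D.r0_injective S)

theorem invertible_span1 :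
    Module.Invertible (D.R1 S) (Submodule.span (D.R1 S) (B.mapHom φ '' (B.L1 : Set B.M))) := by
  let := alg01 (D := D) φ
  let : Algebra (D.R1 R) (D.R1 S) := (D.map1 φ).toRingHom.toAlgebra
  let : Algebra (D.R1 R) (D.R01 R) := (D.r1 R).toRingHom.toAlgebra
  let : Algebra (D.R1 S) (D.R01 S) := (D.r1 S).toRingHom.toAlgebra
  let : Algebra (D.R1 R) (D.R01 S) := ((D.map01 φ).toRingHom.comp (D.r1 R).toRingHom).toAlgebra
  let : Module (D.R01 R) (B.MapM φ) := Module.compHom _ (D.map01 φ).toRingHom
  let : Module (D.R1 R) (B.MapM φ) :=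
    Module.compHom _ ((D.map01 φ).toRingHom.comp (D.r1 R).toRingHom)
  have : IsScalarTower (D.R1 R) (D.R1 S) (D.R01 S) :=
    IsScalarTower.of_algebraMap_eq fun a => map01_r1 D φ a
  have : IsScalarTower (D.R1 R) (D.R01 R) (D.R01 S) := IsScalarTower.of_algebraMap_eq fun _ => rfl
  have hM : IsScalarTower (D.R1 R) (D.R01 R) B.M := IsScalarTower.of_algebraMap_smul B.smul1
  have : IsScalarTower (D.R1 R) (D.R1 S) (B.MapM φ) :=
    IsScalarTower.of_algebraMap_smul fun a m => by
      change D.r1 S (D.map1 φ a) • m = D.map01 φ (D.r1 R a) • m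
      rw [map01_r1]
  have : IsScalarTower (D.R1 R) (D.R01 R) (B.MapM φ) :=
    IsScalarTower.of_algebraMap_smul fun _ _ => rfl
  have : IsScalarTower (D.R01 R) (D.R01 S) (B.MapM φ) :=
    IsScalarTower.of_algebraMap_smul fun _ _ => rfl
  have : IsScalarTower (D.R1 R) (D.R01 S) (B.MapM φ) :=
    IsScalarTower.of_algebraMap_smul fun _ _ => rfl
  have : IsScalarTower (D.R1 S) (D.R01 S) (B.MapM φ) :=
    IsScalarTower.of_algebraMap_smul fun _ _ => rfl
  let g : B.M →ₗ[D.R01 R] B.MapM φ :=
    { toFun := B.mapHom φ, map_add' := map_add _, map_smul' := B.mapHom_smul φ }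
  have hg : IsBaseChange (D.R01 S) g :=
    IsBaseChange.of_equiv
      ({ toFun := id, map_add' := fun _ _ => rfl, map_smul' := fun _ _ => rfl, invFun := id,
         left_inv := fun _ => rfl, right_inv := fun _ => rfl } :
        D.R01 S ⊗[D.R01 R] B.M ≃ₗ[D.R01 S] B.MapM φ) fun _ => rfl
  exact invertible_span_image g hg B.L1 (B.isLocalizedModule_L1) D.r1_injective

/-- Change of coefficients. -/
@[reducible] noncomputable def map : D.Bundle S where
  M := B.MapM φ
  smul0 _ _ := rfl
  smul1 _ _ := rfl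
  L0 := Submodule.span (D.R0 S) (B.mapHom φ '' (B.L0 : Set B.M))
  L1 := Submodule.span (D.R1 S) (B.mapHom φ '' (B.L1 : Set B.M))
  invertible0 := B.invertible_span0 φ
  invertible1 := B.invertible_span1 φ
  exists_mem0 z := by
    induction z using B.mapM_induction φ with
    | zero => exact ⟨0, by simp⟩
    | smul a m =>
      obtain ⟨N, a0, ha⟩ := D.exists_pow_mul_r0 S a
      obtain ⟨N', hN'⟩ := B.exists_mem0 m
      refine ⟨N + N', ?_⟩
      have hmem : D.xR S ^ N' • B.mapHom φ m ∈
          Submodule.span (D.R0 S) (B.mapHom φ '' (B.L0 : Set B.M)) := by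
        refine Submodule.subset_span ⟨D.xR R ^ N' • m, hN', ?_⟩
        rw [mapHom_smul0, map_pow, map0_xR]
      have key : D.xR S ^ (N + N') • a • B.mapHom φ m = a0 • D.xR S ^ N' • B.mapHom φ m := by
        change D.r0 S (D.xR S ^ (N + N')) • a • B.mapHom φ m =
          D.r0 S a0 • D.r0 S (D.xR S ^ N') • B.mapHom φ m
        rw [smul_smul, smul_smul, ← ha, map_pow, map_pow, pow_add]
        congr 1
        ring
      rw [key]
      exact Submodule.smul_mem _ _ hmem
    | add z w hz hw =>
      obtain ⟨N, hz⟩ := hz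
      obtain ⟨N', hw⟩ := hw
      refine ⟨N + N', ?_⟩
      rw [smul_add]
      refine Submodule.add_mem _ ?_ ?_
      · rw [add_comm, pow_add, mul_smul]; exact Submodule.smul_mem _ _ hz
      · rw [pow_add, mul_smul]; exact Submodule.smul_mem _ _ hw
  exists_mem1 z := by
    induction z using B.mapM_induction φ with
    | zero => exact ⟨0, by simp⟩
    | smul a m =>
      obtain ⟨N, a0, ha⟩ := D.exists_pow_mul_r1 S a
      obtain ⟨N', hN'⟩ := B.exists_mem1 m
      refine ⟨N + N', ?_⟩
      have hmem : D.yR S ^ N' • B.mapHom φ m ∈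
          Submodule.span (D.R1 S) (B.mapHom φ '' (B.L1 : Set B.M)) := by
        refine Submodule.subset_span ⟨D.yR R ^ N' • m, hN', ?_⟩
        rw [mapHom_smul1, map_pow, map1_yR]
      have key : D.yR S ^ (N + N') • a • B.mapHom φ m = a0 • D.yR S ^ N' • B.mapHom φ m := by
        change D.r1 S (D.yR S ^ (N + N')) • a • B.mapHom φ m =
          D.r1 S a0 • D.r1 S (D.yR S ^ N') • B.mapHom φ m
        rw [smul_smul, smul_smul, ← ha, map_pow, map_pow, pow_add]
        congr 1
        ring
      rw [key]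
      exact Submodule.smul_mem _ _ hmem
    | add z w hz hw =>
      obtain ⟨N, hz⟩ := hz
      obtain ⟨N', hw⟩ := hw
      refine ⟨N + N', ?_⟩
      rw [smul_add]
      refine Submodule.add_mem _ ?_ ?_
      · rw [add_comm, pow_add, mul_smul]; exact Submodule.smul_mem _ _ hz
      · rw [pow_add, mul_smul]; exact Submodule.smul_mem _ _ hw

theorem isPullback_map : IsPullback φ B (B.map φ) (B.mapHom φ) :=
  ⟨B.mapHom_smul φ, rfl, rfl⟩

variable {B φ}

/-- A bundle exhibited as a change of coefficients is isomorphic to the standard one. -/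
theorem IsPullback.isom_map {B' : D.Bundle S} {g : B.M →+ B'.M} (hg : IsPullback φ B B' g) :
    (B.map φ).Isom B' := by
  let := alg01 (D := D) φ
  let : Module (D.R01 R) B'.M := Module.compHom _ (D.map01 φ).toRingHom
  have : IsScalarTower (D.R01 R) (D.R01 S) B'.M :=
    IsScalarTower.of_algebraMap_smul fun _ _ => rfl
  let gl : B.M →ₗ[D.R01 R] B'.M :=
    { toFun := g, map_add' := map_add g, map_smul' := hg.map_smul }
  let f0 : D.R01 S ⊗[D.R01 R] B.M →ₗ[D.R01 S] B'.M := LinearMap.liftBaseChange _ gl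
  let f : (B.map φ).M →ₗ[D.R01 S] B'.M := f0
  have hf : ∀ m, f (B.mapHom φ m) = g m := fun m => by
    change f0 ((1 : D.R01 S) ⊗ₜ[D.R01 R] m) = g m
    rw [LinearMap.liftBaseChange_tmul, one_smul]
    rfl
  refine isom_of_map_eq f ?_ ?_
  · change (Submodule.span _ _).map _ = _
    rw [Submodule.map_span, ← hg.span0]
    exact congrArg _ ((Set.image_image _ _ _).trans (Set.image_congr fun m _ => hf m))
  · change (Submodule.span _ _).map _ = _
    rw [Submodule.map_span, ← hg.span1]
    exact congrArg _ ((Set.image_image _ _ _).trans (Set.image_congr fun m _ => hf m))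

end Bundle

end ChartData

end FermatLib.AV
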