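import Fermat.Agent.AV.Jac.Core.Chi

/-!
Families of bundles without cohomology: change of coefficients, ranks and openness.
-/

set_option autoImplicit false

universe u

open scoped TensorProduct

namespace FermatLib.AV

namespace ChartData

variable {k : Type u} [Field k] {D : ChartData k}

namespace Bundle

variable {R : Type u} [CommRing R] [Algebra k R] {B : D.Bundle R}

theorem isAcyclic_iff_bijective : B.IsAcyclic ↔ Function.Bijective B.sumMap := by
  constructor
  · intro h
    refine ⟨?_, B.sumMap_surjective_iff.2 h.sup_eq_top⟩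
    rw [injective_iff_map_eq_zero]
    rintro ⟨⟨a, ha⟩, ⟨b, hb⟩⟩ hab
    have hab' : a + b = 0 := hab
    have ha0 : a = 0 := IsAcyclic.eq_zero h ha (by
      rw [eq_neg_of_add_eq_zero_left hab']; exact B.L1.neg_mem hb)
    subst ha0
    rw [zero_add] at hab'
    subst hab'
    rfl
  · intro h
    refine IsCompl.of_eq ((Submodule.eq_bot_iff _).2 ?_) (B.sumMap_surjective_iff.1 h.2)
    rintro m ⟨h0, h1⟩
    have hz : B.sumMap (⟨m, h0⟩, ⟨-m, B.L1.neg_mem h1⟩) = 0 := add_neg_cancel m
    exact congrArg (fun q : B.Pairs => (q.1 : B.M)) (h.1 (hz.trans (map_zero B.sumMap).symm))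

theorem Isom.isAcyclic {B' : D.Bundle R} (h : B.Isom B') (hB : B.IsAcyclic) : B'.IsAcyclic := by
  obtain ⟨e⟩ := h
  refine IsCompl.of_eq ((Submodule.eq_bot_iff _).2 fun m hm => ?_) (eq_top_iff.2 fun m _ => ?_)
  · obtain ⟨h0, h1⟩ := hm
    have h : e.toEquiv.symm m = 0 := IsAcyclic.eq_zero hB
      ((e.mem0 _).1 (by rw [LinearEquiv.apply_symm_apply]; exact h0))
      ((e.mem1 _).1 (by rw [LinearEquiv.apply_symm_apply]; exact h1))
    simpa using congrArg e.toEquiv h
  · obtain ⟨a, ha, b, hb, hab⟩ := Submodule.mem_sup.1 (hB.sup_eq_top.symm ▸ Submodule.mem_top :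
      e.toEquiv.symm m ∈ B.L0.restrictScalars R ⊔ B.L1.restrictScalars R)
    exact Submodule.mem_sup.2 ⟨e.toEquiv a, (e.mem0 a).2 ha, e.toEquiv b, (e.mem1 b).2 hb,
      by rw [← map_add, hab, LinearEquiv.apply_symm_apply]⟩

namespace IsAcyclic

variable (hB : B.IsAcyclic)
include hB

theorem isAcyclic_mapTo (S : Type u) [CommRing S] [Algebra k S] [Algebra R S]
    [IsScalarTower k R S] : (B.mapTo S).IsAcyclic := by
  rw [isAcyclic_iff_bijective] at hB ⊢
  obtain ⟨e, E, -, hE⟩ := B.exists_cech_baseChange S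
  have hbc : Function.Bijective (B.sumMap.baseChange S) := by
    refine ⟨?_, LinearMap.baseChange_surjective S hB.2⟩
    refine Function.LeftInverse.injective
      (g := (LinearEquiv.ofBijective B.sumMap hB).symm.toLinearMap.baseChange S) fun t => ?_
    rw [← LinearMap.comp_apply, ← LinearMap.baseChange_comp]
    have h : (LinearEquiv.ofBijective B.sumMap hB).symm.toLinearMap.comp B.sumMap =
        LinearMap.id :=
      LinearMap.ext fun x => (LinearEquiv.ofBijective B.sumMap hB).symm_apply_apply x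
    rw [h, LinearMap.baseChange_id, LinearMap.id_apply]
  have h : (B.mapTo S).sumMap = e.toLinearMap ∘ₗ B.sumMap.baseChange S ∘ₗ E.symm.toLinearMap := by
    refine LinearMap.ext fun z => ?_
    obtain ⟨t, rfl⟩ := E.surjective z
    simpa using hE t
  rw [h]
  exact e.bijective.comp (hbc.comp E.symm.bijective)

/-- The absence of cohomology survives a change of coefficients. -/
theorem map {S : Type u} [CommRing S] [Algebra k S] (φ : R →ₐ[k] S) : (B.map φ).IsAcyclic := by
  let : Algebra R S := φ.toRingHom.toAlgebra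
  have : IsScalarTower k R S := IsScalarTower.of_algebraMap_eq fun a => (φ.commutes a).symm
  have h : IsScalarTower.toAlgHom k R S = φ := AlgHom.ext fun _ => rfl
  rw [← h]
  exact hB.isAcyclic_mapTo S

set_option linter.unusedSectionVars false in
theorem mapHom_mem_W {S : Type u} [CommRing S] [Algebra k S] (φ : R →ₐ[k] S) {w : B.M}
    (hw : w ∈ B.W) : B.mapHom φ w ∈ (B.map φ).W := by
  refine ⟨Submodule.subset_span ⟨w, hw.1, rfl⟩, ?_⟩
  rw [← map1_yR D φ]
  exact (mapHom_smul1 φ B (D.yR R) w) ▸ Submodule.subset_span ⟨_, hw.2, rfl⟩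

theorem W_mapTo (S : Type u) [CommRing S] [Algebra k S] [Algebra R S] [IsScalarTower k R S] :
    (B.mapTo S).W =
      Submodule.span S (B.mapHom (IsScalarTower.toAlgHom k R S) '' (B.W : Set B.M)) := by
  refine le_antisymm (fun w hw => ?_)
    (Submodule.span_le.2 (Set.image_subset_iff.2 fun m hm => hB.mapHom_mem_W _ hm))
  let φ := IsScalarTower.toAlgHom k R S
  let P := Submodule.span S (B.mapHom φ '' (B.W : Set B.M))
  have hP : P ≤ (B.mapTo S).W :=
    Submodule.span_le.2 (Set.image_subset_iff.2 fun m hm => hB.mapHom_mem_W φ hm)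
  have key : ∀ z ∈ Submodule.span S (B.mapHom φ '' (B.L0 : Set B.M)),
      ∃ u ∈ P, ∃ a ∈ (B.mapTo S).L0, z = u + D.xR S • a := by
    intro z hz
    refine Submodule.span_induction ?_ ?_ ?_ ?_ hz
    · rintro _ ⟨m, hm, rfl⟩
      obtain ⟨v, hv, a, ha, rfl⟩ := hB.exists_eq_add hm
      refine ⟨_, Submodule.subset_span ⟨v, hv, rfl⟩, B.mapHom φ a,
        Submodule.subset_span ⟨a, ha, rfl⟩, ?_⟩
      rw [map_add, mapHom_smul0, map0_xR]
    · exact ⟨0, P.zero_mem, 0, (B.mapTo S).L0.zero_mem, by rw [smul_zero, add_zero]⟩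
    · rintro z z' - - ⟨u, hu, a, ha, rfl⟩ ⟨u', hu', a', ha', rfl⟩
      exact ⟨u + u', P.add_mem hu hu', a + a', (B.mapTo S).L0.add_mem ha ha',
        by rw [smul_add]; abel⟩
    · rintro s z - ⟨u, hu, a, ha, rfl⟩
      exact ⟨s • u, P.smul_mem s hu, s • a, (B.mapTo S).L0.smul_of_tower_mem s ha,
        by rw [smul_add, smul_comm]⟩
  have hw0 : w ∈ (B.mapTo S).L0.restrictScalars S := hw.1
  rw [mapTo_L0_eq] at hw0
  obtain ⟨u, hu, a, ha, hua⟩ := key w hw0
  have h0 := (hB.isAcyclic_mapTo S).eq_zero_of_add_eq_zero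
    (Submodule.sub_mem _ (hP hu) hw) ha (by rw [hua]; abel)
  rw [← sub_eq_zero.1 h0.1]
  exact hu

/-- The generating space commutes with change of coefficients. -/
theorem exists_W_equiv (S : Type u) [CommRing S] [Algebra k S] [Algebra R S]
    [IsScalarTower k R S] :
    ∃ E : S ⊗[R] B.W ≃ₗ[S] (B.mapTo S).W,
      ∀ w : B.W, (E (1 ⊗ₜ w) : (B.mapTo S).M) =
        B.mapHom (IsScalarTower.toAlgHom k R S) (w : B.M) := by
  obtain ⟨e, he⟩ := B.exists_tensorEquiv S
  obtain ⟨ρ, hρ⟩ := B.exists_retraction_L0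
  obtain ⟨E, hE⟩ := B.exists_summand_equiv S B.W (hB.projW.comp ρ)
    (fun w => by rw [LinearMap.comp_apply, hρ ⟨(w : B.M), w.2.1⟩, hB.projW_coe]) e he _
    (hB.W_mapTo S)
  refine ⟨E, fun w => ?_⟩
  rw [hE, LinearMap.baseChange_tmul, Submodule.coe_subtype, he]

end IsAcyclic

section Field

variable {K : Type u} [Field K] [Algebra k K] {C : D.Bundle K}

theorem isAcyclic_iff_chi_sup : C.IsAcyclic ↔
    C.chi = 0 ∧ C.L0.restrictScalars K ⊔ C.L1.restrictScalars K = ⊤ := by
  constructor
  · intro h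
    have h1 : Subsingleton C.H1 := C.subsingleton_H1_iff.2 h.sup_eq_top
    have h0 : C.H0 = ⊥ := h.inf_eq_bot
    refine ⟨?_, h.sup_eq_top⟩
    rw [chi, h0, finrank_bot, Module.finrank_zero_of_subsingleton, sub_self]
  · rintro ⟨h, hsup⟩
    have h1 : Subsingleton C.H1 := C.subsingleton_H1_iff.2 hsup
    have := C.finite_H0_field
    rw [chi, Module.finrank_zero_of_subsingleton (M := C.H1), Nat.cast_zero, sub_zero,
      Nat.cast_eq_zero, Submodule.finrank_eq_zero] at h
    exact IsCompl.of_eq h hsup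

theorem isAcyclic_iff_chi_inf : C.IsAcyclic ↔
    C.chi = 0 ∧ C.L0.restrictScalars K ⊓ C.L1.restrictScalars K = ⊥ := by
  constructor
  · exact fun h => ⟨(isAcyclic_iff_chi_sup.1 h).1, h.inf_eq_bot⟩
  · rintro ⟨h, hinf⟩
    have := C.finite_H1
    have h0 : C.H0 = ⊥ := hinf
    rw [chi, h0, finrank_bot, Nat.cast_zero, zero_sub, neg_eq_zero, Nat.cast_eq_zero,
      Module.finrank_zero_iff, subsingleton_H1_iff] at h
    exact IsCompl.of_eq hinf h

/-- Over a field the generating space has the dimension of the covering. -/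
theorem IsAcyclic.finrank_W (hC : C.IsAcyclic) : Module.finrank K C.W = D.n := by
  have hW : C.W = (C.twist (C.xAut ^ 1)).H0 := by
    refine SetLike.ext fun (m : C.M) => ?_
    change _ ↔ m ∈ C.L0 ∧ m ∈ C.twistL1 (C.xAut ^ 1)
    rw [mem_twistL1_pow, pow_one]
    rfl
  have hle : C.L1.restrictScalars K ≤ (C.twistL1 (C.xAut ^ 1)).restrictScalars K := fun m hm =>
    C.mem_twistL1_pow.2 (C.L1.smul_mem _ hm)
  have h1 : Subsingleton (C.twist (C.xAut ^ 1)).H1 :=
    (subsingleton_H1_iff _).2 (top_le_iff.1 (hC.sup_eq_top ▸ sup_le_sup_left hle _))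
  have h := C.chi_twist_xAut 1
  rw [(isAcyclic_iff_chi_sup.1 hC).1, chi, Module.finrank_zero_of_subsingleton
    (M := (C.twist (C.xAut ^ 1)).H1)] at h
  simp only [Nat.cast_zero, sub_zero, Nat.cast_one, one_mul, zero_add, Nat.cast_inj] at h
  rw [hW]
  exact h

end Field

theorem chi_mapTo_map {S : Type u} [CommRing S] [Algebra k S] (φ : R →ₐ[k] S)
    (q : PrimeSpectrum S) :
    ((B.map φ).mapTo q.asIdeal.ResidueField).chi =
      (B.mapTo (PrimeSpectrum.comap φ.toRingHom q).asIdeal.ResidueField).chi := by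
  let L := q.asIdeal.ResidueField
  let p : PrimeSpectrum R := PrimeSpectrum.comap φ.toRingHom q
  let ι : p.asIdeal.ResidueField →ₐ[k] L := Ideal.ResidueField.mapₐ p.asIdeal q.asIdeal φ rfl
  let : Algebra p.asIdeal.ResidueField L := ι.toRingHom.toAlgebra
  have : IsScalarTower k p.asIdeal.ResidueField L :=
    IsScalarTower.of_algebraMap_eq fun a => (ι.commutes a).symm
  rw [← chi_mapTo (B.mapTo p.asIdeal.ResidueField) L, (B.isom_map_map _ _).chi_eq,
    (B.isom_map_map _ _).chi_eq]
  congr 2
  ext r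
  change algebraMap S L (φ r) = ι (algebraMap R p.asIdeal.ResidueField r)
  exact (Ideal.ResidueField.map_algebraMap _ _ _ _ r).symm

variable (hchi : ∀ p : PrimeSpectrum R, (B.mapTo p.asIdeal.ResidueField).chi = 0)
include hchi

/-- A family with vanishing Euler characteristic and no first cohomology has no cohomology. -/
theorem isAcyclic_of_sup_eq_top
    (h : B.L0.restrictScalars R ⊔ B.L1.restrictScalars R = ⊤) : B.IsAcyclic := by
  have hsurj : Function.Surjective B.sumMap := B.sumMap_surjective_iff.2 h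
  have hM := B.projective_M
  obtain ⟨s, hs⟩ := B.sumMap.exists_rightInverse_of_surjective (LinearMap.range_eq_top.2 hsurj)
  have hfin : Module.Finite R (LinearMap.ker B.sumMap) := B.finite_ker_sumMap h
  have hproj : Module.Projective R (LinearMap.ker B.sumMap) := by
    have := B.projective_pairs
    let π : B.Pairs →ₗ[R] LinearMap.ker B.sumMap :=
      (LinearMap.id - s.comp B.sumMap).codRestrict _ fun p => by
        have h : B.sumMap (s (B.sumMap p)) = B.sumMap p := LinearMap.congr_fun hs (B.sumMap p)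
        simp [h]
    exact Module.Projective.of_split (LinearMap.ker B.sumMap).subtype π
      (LinearMap.ext fun m => Subtype.ext (by simp [π, LinearMap.mem_ker.1 m.2]))
  have hker : Subsingleton (LinearMap.ker B.sumMap) := by
    rw [← Module.rankAtStalk_eq_zero_iff_subsingleton (R := R)]
    funext p
    have hp : (B.mapTo p.asIdeal.ResidueField).IsAcyclic :=
      isAcyclic_iff_chi_sup.2 ⟨hchi p, B.sup_eq_top_of_sup_eq_top _ h⟩
    obtain ⟨e, E, -, hE⟩ := B.exists_cech_baseChange p.asIdeal.ResidueField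
    obtain ⟨ek⟩ := nonempty_equiv_ker_baseChange (S := p.asIdeal.ResidueField) B.sumMap
      (Or.inr ⟨hsurj, hM⟩)
    have hbot : LinearMap.ker (B.sumMap.baseChange p.asIdeal.ResidueField) = ⊥ := by
      refine (Submodule.eq_bot_iff _).2 fun t ht => E.injective ?_
      refine (isAcyclic_iff_bijective.1 hp).1 ?_
      rw [hE, hE, LinearMap.mem_ker.1 ht, map_zero (B.sumMap.baseChange _)]
    rw [Module.rankAtStalk_eq, Pi.zero_apply]
    exact ek.finrank_eq.trans (by rw [hbot, finrank_bot])
  refine isAcyclic_iff_bijective.2 ⟨?_, hsurj⟩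
  rw [← LinearMap.ker_eq_bot]
  exact Submodule.subsingleton_iff_eq_bot.1 hker

/-- A family is acyclic near a point with acyclic fibre. -/
theorem exists_away_isAcyclic {p : PrimeSpectrum R}
    (hp : (B.mapTo p.asIdeal.ResidueField).IsAcyclic) :
    ∃ f : R, f ∉ p.asIdeal ∧ (B.mapTo (Localization.Away f)).IsAcyclic := by
  have := B.finite_H1
  have hsub : Subsingleton (p.asIdeal.ResidueField ⊗[R] B.H1) :=
    B.subsingleton_tensor_H1 _ hp.sup_eq_top
  have hsupp : p ∉ Module.support R B.H1 := by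
    rw [Module.mem_support_iff_nontrivial_residueField_tensorProduct]
    exact not_nontrivial _
  rw [Module.support_eq_zeroLocus, PrimeSpectrum.mem_zeroLocus, Set.not_subset] at hsupp
  obtain ⟨f, hf, hfp⟩ := hsupp
  let L := Localization.Away f
  refine ⟨f, hfp, isAcyclic_of_sup_eq_top (B := B.mapTo L) (fun q => ?_) ?_⟩
  · rw [chi_mapTo_map]; exact hchi _
  · rw [← sumMap_surjective_iff]
    obtain ⟨e, E, -, hE⟩ := B.exists_cech_baseChange L
    obtain ⟨u, hu⟩ := (IsLocalization.Away.algebraMap_isUnit (S := L) f).exists_left_inv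
    have hrange : ∀ t : L ⊗[R] B.M, t ∈ LinearMap.range (B.sumMap.baseChange L) := by
      intro t
      induction t using TensorProduct.induction_on with
      | zero => exact Submodule.zero_mem _
      | tmul l m =>
        have hm : f • m ∈ LinearMap.range B.sumMap := by
          rw [range_sumMap, ← Submodule.Quotient.mk_eq_zero, Submodule.Quotient.mk_smul]
          exact Module.mem_annihilator.1 hf _
        obtain ⟨pp, hpp⟩ := hm
        refine ⟨(l * u) ⊗ₜ pp, ?_⟩
        rw [LinearMap.baseChange_tmul, hpp, ← TensorProduct.smul_tmul, Algebra.smul_def,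
          mul_left_comm, mul_comm _ u, hu, mul_one]
      | add a b ha hb => exact Submodule.add_mem _ ha hb
    intro z
    obtain ⟨t, ht⟩ := hrange (e.symm z)
    exact ⟨E t, by rw [hE, ht, LinearEquiv.apply_symm_apply]⟩

/-- A family all of whose fibres are acyclic is acyclic. -/
theorem isAcyclic_of_forall
    (h : ∀ p : PrimeSpectrum R, (B.mapTo p.asIdeal.ResidueField).IsAcyclic) : B.IsAcyclic := by
  have := B.finite_H1
  refine isAcyclic_of_sup_eq_top hchi (B.subsingleton_H1_iff.1 ?_)
  rw [← Module.support_eq_empty_iff (R := R), Set.eq_empty_iff_forall_notMem]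
  intro p
  have := B.subsingleton_tensor_H1 p.asIdeal.ResidueField (h p).sup_eq_top
  rw [Module.mem_support_iff_nontrivial_residueField_tensorProduct]
  exact not_nontrivial _

end Bundle

end ChartData

end FermatLib.AV
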