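import Fermat.Agent.AV.Jac.Core.Ops

/-!
Bundles without cohomology split as sums of copies of the twisting sheaf of degree `-1`.
-/

set_option autoImplicit false

universe u

open scoped TensorProduct

namespace FermatLib.AV

namespace ChartData

variable {k : Type u} [Field k] {D : ChartData k} {R : Type u} [CommRing R] [Algebra k R]

namespace Bundle

variable (B : D.Bundle R)

/-- No cohomology in either degree. -/
def IsAcyclic : Prop := IsCompl (B.L0.restrictScalars R) (B.L1.restrictScalars R)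

/-- Sections of the first twist at infinity: the generating space of an acyclic bundle. -/
def W : Submodule R B.M where
  carrier := {m | m ∈ B.L0 ∧ D.yR R • m ∈ B.L1}
  zero_mem' := ⟨B.L0.zero_mem, by rw [smul_zero]; exact B.L1.zero_mem⟩
  add_mem' := by
    rintro a b ⟨ha, ha'⟩ ⟨hb, hb'⟩
    exact ⟨B.L0.add_mem ha hb, by rw [smul_add]; exact B.L1.add_mem ha' hb'⟩
  smul_mem' := by
    rintro r a ⟨ha, ha'⟩
    exact ⟨B.L0.smul_of_tower_mem r ha, by rw [smul_comm]; exact B.L1.smul_of_tower_mem r ha'⟩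

theorem mem_W {m : B.M} : m ∈ B.W ↔ m ∈ B.L0 ∧ D.yR R • m ∈ B.L1 := Iff.rfl

variable {B}

namespace IsAcyclic

variable (hB : B.IsAcyclic)
include hB

theorem eq_zero {m : B.M} (h0 : m ∈ B.L0) (h1 : m ∈ B.L1) : m = 0 :=
  (Submodule.mem_bot R).1 (hB.inf_eq_bot ▸ Submodule.mem_inf.2 ⟨h0, h1⟩)

theorem exists_eq_add {m : B.M} (hm : m ∈ B.L0) :
    ∃ w ∈ B.W, ∃ a ∈ B.L0, m = w + D.xR R • a := by
  have : D.yR R • m ∈ B.L0.restrictScalars R ⊔ B.L1.restrictScalars R := by
    rw [hB.sup_eq_top]; trivial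
  obtain ⟨a, ha, b, hb, hab⟩ := Submodule.mem_sup.1 this
  have h : m = D.xR R • b + D.xR R • a := by
    rw [← smul_add, add_comm, hab, B.xR_smul_yR_smul]
  refine ⟨D.xR R • b, ⟨?_, by rw [B.yR_smul_xR_smul]; exact hb⟩, a, ha, h⟩
  rw [show D.xR R • b = m - D.xR R • a by rw [h]; abel]
  exact B.L0.sub_mem hm (B.L0.smul_mem _ ha)

theorem eq_zero_of_add_eq_zero {w a : B.M} (hw : w ∈ B.W) (ha : a ∈ B.L0)
    (h : w + D.xR R • a = 0) : w = 0 ∧ a = 0 := by
  have h' : D.yR R • w + a = 0 := by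
    have := congrArg (D.yR R • ·) h
    simpa only [smul_add, B.yR_smul_xR_smul, smul_zero] using this
  have ha0 : a = 0 := hB.eq_zero ha (by rw [eq_neg_of_add_eq_zero_right h']; exact B.L1.neg_mem hw.2)
  subst ha0
  simpa using h

theorem exists_sum (N : ℕ) {m : B.M} (hm : m ∈ B.L0) (hm' : D.yR R ^ N • m ∈ B.L1) :
    ∃ f : ℕ → B.M, (∀ d, f d ∈ B.W) ∧ m = ∑ d ∈ Finset.range N, D.xR R ^ d • f d := by
  induction N generalizing m with
  | zero =>
    rw [pow_zero, one_smul] at hm'
    exact ⟨0, fun _ => B.W.zero_mem, by simp [hB.eq_zero hm hm']⟩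
  | succ N ih =>
    obtain ⟨w, hw, a, ha, rfl⟩ := hB.exists_eq_add hm
    have hyw : D.yR R ^ (N + 1) • w ∈ B.L1 := by
      rw [pow_succ, mul_smul]
      exact B.L1.smul_mem _ hw.2
    have hya : D.yR R ^ N • a ∈ B.L1 := by
      have h := B.L1.sub_mem hm' hyw
      rwa [smul_add, add_sub_cancel_left, pow_succ, mul_smul, B.yR_smul_xR_smul] at h
    obtain ⟨f, hf, rfl⟩ := ih ha hya
    refine ⟨fun d => d.casesOn w f, ?_, ?_⟩
    · rintro (_ | d)
      exacts [hw, hf d]
    · rw [Finset.sum_range_succ']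
      simp only [pow_succ', mul_smul, Finset.smul_sum, pow_zero, one_smul]
      exact add_comm _ _

/-- Every element of the second lattice is a polynomial in the coordinate at infinity, without
constant term, with coefficients in `W`. -/
theorem exists_sum_of_mem1 {m : B.M} (hm : m ∈ B.L1) : ∃ (N : ℕ) (f : ℕ → B.M),
    (∀ d, f d ∈ B.W) ∧ m = ∑ d ∈ Finset.range N, D.yR R ^ (N - d) • f d := by
  obtain ⟨N, hN⟩ := B.exists_mem0 m
  obtain ⟨f, hf, h⟩ := hB.exists_sum N hN (by rwa [B.yR_pow_smul_xR_pow_smul])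
  refine ⟨N, f, hf, ?_⟩
  rw [← B.yR_pow_smul_xR_pow_smul N m, h, Finset.smul_sum]
  refine Finset.sum_congr rfl fun d hd => ?_
  obtain ⟨e, rfl⟩ := Nat.exists_eq_add_of_lt (Finset.mem_range.1 hd)
  rw [show d + e + 1 = (e + 1) + d by omega, pow_add, mul_smul, B.yR_pow_smul_xR_pow_smul,
    Nat.add_sub_cancel]

/-- The first lattice is the sum of `W` and its multiples of the coordinate. -/
noncomputable def splitEquiv :
    (B.W × B.L0.restrictScalars R) ≃ₗ[R] B.L0.restrictScalars R :=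
  LinearEquiv.ofBijective
    { toFun := fun p => ⟨(p.1 : B.M) + D.xR R • (p.2 : B.M),
        B.L0.add_mem p.1.2.1 (B.L0.smul_mem _ p.2.2)⟩
      map_add' := fun p q => by
        ext
        simp only [Prod.fst_add, Prod.snd_add, Submodule.coe_add, smul_add]
        abel
      map_smul' := fun r p => by
        ext
        simp only [Prod.smul_fst, Prod.smul_snd, SetLike.val_smul, RingHom.id_apply, smul_add]
        rw [smul_comm r] }
    ⟨by
      rw [injective_iff_map_eq_zero]
      rintro ⟨⟨w, hw⟩, ⟨a, ha⟩⟩ h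
      obtain ⟨rfl, rfl⟩ := hB.eq_zero_of_add_eq_zero hw ha (congrArg Subtype.val h)
      rfl, by
      rintro ⟨m, hm⟩
      obtain ⟨w, hw, a, ha, rfl⟩ := hB.exists_eq_add hm
      exact ⟨(⟨w, hw⟩, ⟨a, ha⟩), rfl⟩⟩

/-- The projection of the first lattice onto `W`. -/
noncomputable def projW : B.L0.restrictScalars R →ₗ[R] B.W :=
  (LinearMap.fst R _ _).comp hB.splitEquiv.symm.toLinearMap

theorem projW_eq {w : B.W} {a : B.M} (ha : a ∈ B.L0) {m : B.L0.restrictScalars R}
    (h : (m : B.M) = (w : B.M) + D.xR R • a) : hB.projW m = w := by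
  have : m = hB.splitEquiv (w, ⟨a, ha⟩) := Subtype.ext h
  subst this
  simp [projW]

theorem projW_coe (w : B.W) : hB.projW ⟨w, w.2.1⟩ = w :=
  hB.projW_eq B.L0.zero_mem (by simp)

theorem finite_W : Module.Finite R B.W := by
  classical
  obtain ⟨G, hG, hGmem⟩ := B.exists_finset_span_L0
  let g : G → B.W := fun g => hB.projW ⟨g.1, hGmem g.2⟩
  refine Module.Finite.of_fg_top ⟨Finset.univ.image g, eq_top_iff.2 fun w _ => ?_⟩
  rw [Finset.coe_image, Finset.coe_univ, Set.image_univ, ← hB.projW_coe w]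
  generalize (⟨(w : B.M), w.2.1⟩ : B.L0.restrictScalars R) = m
  obtain ⟨m, hm⟩ := m
  have hm' : m ∈ Submodule.span R {z | ∃ (d : ℕ), ∃ g ∈ G, z = D.xR R ^ d • g} := hG ▸ hm
  suffices ∀ h : m ∈ B.L0, hB.projW ⟨m, h⟩ ∈ Submodule.span R (Set.range g) from this hm
  refine Submodule.span_induction ?_ ?_ ?_ ?_ hm'
  · rintro _ ⟨d, z, hz, rfl⟩ h
    cases d with
    | zero => exact Submodule.subset_span ⟨⟨z, hz⟩, by simp [g]⟩
    | succ d =>
      rw [hB.projW_eq (w := 0) (B.L0.smul_mem (D.xR R ^ d) (hGmem hz))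
        (by rw [Submodule.coe_zero, zero_add, smul_smul, ← pow_succ'])]
      exact Submodule.zero_mem _
  · intro h
    rw [show (⟨0, h⟩ : B.L0.restrictScalars R) = 0 from rfl, map_zero]
    exact Submodule.zero_mem _
  · intro a b ha hb iha ihb _
    rw [← hG] at ha hb
    have := Submodule.add_mem _ (iha ha) (ihb hb)
    rwa [← map_add] at this
  · intro r a ha iha _
    rw [← hG] at ha
    have := Submodule.smul_mem _ r (iha ha)
    rwa [← map_smul] at this

end IsAcyclic

end Bundle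

end ChartData

end FermatLib.AV
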