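import Fermat.Agent.AV.Jac.Core.Ops

/-!
Index of a pair of subspaces, and fibres of the lattices over the points at infinity.
-/

set_option autoImplicit false

universe u

open scoped TensorProduct

namespace FermatLib.AV

/-- Enlarging one of two subspaces by `d` dimensions raises the index of the pair by `d`. -/
theorem finrank_inf_sub_finrank_quotient_sup {K M : Type u} [Field K] [AddCommGroup M] [Module K M]
    {A B B' : Submodule K M} (hle : B ≤ B') [Module.Finite K (B' ⧸ B.comap B'.subtype)]
    [Module.Finite K (A ⊓ B : Submodule K M)] [Module.Finite K (M ⧸ (A ⊔ B))] :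
    (Module.finrank K (A ⊓ B' : Submodule K M) : ℤ) - Module.finrank K (M ⧸ (A ⊔ B')) =
      (Module.finrank K (A ⊓ B : Submodule K M) : ℤ) - Module.finrank K (M ⧸ (A ⊔ B)) +
        Module.finrank K (B' ⧸ B.comap B'.subtype) := by
  let q : B' →ₗ[K] B' ⧸ B.comap B'.subtype := Submodule.mkQ _
  -- the part of `A ⊓ B'` in the enlargement
  let f : (A ⊓ B' : Submodule K M) →ₗ[K] B' ⧸ B.comap B'.subtype :=
    q.comp (Submodule.inclusion inf_le_right)
  have hkerf : LinearMap.ker f = (A ⊓ B : Submodule K M).comap (A ⊓ B' : Submodule K M).subtype := by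
    ext x
    simp only [LinearMap.mem_ker, f, q, LinearMap.comp_apply, Submodule.mkQ_apply,
      Submodule.Quotient.mk_eq_zero, Submodule.mem_comap]
    exact ⟨fun h => ⟨x.2.1, h⟩, fun h => h.2⟩
  let ek : LinearMap.ker f ≃ₗ[K] (A ⊓ B : Submodule K M) :=
    (LinearEquiv.ofEq _ _ hkerf).trans
      (Submodule.comapSubtypeEquivOfLe (le_inf inf_le_left (inf_le_right.trans hle)))
  have : Module.Finite K (LinearMap.ker f) := Module.Finite.equiv ek.symm
  have : Module.Finite K ((A ⊓ B' : Submodule K M) ⧸ LinearMap.ker f) :=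
    Module.Finite.equiv f.quotKerEquivRange.symm
  have : Module.Finite K (A ⊓ B' : Submodule K M) :=
    Module.Finite.of_submodule_quotient (LinearMap.ker f)
  have h1 := f.finrank_range_add_finrank_ker
  rw [ek.finrank_eq] at h1
  -- the image of the enlargement modulo the smaller sum
  let g : (B' ⧸ B.comap B'.subtype) →ₗ[K] M ⧸ (A ⊔ B) :=
    Submodule.liftQ _ ((A ⊔ B).mkQ.comp B'.subtype) fun x hx => by
      rw [LinearMap.mem_ker, LinearMap.comp_apply, Submodule.mkQ_apply,
        Submodule.Quotient.mk_eq_zero]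
      exact Submodule.mem_sup_right hx
  have hkerg : LinearMap.ker g = LinearMap.range f := by
    ext z
    obtain ⟨b, rfl⟩ := Submodule.mkQ_surjective _ z
    simp only [LinearMap.mem_ker, g, Submodule.mkQ_apply, Submodule.liftQ_apply,
      LinearMap.comp_apply, Submodule.coe_subtype, Submodule.Quotient.mk_eq_zero]
    constructor
    · intro h
      obtain ⟨a, ha, c, hc, hac⟩ := Submodule.mem_sup.1 h
      refine ⟨⟨a, ha, ?_⟩, ?_⟩
      · rw [eq_sub_of_add_eq hac]
        exact B'.sub_mem b.2 (hle hc)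
      · change (Submodule.Quotient.mk _ : B' ⧸ _) = Submodule.Quotient.mk b
        rw [Submodule.Quotient.eq]
        change a - (b : M) ∈ B
        rw [← hac, sub_add_cancel_left]
        exact B.neg_mem hc
    · rintro ⟨⟨a, ha, ha'⟩, h⟩
      have h' : a - (b : M) ∈ B :=
        (Submodule.Quotient.eq (B.comap B'.subtype) (x := (⟨a, ha'⟩ : B')) (y := b)).1 h
      rw [show (b : M) = a - (a - (b : M)) by abel]
      exact Submodule.sub_mem _ (Submodule.mem_sup_left ha) (Submodule.mem_sup_right h')
  have hrg : LinearMap.range g = (A ⊔ B').map (A ⊔ B).mkQ := by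
    rw [Submodule.range_liftQ, LinearMap.range_comp, Submodule.range_subtype, Submodule.map_sup]
    have : A.map (A ⊔ B).mkQ = ⊥ := by
      rw [eq_bot_iff]
      rintro _ ⟨a, ha, rfl⟩
      exact (Submodule.Quotient.mk_eq_zero _).2 (Submodule.mem_sup_left ha)
    rw [this, bot_sup_eq]
  have h2 := g.finrank_range_add_finrank_ker
  rw [hkerg, hrg] at h2
  have h3 := ((A ⊔ B').map (A ⊔ B).mkQ).finrank_quotient_add_finrank
  rw [(Submodule.quotientQuotientEquivQuotient _ _ (sup_le_sup_left hle A)).finrank_eq] at h3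
  omega

namespace ChartData

variable {k : Type u} [Field k] (D : ChartData k) (K : Type u) [Field K] [Algebra k K]

theorem mem_span_yR_pow_iff (N : ℕ) (a : D.R1 K) :
    a ∈ Ideal.span {D.yR K ^ N} ↔
      ∀ p : (Σ _ : Fin D.n, ℕ), p.2 < N → (D.rBasis1 K).repr a p = 0 := by
  classical
  constructor
  · intro ha p hp
    obtain ⟨b, rfl⟩ := Ideal.mem_span_singleton.1 ha
    rw [← (D.rBasis1 K).linearCombination_repr b]
    generalize (D.rBasis1 K).repr b = l
    induction l using Finsupp.induction_linear with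
    | zero => simp
    | add l l' h h' => rw [map_add, mul_add, map_add, Finsupp.add_apply, h, h', add_zero]
    | single q r =>
      obtain ⟨i, e⟩ := p
      obtain ⟨j, e'⟩ := q
      have h : D.yR K ^ N * D.rBasis1 K ⟨j, e'⟩ = D.rBasis1 K ⟨j, N + e'⟩ := by
        rw [rBasis1_apply, rBasis1_apply, pow_add, mul_assoc]
      have hne : (⟨i, e⟩ : Σ _ : Fin D.n, ℕ) ≠ ⟨j, N + e'⟩ := by
        simp only [ne_eq, Sigma.mk.injEq, heq_eq_eq, not_and]
        intro _ h'
        simp only at hp
        omega
      rw [Finsupp.linearCombination_single, mul_smul_comm, h, map_smul, Module.Basis.repr_self,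
        Finsupp.smul_apply, Finsupp.single_eq_of_ne hne, smul_zero]
  · intro ha
    rw [← (D.rBasis1 K).linearCombination_repr a, Finsupp.linearCombination_apply]
    refine Ideal.sum_mem _ fun p hp => ?_
    obtain ⟨t, ht⟩ : ∃ t, p.2 = N + t := by
      refine Nat.exists_eq_add_of_le (Nat.le_of_not_lt fun h => ?_)
      exact Finsupp.mem_support_iff.1 hp (ha p h)
    change _ • D.rBasis1 K p ∈ _
    rw [rBasis1_apply, ht, pow_add, mul_assoc, ← mul_smul_comm]
    exact Ideal.mul_mem_right _ _ (Ideal.mem_span_singleton_self _)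

/-- Truncation of coefficients below order `N`. -/
noncomputable def truncEquiv (N : ℕ) :
    (D.R1 K ⧸ (Ideal.span {D.yR K ^ N}).restrictScalars K) ≃ₗ[K] (Fin D.n × Fin N → K) := by
  classical
  let t : D.R1 K →ₗ[K] (Fin D.n × Fin N → K) :=
    LinearMap.pi fun p => (Finsupp.lapply (⟨p.1, (p.2 : ℕ)⟩ : Σ _ : Fin D.n, ℕ)).comp
      (D.rBasis1 K).repr.toLinearMap
  have hker : LinearMap.ker t = (Ideal.span {D.yR K ^ N}).restrictScalars K := by
    ext a
    rw [Submodule.restrictScalars_mem, mem_span_yR_pow_iff, LinearMap.mem_ker]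
    constructor
    · intro h p hp
      have := congr_fun h (p.1, ⟨p.2, hp⟩)
      exact this
    · intro h
      funext p
      exact h ⟨p.1, p.2⟩ p.2.2
  have hsurj : Function.Surjective t := by
    intro v
    refine ⟨∑ p, v p • D.rBasis1 K ⟨p.1, (p.2 : ℕ)⟩, ?_⟩
    funext q
    simp only [t, LinearMap.pi_apply, LinearMap.comp_apply, map_sum, map_smul,
      LinearEquiv.coe_coe, Module.Basis.repr_self, Finsupp.lapply_apply,
      smul_eq_mul]
    rw [Finset.sum_eq_single q]
    · simp
    · intro p _ hpq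
      rw [Finsupp.single_eq_of_ne, mul_zero]
      simp only [ne_eq, Sigma.mk.injEq, heq_eq_eq, not_and]
      intro h1 h2
      exact hpq (Prod.ext h1.symm (Fin.ext h2.symm))
    · simp
  exact (Submodule.quotEquivOfEq _ _ hker.symm).trans (t.quotKerEquivOfSurjective hsurj)

variable {D K}

/-- The fibre of an invertible lattice at a multiple of the divisor at infinity. -/
theorem finrank_quotient_pow_smul (B : D.Bundle K) (N : ℕ) :
    Module.Finite K (B.L1 ⧸ (Ideal.span {D.yR K ^ N} • (⊤ : Submodule (D.R1 K) B.L1))) ∧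
    Module.finrank K (B.L1 ⧸ (Ideal.span {D.yR K ^ N} • (⊤ : Submodule (D.R1 K) B.L1))) =
      N * D.n := by
  let I := Ideal.span {D.yR K ^ N}
  let Q := D.R1 K ⧸ I
  have hQ : Module.Finite K Q := Module.Finite.equiv
    ((D.truncEquiv K N).symm.trans (Submodule.Quotient.restrictScalarsEquiv K I))
  have : IsArtinianRing Q := IsArtinianRing.of_finite K Q
  have hfree : Module.Free Q (Q ⊗[D.R1 K] B.L1) := inferInstance
  obtain ⟨e⟩ : Nonempty ((Q ⊗[D.R1 K] B.L1) ≃ₗ[Q] Q) := Module.Invertible.free_iff_linearEquiv.1 hfree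
  have e' : (B.L1 ⧸ (I • (⊤ : Submodule (D.R1 K) B.L1))) ≃ₗ[K] Q :=
    ((TensorProduct.quotTensorEquivQuotSMul B.L1 I).symm.restrictScalars K).trans
      (e.restrictScalars K)
  refine ⟨Module.Finite.equiv e'.symm, ?_⟩
  rw [e'.finrank_eq,
    ((Submodule.Quotient.restrictScalarsEquiv K I).symm.trans (D.truncEquiv K N)).finrank_eq,
    Module.finrank_pi, Fintype.card_prod, Fintype.card_fin, Fintype.card_fin, mul_comm]

end ChartData

end FermatLib.AV
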