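import Mathlib

/-!
Kernels and cokernels of linear maps after a change of scalars.
-/

set_option autoImplicit false

universe u

open scoped TensorProduct

namespace FermatLib.AV

variable {R S P M : Type u} [CommRing R] [CommRing S] [Algebra R S] [AddCommGroup P] [Module R P]
  [AddCommGroup M] [Module R M]

/-- The kernel commutes with a change of scalars which is flat, or when the map is surjective onto
a projective module. -/
theorem nonempty_equiv_ker_baseChange (f : P →ₗ[R] M)
    (h : Module.Flat R S ∨ Function.Surjective f ∧ Module.Projective R M) :
    Nonempty (S ⊗[R] LinearMap.ker f ≃ₗ[S] LinearMap.ker (f.baseChange S)) := by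
  let j : S ⊗[R] LinearMap.ker f →ₗ[S] S ⊗[R] P := (LinearMap.ker f).subtype.baseChange S
  have hex : Function.Exact ((LinearMap.ker f).subtype.lTensor S) (f.lTensor S) := by
    rcases h with h | ⟨hs, -⟩
    · exact Module.Flat.lTensor_exact S (LinearMap.exact_subtype_ker_map f)
    · exact lTensor_exact S (LinearMap.exact_subtype_ker_map f) hs
  have hrange : LinearMap.range j = LinearMap.ker (f.baseChange S) := by
    ext z
    exact ((hex z).trans (Iff.rfl)).symm
  have hinj : Function.Injective j := by
    rcases h with h | ⟨hs, hp⟩
    · exact Module.Flat.lTensor_preserves_injective_linearMap _ Subtype.val_injective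
    · obtain ⟨s, hs'⟩ := f.exists_rightInverse_of_surjective (LinearMap.range_eq_top.2 hs)
      let π : P →ₗ[R] LinearMap.ker f := (LinearMap.id - s.comp f).codRestrict _ fun p => by
        have h : f (s (f p)) = f p := LinearMap.congr_fun hs' (f p)
        simp [h]
      have hret : ∀ t : S ⊗[R] LinearMap.ker f, π.baseChange S (j t) = t := by
        intro t
        induction t using TensorProduct.induction_on with
        | zero => simp
        | tmul a m =>
          have hm : π (m : P) = m := Subtype.ext (by simp [π, LinearMap.mem_ker.1 m.2])
          simp [j, hm]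
        | add a b ha hb => rw [map_add, map_add, ha, hb]
      exact Function.LeftInverse.injective hret
  exact ⟨(LinearEquiv.ofInjective j hinj).trans (LinearEquiv.ofEq _ _ hrange)⟩

/-- The cokernel commutes with every change of scalars. -/
theorem nonempty_equiv_coker_baseChange (f : P →ₗ[R] M) :
    Nonempty (((S ⊗[R] M) ⧸ LinearMap.range (f.baseChange S)) ≃ₗ[S]
      S ⊗[R] (M ⧸ LinearMap.range f)) := by
  have hex : Function.Exact (f.lTensor S) ((LinearMap.range f).mkQ.lTensor S) :=
    lTensor_exact S (LinearMap.exact_map_mkQ_range f) (Submodule.mkQ_surjective _)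
  have hker : LinearMap.range (f.baseChange S) =
      LinearMap.ker ((LinearMap.range f).mkQ.baseChange S) := by
    ext z
    exact ((hex z).trans (Iff.rfl)).symm
  exact ⟨(Submodule.quotEquivOfEq _ _ hker).trans
    (LinearMap.quotKerEquivOfSurjective _
      (LinearMap.baseChange_surjective S (Submodule.mkQ_surjective _)))⟩

end FermatLib.AV
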