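import Fermat.Agent.AV.Jac.Core.Fibre
import Fermat.Agent.AV.Jac.Core.Functorial
import Fermat.Agent.AV.Jac.Core.Index
import Fermat.Agent.AV.Jac.Core.Kernel

/-!
Euler characteristic of bundles over a field, and degree zero families.
-/

set_option autoImplicit false

universe u

open scoped TensorProduct

namespace FermatLib.AV

namespace ChartData

variable {k : Type u} [Field k] {D : ChartData k}

namespace Bundle

section Field

variable {K : Type u} [Field K] [Algebra k K] (B : D.Bundle K)

theorem finite_H0_field : Module.Finite K B.H0 := by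
  obtain ⟨T, hT, hle, -⟩ := B.exists_fg_bound_H0
  have : Module.Finite K T := Module.Finite.iff_fg.2 hT
  exact Module.Finite.of_injective (Submodule.inclusion hle) (Submodule.inclusion_injective hle)

/-- The Euler characteristic `h⁰ - h¹`. -/
noncomputable def chi : ℤ := (Module.finrank K B.H0 : ℤ) - Module.finrank K B.H1

/-- Degree zero, phrased through the Euler characteristic. -/
def IsDegZero : Prop := B.chi = (D.structBundle K).chi

variable {B}

theorem Isom.chi_eq {B' : D.Bundle K} (h : B.Isom B') : B.chi = B'.chi := by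
  obtain ⟨e⟩ := h
  let eK : B.M ≃ₗ[K] B'.M := e.toEquiv.restrictScalars K
  have h0 : (B.L0.restrictScalars K).map eK.toLinearMap = B'.L0.restrictScalars K := by
    refine le_antisymm ?_ fun z hz => ⟨e.toEquiv.symm z, (e.mem0 _).1 (by simpa using hz), ?_⟩
    · rintro _ ⟨m, hm, rfl⟩; exact (e.mem0 m).2 hm
    · exact e.toEquiv.apply_symm_apply z
  have h1 : (B.L1.restrictScalars K).map eK.toLinearMap = B'.L1.restrictScalars K := by
    refine le_antisymm ?_ fun z hz => ⟨e.toEquiv.symm z, (e.mem1 _).1 (by simpa using hz), ?_⟩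
    · rintro _ ⟨m, hm, rfl⟩; exact (e.mem1 m).2 hm
    · exact e.toEquiv.apply_symm_apply z
  have hinf : B.H0.map eK.toLinearMap = B'.H0 := by
    rw [Bundle.H0, Submodule.map_inf _ eK.injective, h0, h1, Bundle.H0]
  have hsup : (B.L0.restrictScalars K ⊔ B.L1.restrictScalars K).map eK.toLinearMap =
      B'.L0.restrictScalars K ⊔ B'.L1.restrictScalars K := by
    rw [Submodule.map_sup, h0, h1]
  unfold chi
  rw [((eK.submoduleMap B.H0).trans (LinearEquiv.ofEq _ _ hinf)).finrank_eq,
    (Submodule.Quotient.equiv _ _ eK hsup).finrank_eq]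

/-- The dimension of the fibre of an invertible lattice over a point of the projective line. -/
theorem chi_twist_xAut (N : ℕ) : (B.twist (B.xAut ^ N)).chi = B.chi + N * D.n := by
  have hle : B.L1.restrictScalars K ≤ (B.twistL1 (B.xAut ^ N)).restrictScalars K := fun m hm =>
    B.mem_twistL1_pow.2 (B.L1.smul_mem _ hm)
  obtain ⟨hfin, hrank⟩ := finrank_quotient_pow_smul B N
  let φ : B.L1 →ₗ[K] ((B.twistL1 (B.xAut ^ N)).restrictScalars K) :=
    { toFun := fun m => ⟨(B.xAut ^ N) m, ⟨m, m.2, rfl⟩⟩
      map_add' := fun a b => Subtype.ext (map_add (B.xAut ^ N) (a : B.M) b)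
      map_smul' := fun r a => Subtype.ext (LinearMap.map_smul_of_tower
        (B.xAut ^ N).toLinearMap r (a : B.M)) }
  let q : B.L1 →ₗ[K] _ := (Submodule.mkQ ((B.L1.restrictScalars K).comap
    ((B.twistL1 (B.xAut ^ N)).restrictScalars K).subtype)).comp φ
  have hsurj : Function.Surjective q := by
    intro z
    obtain ⟨⟨w, hw⟩, rfl⟩ := Submodule.mkQ_surjective _ z
    obtain ⟨m, hm, rfl⟩ := hw
    exact ⟨⟨m, hm⟩, rfl⟩
  have hker : LinearMap.ker q =
      (Ideal.span {D.yR K ^ N} • (⊤ : Submodule (D.R1 K) B.L1)).restrictScalars K := by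
    ext m
    rw [LinearMap.mem_ker, Submodule.restrictScalars_mem, Submodule.ideal_span_singleton_smul,
      Submodule.mem_smul_pointwise_iff_exists]
    simp only [q, φ, LinearMap.comp_apply, Submodule.mkQ_apply, Submodule.Quotient.mk_eq_zero,
      Submodule.mem_comap, LinearMap.coe_mk, AddHom.coe_mk, Submodule.coe_subtype,
      Submodule.restrictScalars_mem, xAut_pow_apply]
    constructor
    · intro h
      exact ⟨⟨_, h⟩, trivial, Subtype.ext (B.yR_pow_smul_xR_pow_smul N m)⟩
    · rintro ⟨a, -, rfl⟩
      rw [Submodule.coe_smul, B.xR_pow_smul_yR_pow_smul]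
      exact a.2
  let e := ((Submodule.Quotient.restrictScalarsEquiv K
    (Ideal.span {D.yR K ^ N} • (⊤ : Submodule (D.R1 K) B.L1))).symm.trans
    (Submodule.quotEquivOfEq _ _ hker.symm)).trans (q.quotKerEquivOfSurjective hsurj)
  have : Module.Finite K _ := Module.Finite.equiv e
  have h0 : Module.Finite K (B.L0.restrictScalars K ⊓ B.L1.restrictScalars K : Submodule K B.M) :=
    B.finite_H0_field
  have h1 : Module.Finite K (B.M ⧸ (B.L0.restrictScalars K ⊔ B.L1.restrictScalars K)) :=
    B.finite_H1
  have key := finrank_inf_sub_finrank_quotient_sup (A := B.L0.restrictScalars K) hle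
  rw [← e.finrank_eq, hrank] at key
  exact key.trans (by push_cast; rfl)

variable (B) (L : Type u) [Field L] [Algebra k L] [Algebra K L] [IsScalarTower k K L]

theorem chi_eq_sumMap : B.chi = (Module.finrank K (LinearMap.ker B.sumMap) : ℤ) -
    Module.finrank K (B.M ⧸ LinearMap.range B.sumMap) := by
  unfold chi
  rw [B.kerSumMapEquiv.finrank_eq, (Submodule.quotEquivOfEq _ _ B.range_sumMap).finrank_eq]

theorem chi_mapTo : (B.mapTo L).chi = B.chi := by
  obtain ⟨e, E, -, hE⟩ := B.exists_cech_baseChange L
  rw [chi_eq_sumMap, chi_eq_sumMap]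
  have hk : (LinearMap.ker (B.sumMap.baseChange L)).map E.toLinearMap =
      LinearMap.ker (B.mapTo L).sumMap := by
    ext z
    obtain ⟨t, rfl⟩ := E.surjective z
    constructor
    · rintro ⟨s, hs, h⟩
      rw [← E.injective h, LinearMap.mem_ker, hE, LinearMap.mem_ker.1 hs, map_zero]
    · intro h
      rw [LinearMap.mem_ker, hE, LinearEquiv.map_eq_zero_iff] at h
      exact ⟨t, h, rfl⟩
  have hr : (LinearMap.range (B.sumMap.baseChange L)).map e.toLinearMap =
      LinearMap.range (B.mapTo L).sumMap := by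
    ext z
    constructor
    · rintro ⟨_, ⟨t, rfl⟩, rfl⟩
      exact ⟨E t, hE t⟩
    · rintro ⟨p, rfl⟩
      obtain ⟨t, rfl⟩ := E.surjective p
      exact ⟨_, ⟨t, rfl⟩, (hE t).symm⟩
  obtain ⟨ek⟩ := nonempty_equiv_ker_baseChange (S := L) B.sumMap (Or.inl inferInstance)
  obtain ⟨ec⟩ := nonempty_equiv_coker_baseChange (S := L) B.sumMap
  rw [← (ek.trans ((E.submoduleMap _).trans (LinearEquiv.ofEq _ _ hk))).finrank_eq,
    ← (Submodule.Quotient.equiv _ _ e hr).finrank_eq, ec.finrank_eq, Module.finrank_baseChange,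
    Module.finrank_baseChange]

theorem isDegZero_mapTo_iff : (B.mapTo L).IsDegZero ↔ B.IsDegZero := by
  have h := chi_mapTo (D.structBundle K) L
  rw [(isom_map_structBundle (D := D) (IsScalarTower.toAlgHom k K L)).chi_eq] at h
  rw [IsDegZero, IsDegZero, chi_mapTo, h]

end Field

variable {R : Type u} [CommRing R] [Algebra k R] (B : D.Bundle R)

theorem finite_ker_sumMap (h : B.L0.restrictScalars R ⊔ B.L1.restrictScalars R = ⊤) :
    Module.Finite R (LinearMap.ker B.sumMap) := by
  obtain ⟨T, hT, hle, hTL⟩ := B.exists_fg_bound_H0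
  have : Module.Finite R T := Module.Finite.iff_fg.2 hT
  obtain ⟨ρ, hρ⟩ := B.exists_retraction_L1
  have hM := B.projective_M
  have hQ : Module.Projective R (B.M ⧸ B.L1.restrictScalars R) := by
    refine Module.Projective.of_split (Submodule.liftQ _
        (LinearMap.id - (B.L1.restrictScalars R).subtype.comp ρ) fun m hm => ?_)
      (Submodule.mkQ _) (LinearMap.ext fun z => ?_)
    · simp [hρ ⟨m, hm⟩]
    · obtain ⟨m, rfl⟩ := Submodule.mkQ_surjective _ z
      change Submodule.Quotient.mk (m - (ρ m : B.M)) = Submodule.Quotient.mk m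
      rw [Submodule.Quotient.eq]
      simp
  let q : B.L0.restrictScalars R →ₗ[R] B.M ⧸ B.L1.restrictScalars R :=
    (Submodule.mkQ _).comp (Submodule.subtype _)
  have hq : LinearMap.range q = ⊤ := by
    rw [LinearMap.range_comp, Submodule.range_subtype, eq_top_iff]
    rintro z -
    obtain ⟨m, rfl⟩ := Submodule.mkQ_surjective _ z
    obtain ⟨a, ha, b, hb, rfl⟩ := Submodule.mem_sup.1 (h.symm ▸ Submodule.mem_top :
      m ∈ B.L0.restrictScalars R ⊔ B.L1.restrictScalars R)
    refine ⟨a, ha, (Submodule.Quotient.eq _).2 ?_⟩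
    simpa using (B.L1.restrictScalars R).neg_mem hb
  obtain ⟨σ, hσ⟩ := q.exists_rightInverse_of_surjective hq
  let π : T →ₗ[R] B.H0 :=
    (((B.L0.restrictScalars R).subtype.comp (LinearMap.id - σ.comp q)).comp
      (Submodule.inclusion hTL)).codRestrict B.H0 fun t => by
        refine ⟨Submodule.coe_mem ((Submodule.inclusion hTL t) -
          σ (q (Submodule.inclusion hTL t))), ?_⟩
        have h := LinearMap.congr_fun hσ (q (Submodule.inclusion hTL t))
        change ((Submodule.inclusion hTL t - σ (q (Submodule.inclusion hTL t)) :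
          B.L0.restrictScalars R) : B.M) ∈ B.L1.restrictScalars R
        rw [← Submodule.Quotient.mk_eq_zero]
        change q (Submodule.inclusion hTL t - σ (q (Submodule.inclusion hTL t))) = 0
        rw [map_sub]
        exact sub_eq_zero.2 h.symm
  have hπ : Function.Surjective π := fun m => by
    refine ⟨⟨m, hle m.2⟩, Subtype.ext ?_⟩
    have h0 : q ⟨m, m.2.1⟩ = 0 := (Submodule.Quotient.mk_eq_zero _).2 m.2.2
    change ((⟨m, m.2.1⟩ - σ (q ⟨m, m.2.1⟩) : B.L0.restrictScalars R) : B.M) = m
    rw [h0, map_zero, sub_zero]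
  have : Module.Finite R B.H0 := Module.Finite.of_surjective π hπ
  exact Module.Finite.equiv B.kerSumMapEquiv.symm

/-- All fibres of the family have degree zero. -/
def IsFibrewiseDegZero : Prop :=
  ∀ p : PrimeSpectrum R, (B.mapTo p.asIdeal.ResidueField).IsDegZero

/-- The Euler characteristic of the fibres is locally constant. -/
theorem isLocallyConstant_chi :
    IsLocallyConstant fun p : PrimeSpectrum R => (B.mapTo p.asIdeal.ResidueField).chi := by
  obtain ⟨N, hN⟩ := B.exists_twist_sup_eq_top
  let B' := B.twist (B.xAut ^ N)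
  have hsup : B'.L0.restrictScalars R ⊔ B'.L1.restrictScalars R = ⊤ := hN N le_rfl
  have hsurj : Function.Surjective B'.sumMap := B'.sumMap_surjective_iff.2 hsup
  have hM := B'.projective_M
  obtain ⟨s, hs⟩ := B'.sumMap.exists_rightInverse_of_surjective (LinearMap.range_eq_top.2 hsurj)
  have hfin : Module.Finite R (LinearMap.ker B'.sumMap) := B'.finite_ker_sumMap hsup
  have hproj : Module.Projective R (LinearMap.ker B'.sumMap) := by
    have := B'.projective_pairs
    let π : B'.Pairs →ₗ[R] LinearMap.ker B'.sumMap :=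
      (LinearMap.id - s.comp B'.sumMap).codRestrict _ fun p => by
        have h : B'.sumMap (s (B'.sumMap p)) = B'.sumMap p := LinearMap.congr_fun hs (B'.sumMap p)
        simp [h]
    exact Module.Projective.of_split (LinearMap.ker B'.sumMap).subtype π
      (LinearMap.ext fun m => Subtype.ext (by simp [π, LinearMap.mem_ker.1 m.2]))
  have : Module.FinitePresentation R (LinearMap.ker B'.sumMap) :=
    Module.finitePresentation_of_projective R _
  have hrank : ∀ p : PrimeSpectrum R, (B'.mapTo p.asIdeal.ResidueField).chi =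
      Module.rankAtStalk (LinearMap.ker B'.sumMap) p := by
    intro p
    obtain ⟨e, E, -, hE⟩ := B'.exists_cech_baseChange p.asIdeal.ResidueField
    obtain ⟨ek⟩ := nonempty_equiv_ker_baseChange (S := p.asIdeal.ResidueField) B'.sumMap
      (Or.inr ⟨hsurj, hM⟩)
    have hk : (LinearMap.ker (B'.sumMap.baseChange p.asIdeal.ResidueField)).map E.toLinearMap =
        LinearMap.ker (B'.mapTo p.asIdeal.ResidueField).sumMap := by
      ext z
      obtain ⟨t, rfl⟩ := E.surjective z
      constructor
      · rintro ⟨s, hs, h⟩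
        rw [← E.injective h, LinearMap.mem_ker, hE, LinearMap.mem_ker.1 hs, map_zero]
      · intro h
        rw [LinearMap.mem_ker, hE, LinearEquiv.map_eq_zero_iff] at h
        exact ⟨t, h, rfl⟩
    have hsurj' : Function.Surjective (B'.mapTo p.asIdeal.ResidueField).sumMap :=
      (sumMap_surjective_iff _).2 (B'.sup_eq_top_of_sup_eq_top _ hsup)
    have : Subsingleton ((B'.mapTo p.asIdeal.ResidueField).M ⧸
        LinearMap.range (B'.mapTo p.asIdeal.ResidueField).sumMap) := by
      rw [LinearMap.range_eq_top.2 hsurj']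
      infer_instance
    rw [chi_eq_sumMap, Module.rankAtStalk_eq,
      ← (ek.trans ((E.submoduleMap _).trans (LinearEquiv.ofEq _ _ hk))).finrank_eq,
      Module.finrank_zero_of_subsingleton (M := (B'.mapTo p.asIdeal.ResidueField).M ⧸
        LinearMap.range (B'.mapTo p.asIdeal.ResidueField).sumMap),
      Nat.cast_zero, sub_zero]
  have key : (fun p : PrimeSpectrum R => (B.mapTo p.asIdeal.ResidueField).chi) =
      (fun n : ℕ => (n : ℤ) - N * D.n) ∘ Module.rankAtStalk (LinearMap.ker B'.sumMap) := by
    funext p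
    rw [Function.comp_apply, ← hrank, (B.isom_map_twist_xAut _ N).chi_eq, chi_twist_xAut]
    ring
  rw [key]
  exact Module.isLocallyConstant_rankAtStalk.comp _

theorem isFibrewiseDegZero_map (h : B.IsFibrewiseDegZero) {S : Type u} [CommRing S] [Algebra k S]
    (φ : R →ₐ[k] S) : (B.map φ).IsFibrewiseDegZero := by
  intro q
  let : Algebra R S := φ.toRingHom.toAlgebra
  have : IsScalarTower k R S := IsScalarTower.of_algebraMap_eq fun a => (φ.commutes a).symm
  let L := q.asIdeal.ResidueField
  let p : PrimeSpectrum R := PrimeSpectrum.comap φ.toRingHom q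
  let ι : p.asIdeal.ResidueField →ₐ[k] L :=
    Ideal.ResidueField.mapₐ p.asIdeal q.asIdeal φ rfl
  let : Algebra p.asIdeal.ResidueField L := ι.toRingHom.toAlgebra
  have : IsScalarTower k p.asIdeal.ResidueField L :=
    IsScalarTower.of_algebraMap_eq fun a => (ι.commutes a).symm
  have hp := (isDegZero_mapTo_iff (B.mapTo p.asIdeal.ResidueField) L).2 (h p)
  unfold IsDegZero at hp ⊢
  rw [← hp, (B.isom_map_map _ _).chi_eq, (B.isom_map_map _ _).chi_eq]
  congr 2
  ext r
  change algebraMap S L (φ r) = ι (algebraMap R p.asIdeal.ResidueField r)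
  exact (Ideal.ResidueField.map_algebraMap _ _ _ _ r).symm

end Bundle

end ChartData

end FermatLib.AV
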