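import Fermat.Agent.AV.Jac.Core.Split

/-!
Cech cohomology of bundles commutes with change of coefficients.
-/

set_option autoImplicit false

universe u

open scoped TensorProduct

namespace FermatLib.AV

namespace ChartData

variable {k : Type u} [Field k] {D : ChartData k}

namespace Bundle

variable {R : Type u} [CommRing R] [Algebra k R] (B : D.Bundle R)

/-- The pairs of sections on the two charts. -/
abbrev Pairs : Type u := B.L0.restrictScalars R × B.L1.restrictScalars R

/-- The differential of the Cech complex, in the form of a sum. -/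
noncomputable def sumMap : B.Pairs →ₗ[R] B.M :=
  (B.L0.restrictScalars R).subtype.coprod (B.L1.restrictScalars R).subtype

theorem sumMap_apply (p : B.Pairs) : B.sumMap p = (p.1 : B.M) + (p.2 : B.M) := rfl

theorem range_sumMap :
    LinearMap.range B.sumMap = B.L0.restrictScalars R ⊔ B.L1.restrictScalars R := by
  rw [sumMap, LinearMap.range_coprod, Submodule.range_subtype, Submodule.range_subtype]

theorem sumMap_surjective_iff : Function.Surjective B.sumMap ↔
    B.L0.restrictScalars R ⊔ B.L1.restrictScalars R = ⊤ := by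
  rw [← LinearMap.range_eq_top, range_sumMap]

theorem subsingleton_H1_iff : Subsingleton B.H1 ↔
    B.L0.restrictScalars R ⊔ B.L1.restrictScalars R = ⊤ :=
  Submodule.Quotient.subsingleton_iff

theorem projective_pairs : Module.Projective R B.Pairs := by
  have h0 : Module.Projective R (B.L0.restrictScalars R) := by
    obtain ⟨ρ, hρ⟩ := B.exists_retraction_L0
    have := B.projective_M
    exact Module.Projective.of_split (B.L0.restrictScalars R).subtype ρ (LinearMap.ext hρ)
  have h1 : Module.Projective R (B.L1.restrictScalars R) := by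
    obtain ⟨ρ, hρ⟩ := B.exists_retraction_L1
    have := B.projective_M
    exact Module.Projective.of_split (B.L1.restrictScalars R).subtype ρ (LinearMap.ext hρ)
  infer_instance

/-- Global sections are the kernel of the Cech differential. -/
noncomputable def kerSumMapEquiv : LinearMap.ker B.sumMap ≃ₗ[R] B.H0 where
  toFun p := ⟨(p.1.1 : B.M), p.1.1.2, by
    have h : (p.1.1 : B.M) + (p.1.2 : B.M) = 0 := p.2
    rw [eq_neg_of_add_eq_zero_left h]
    exact B.L1.neg_mem p.1.2.2⟩
  invFun m := ⟨(⟨m, m.2.1⟩, ⟨-(m : B.M), B.L1.neg_mem m.2.2⟩), by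
    rw [LinearMap.mem_ker, sumMap_apply]; exact add_neg_cancel _⟩
  map_add' _ _ := rfl
  map_smul' _ _ := rfl
  left_inv p := by
    have h : (p.1.1 : B.M) + (p.1.2 : B.M) = 0 := p.2
    exact Subtype.ext (Prod.ext (Subtype.ext rfl) (Subtype.ext (neg_eq_of_add_eq_zero_right h)))
  right_inv _ := rfl

variable (S : Type u) [CommRing S] [Algebra k S] [Algebra R S] [IsScalarTower k R S]

/-- The change of coefficients along an algebra. -/
noncomputable abbrev mapTo : D.Bundle S := B.map (IsScalarTower.toAlgHom k R S)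

/-- Sections over the overlap commute with change of coefficients. -/
theorem exists_tensorEquiv : ∃ e : S ⊗[R] B.M ≃ₗ[S] (B.mapTo S).M,
    ∀ m, e (1 ⊗ₜ m) = B.mapHom (IsScalarTower.toAlgHom k R S) m := by
  let φ := IsScalarTower.toAlgHom k R S
  let := alg01 (D := D) φ
  have htower : IsScalarTower R (D.R01 R) (D.R01 S) := by
    refine IsScalarTower.of_algebraMap_eq fun r => ?_
    rw [RingHom.algebraMap_toAlgebra]
    change _ = D.map01 φ (algebraMap R (D.R01 R) r)
    rw [map01_algebraMap]
    exact IsScalarTower.algebraMap_apply R S (D.R01 S) r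
  have hpush : Algebra.IsPushout R S (D.R01 R) (D.R01 S) := by
    refine Algebra.IsPushout.tensorProduct_tensorProduct k D.A01 R S ?_
    ext a
    rw [RingHom.algebraMap_toAlgebra]
    simp [ChartData.map01]
  let f : D.R01 S ⊗[D.R01 R] B.M ≃ₗ[S] S ⊗[R] B.M :=
    Algebra.IsPushout.cancelBaseChange R S (D.R01 R) (D.R01 S) B.M
  let i : D.R01 S ⊗[D.R01 R] B.M ≃ₗ[S] (B.mapTo S).M :=
    { toFun := id
      map_add' := fun _ _ => rfl
      map_smul' := fun s m => (IsScalarTower.algebraMap_smul (D.R01 S) s m).symm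
      invFun := id
      left_inv := fun _ => rfl
      right_inv := fun _ => rfl }
  refine ⟨f.symm.trans i, fun m => ?_⟩
  have h : f.symm (1 ⊗ₜ[R] m) = (1 : D.R01 S) ⊗ₜ[D.R01 R] m := by
    rw [LinearEquiv.symm_apply_eq]
    exact (Algebra.IsPushout.cancelBaseChange_tmul R S (D.R01 R) (D.R01 S) B.M m).symm
  rw [LinearEquiv.trans_apply, h]
  rfl

theorem map0_span (a : D.R0 S) : a ∈ Submodule.span S
    (Set.range (D.map0 (IsScalarTower.toAlgHom k R S))) := by
  induction a using TensorProduct.induction_on with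
  | zero => exact Submodule.zero_mem _
  | tmul s x =>
    have h : s ⊗ₜ[k] x = s • D.map0 (IsScalarTower.toAlgHom k R S) ((1 : R) ⊗ₜ[k] x) := by
      simp [ChartData.map0, TensorProduct.smul_tmul', IsScalarTower.coe_toAlgHom']
    rw [h]
    exact Submodule.smul_mem _ _ (Submodule.subset_span ⟨_, rfl⟩)
  | add a b ha hb => exact Submodule.add_mem _ ha hb

theorem map1_span (a : D.R1 S) : a ∈ Submodule.span S
    (Set.range (D.map1 (IsScalarTower.toAlgHom k R S))) := by
  induction a using TensorProduct.induction_on with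
  | zero => exact Submodule.zero_mem _
  | tmul s x =>
    have h : s ⊗ₜ[k] x = s • D.map1 (IsScalarTower.toAlgHom k R S) ((1 : R) ⊗ₜ[k] x) := by
      simp [ChartData.map1, TensorProduct.smul_tmul', IsScalarTower.coe_toAlgHom']
    rw [h]
    exact Submodule.smul_mem _ _ (Submodule.subset_span ⟨_, rfl⟩)
  | add a b ha hb => exact Submodule.add_mem _ ha hb

theorem mapTo_L0_eq : (B.mapTo S).L0.restrictScalars S =
    Submodule.span S (B.mapHom (IsScalarTower.toAlgHom k R S) '' (B.L0 : Set B.M)) := by
  refine le_antisymm (fun z hz => ?_) (Submodule.span_le.2 fun z hz => Submodule.subset_span hz)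
  refine Submodule.span_induction (fun z hz => Submodule.subset_span hz) (Submodule.zero_mem _)
    (fun _ _ _ _ h h' => Submodule.add_mem _ h h') ?_ hz
  intro a z _ hz
  refine Submodule.span_induction ?_ ?_ ?_ ?_ hz
  · rintro _ ⟨m, hm, rfl⟩
    refine Submodule.span_induction ?_ ?_ ?_ ?_ (map0_span (R := R) S a)
    · rintro _ ⟨b, rfl⟩
      exact Submodule.subset_span ⟨b • m, B.L0.smul_mem b hm, B.mapHom_smul0 _ b m⟩
    · rw [zero_smul]; exact Submodule.zero_mem _
    · intro a a' _ _ h h'; rw [add_smul]; exact Submodule.add_mem _ h h'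
    · intro s a _ h; rw [smul_assoc]; exact Submodule.smul_mem _ _ h
  · rw [smul_zero]; exact Submodule.zero_mem _
  · intro z z' _ _ h h'; rw [smul_add]; exact Submodule.add_mem _ h h'
  · intro s z _ h; rw [smul_comm]; exact Submodule.smul_mem _ _ h

theorem mapTo_L1_eq : (B.mapTo S).L1.restrictScalars S =
    Submodule.span S (B.mapHom (IsScalarTower.toAlgHom k R S) '' (B.L1 : Set B.M)) := by
  refine le_antisymm (fun z hz => ?_) (Submodule.span_le.2 fun z hz => Submodule.subset_span hz)
  refine Submodule.span_induction (fun z hz => Submodule.subset_span hz) (Submodule.zero_mem _)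
    (fun _ _ _ _ h h' => Submodule.add_mem _ h h') ?_ hz
  intro a z _ hz
  refine Submodule.span_induction ?_ ?_ ?_ ?_ hz
  · rintro _ ⟨m, hm, rfl⟩
    refine Submodule.span_induction ?_ ?_ ?_ ?_ (map1_span (R := R) S a)
    · rintro _ ⟨b, rfl⟩
      exact Submodule.subset_span ⟨b • m, B.L1.smul_mem b hm, B.mapHom_smul1 _ b m⟩
    · rw [zero_smul]; exact Submodule.zero_mem _
    · intro a a' _ _ h h'; rw [add_smul]; exact Submodule.add_mem _ h h'
    · intro s a _ h; rw [smul_assoc]; exact Submodule.smul_mem _ _ h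
  · rw [smul_zero]; exact Submodule.zero_mem _
  · intro z z' _ _ h h'; rw [smul_add]; exact Submodule.add_mem _ h h'
  · intro s z _ h; rw [smul_comm]; exact Submodule.smul_mem _ _ h

theorem exists_summand_equiv (N : Submodule R B.M) (ρ : B.M →ₗ[R] N) (hρ : ∀ m : N, ρ m = m)
    (e : S ⊗[R] B.M ≃ₗ[S] (B.mapTo S).M)
    (he : ∀ m, e (1 ⊗ₜ m) = B.mapHom (IsScalarTower.toAlgHom k R S) m)
    (N' : Submodule S (B.mapTo S).M)
    (hN' : N' = Submodule.span S (B.mapHom (IsScalarTower.toAlgHom k R S) '' (N : Set B.M))) :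
    ∃ E : S ⊗[R] N ≃ₗ[S] N', ∀ t, (E t : (B.mapTo S).M) = e (N.subtype.baseChange S t) := by
  let f : S ⊗[R] N →ₗ[S] (B.mapTo S).M := e.toLinearMap.comp (N.subtype.baseChange S)
  have hret : ∀ t : S ⊗[R] N, ρ.baseChange S (N.subtype.baseChange S t) = t := by
    intro t
    induction t using TensorProduct.induction_on with
    | zero => simp
    | tmul s m => simp [hρ]
    | add a b ha hb => rw [map_add, map_add, ha, hb]
  have hinj : Function.Injective f :=
    e.injective.comp (Function.LeftInverse.injective hret)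
  have hrange : LinearMap.range f = N' := by
    rw [hN']
    refine le_antisymm ?_ (Submodule.span_le.2 ?_)
    · rintro _ ⟨t, rfl⟩
      induction t using TensorProduct.induction_on with
      | zero => rw [map_zero]; exact Submodule.zero_mem _
      | tmul s m =>
        have h : f (s ⊗ₜ m) = s • B.mapHom (IsScalarTower.toAlgHom k R S) m := by
          rw [← he, ← map_smul, TensorProduct.smul_tmul', smul_eq_mul, mul_one]
          rfl
        rw [h]
        exact Submodule.smul_mem _ _ (Submodule.subset_span ⟨m, m.2, rfl⟩)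
      | add a b ha hb => rw [map_add]; exact Submodule.add_mem _ ha hb
    · rintro _ ⟨m, hm, rfl⟩
      exact ⟨1 ⊗ₜ ⟨m, hm⟩, by rw [← he]; rfl⟩
  exact ⟨(LinearEquiv.ofInjective f hinj).trans (LinearEquiv.ofEq _ _ hrange), fun t => rfl⟩

/-- The Cech complex commutes with change of coefficients. -/
theorem exists_cech_baseChange : ∃ (e : S ⊗[R] B.M ≃ₗ[S] (B.mapTo S).M)
    (E : S ⊗[R] B.Pairs ≃ₗ[S] (B.mapTo S).Pairs),
    (∀ m, e (1 ⊗ₜ m) = B.mapHom (IsScalarTower.toAlgHom k R S) m) ∧
      ∀ t, (B.mapTo S).sumMap (E t) = e (B.sumMap.baseChange S t) := by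
  obtain ⟨e, he⟩ := B.exists_tensorEquiv S
  obtain ⟨ρ0, hρ0⟩ := B.exists_retraction_L0
  obtain ⟨ρ1, hρ1⟩ := B.exists_retraction_L1
  obtain ⟨E0, hE0⟩ := B.exists_summand_equiv S _ ρ0 hρ0 e he _ (B.mapTo_L0_eq S)
  obtain ⟨E1, hE1⟩ := B.exists_summand_equiv S _ ρ1 hρ1 e he _ (B.mapTo_L1_eq S)
  refine ⟨e, (TensorProduct.prodRight R S S _ _).trans (E0.prodCongr E1), he, fun t => ?_⟩
  induction t using TensorProduct.induction_on with
  | zero => simp only [map_zero]
  | tmul s p =>
    rw [LinearEquiv.trans_apply, TensorProduct.prodRight_tmul, sumMap_apply]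
    change (E0 (s ⊗ₜ p.1) : (B.mapTo S).M) + (E1 (s ⊗ₜ p.2) : (B.mapTo S).M) = _
    rw [hE0, hE1, ← map_add, LinearMap.baseChange_tmul, LinearMap.baseChange_tmul,
      LinearMap.baseChange_tmul, ← TensorProduct.tmul_add]
    rfl
  | add a b ha hb => simp only [map_add, ha, hb]

theorem sup_eq_top_of_sup_eq_top (h : B.L0.restrictScalars R ⊔ B.L1.restrictScalars R = ⊤) :
    (B.mapTo S).L0.restrictScalars S ⊔ (B.mapTo S).L1.restrictScalars S = ⊤ := by
  rw [← sumMap_surjective_iff] at h ⊢
  obtain ⟨e, E, -, hE⟩ := B.exists_cech_baseChange S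
  intro z
  obtain ⟨t, ht⟩ := LinearMap.baseChange_surjective S h (e.symm z)
  exact ⟨E t, by rw [hE, ht, LinearEquiv.apply_symm_apply]⟩

theorem subsingleton_tensor_H1
    (h : (B.mapTo S).L0.restrictScalars S ⊔ (B.mapTo S).L1.restrictScalars S = ⊤) :
    Subsingleton (S ⊗[R] B.H1) := by
  rw [← sumMap_surjective_iff] at h
  obtain ⟨e, E, -, hE⟩ := B.exists_cech_baseChange S
  refine subsingleton_of_forall_eq 0 fun z => ?_
  obtain ⟨w, rfl⟩ := LinearMap.baseChange_surjective S
    (Submodule.mkQ_surjective (B.L0.restrictScalars R ⊔ B.L1.restrictScalars R)) z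
  obtain ⟨p, hp⟩ := h (e w)
  obtain ⟨t, rfl⟩ := E.surjective p
  rw [hE] at hp
  rw [← e.injective hp]
  clear hp
  induction t using TensorProduct.induction_on with
  | zero => simp
  | tmul s p =>
    rw [LinearMap.baseChange_tmul, LinearMap.baseChange_tmul, sumMap_apply, Submodule.mkQ_apply,
      (Submodule.Quotient.mk_eq_zero _).2 (Submodule.add_mem_sup p.1.2 p.2.2),
      TensorProduct.tmul_zero]
  | add a b ha hb => rw [map_add, map_add, ha, hb, add_zero]

end Bundle

end ChartData

end FermatLib.AV
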