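import Fermat.Agent.AV.Jac.Core.Basic

/-!
Basic operations on bundles: coordinate automorphism, twisting at infinity, finite generation.
-/

set_option autoImplicit false

universe u

open scoped TensorProduct

namespace FermatLib.AV

namespace ChartData

variable {k : Type u} [Field k] {D : ChartData k} {R : Type u} [CommRing R] [Algebra k R]

namespace Bundle

variable (B : D.Bundle R)

/-- Multiplication by the coordinate, an automorphism of the sections over the overlap. -/
noncomputable def xAut : B.M ≃ₗ[D.R01 R] B.M :=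
  LinearEquiv.smulOfUnit (Units.mkOfMulEqOne _ _ (D.r0_x_mul_r1_y R))

theorem xAut_apply (m : B.M) : B.xAut m = D.xR R • m := by
  change D.r0 R (D.xR R) • m = _
  rw [B.smul0]

theorem xAut_symm_apply (m : B.M) : B.xAut.symm m = D.yR R • m := by
  change D.r1 R (D.yR R) • m = _
  rw [B.smul1]

theorem yR_smul_xR_smul (m : B.M) : D.yR R • D.xR R • m = m := by
  rw [← B.xAut_apply, ← B.xAut_symm_apply, LinearEquiv.symm_apply_apply]

theorem xR_smul_yR_smul (m : B.M) : D.xR R • D.yR R • m = m := by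
  rw [← B.xAut_apply, ← B.xAut_symm_apply, LinearEquiv.apply_symm_apply]

theorem smul_comm01 (a : D.R0 R) (b : D.R1 R) (m : B.M) : a • b • m = b • a • m := by
  rw [← B.smul0, ← B.smul0, ← B.smul1, ← B.smul1, smul_comm]

theorem yR_pow_smul_xR_pow_smul (N : ℕ) (m : B.M) : D.yR R ^ N • D.xR R ^ N • m = m := by
  induction N generalizing m with
  | zero => simp
  | succ N ih =>
    rw [pow_succ (D.yR R), pow_succ' (D.xR R), mul_smul, mul_smul, B.yR_smul_xR_smul, ih]

theorem xR_pow_smul_yR_pow_smul (N : ℕ) (m : B.M) : D.xR R ^ N • D.yR R ^ N • m = m := by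
  rw [B.smul_comm01, B.yR_pow_smul_xR_pow_smul]

/-- Twisting by a unit on the overlap changes the second lattice only. -/
noncomputable def twistL1 (e : B.M ≃ₗ[D.R01 R] B.M) : Submodule (D.R1 R) B.M where
  carrier := e '' B.L1
  zero_mem' := ⟨0, B.L1.zero_mem, map_zero e⟩
  add_mem' := by
    rintro _ _ ⟨a, ha, rfl⟩ ⟨b, hb, rfl⟩
    exact ⟨a + b, B.L1.add_mem ha hb, map_add e a b⟩
  smul_mem' := by
    rintro r _ ⟨a, ha, rfl⟩
    exact ⟨r • a, B.L1.smul_mem r ha, by rw [← B.smul1 r, map_smul, B.smul1]⟩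

theorem mem_twistL1 {e : B.M ≃ₗ[D.R01 R] B.M} {m : B.M} :
    m ∈ B.twistL1 e ↔ e.symm m ∈ B.L1 := by
  constructor
  · rintro ⟨a, ha, rfl⟩
    rwa [LinearEquiv.symm_apply_apply]
  · intro h
    exact ⟨e.symm m, h, e.apply_symm_apply m⟩

/-- The bundle with second lattice moved by an automorphism of the overlap sections. -/
noncomputable def twist (e : B.M ≃ₗ[D.R01 R] B.M) : D.Bundle R where
  M := B.M
  smul0 := B.smul0
  smul1 := B.smul1
  L0 := B.L0
  L1 := B.twistL1 e
  invertible0 := B.invertible0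
  invertible1 := by
    refine Module.Invertible.congr (M := B.L1) ?_
    exact
      { toFun := fun a => ⟨e a, ⟨a, a.2, rfl⟩⟩
        invFun := fun a => ⟨e.symm a, B.mem_twistL1.1 a.2⟩
        map_add' := fun a b => by ext; simp
        map_smul' := fun r a => by
          ext
          change e (r • (a : B.M)) = r • e (a : B.M)
          rw [← B.smul1 r, map_smul, B.smul1]
        left_inv := fun a => by ext; simp
        right_inv := fun a => by ext; simp }
  exists_mem0 := B.exists_mem0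
  exists_mem1 := fun m => by
    obtain ⟨N, hN⟩ := B.exists_mem1 (e.symm m)
    refine ⟨N, B.mem_twistL1.2 ?_⟩
    rwa [← B.smul1, map_smul, B.smul1]

/-- Twisting by `d` times the divisor at infinity. -/
noncomputable def twistInfty (d : ℤ) : D.Bundle R := B.twist (B.xAut ^ d)

theorem xAut_pow_apply (N : ℕ) (m : B.M) : (B.xAut ^ N) m = D.xR R ^ N • m := by
  induction N generalizing m with
  | zero => simp
  | succ N ih =>
    rw [pow_succ', pow_succ', mul_smul, LinearEquiv.mul_apply, ih, B.xAut_apply]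

theorem mem_twistL1_pow {N : ℕ} {m : B.M} :
    m ∈ B.twistL1 (B.xAut ^ N) ↔ D.yR R ^ N • m ∈ B.L1 := by
  rw [mem_twistL1]
  have h : (B.xAut ^ N).symm m = D.yR R ^ N • m := by
    apply (B.xAut ^ N).injective
    rw [LinearEquiv.apply_symm_apply, xAut_pow_apply, xR_pow_smul_yR_pow_smul]
  rw [h]

theorem yR_pow_smul_mem {m : B.M} {N N' : ℕ} (h : D.yR R ^ N • m ∈ B.L1) (hle : N ≤ N') :
    D.yR R ^ N' • m ∈ B.L1 := by
  rw [← Nat.sub_add_cancel hle, pow_add, mul_smul]
  exact B.L1.smul_mem _ h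

/-- The first lattice is spanned over `R` by the monomial translates of finitely many sections. -/
theorem exists_finset_span_L0 : ∃ G : Finset B.M,
    B.L0.restrictScalars R =
      Submodule.span R {m | ∃ (d : ℕ), ∃ g ∈ G, m = D.xR R ^ d • g} ∧ (↑G : Set B.M) ⊆ B.L0 := by
  classical
  obtain ⟨S, hS⟩ := (Module.Finite.iff_fg.1 (inferInstance : Module.Finite (D.R0 R) B.L0))
  refine ⟨(Finset.univ ×ˢ S).image fun p : Fin D.n × B.M => ((1 : R) ⊗ₜ[k] D.b0 p.1) • p.2, ?_, ?_⟩
  · apply le_antisymm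
    · rw [← hS, ← Submodule.span_smul_of_span_eq_top (D.rBasis0 R).span_eq, Submodule.span_le]
      rintro _ ⟨a, ⟨p, rfl⟩, s, hs, rfl⟩
      refine Submodule.subset_span ⟨p.2, ((1 : R) ⊗ₜ[k] D.b0 p.1) • s, ?_, ?_⟩
      · exact Finset.mem_image.2 ⟨(p.1, s), by simpa using hs, rfl⟩
      · simp only [rBasis0_apply, mul_smul]
    · rw [Submodule.span_le]
      rintro _ ⟨d, g, hg, rfl⟩
      obtain ⟨p, hp, rfl⟩ := Finset.mem_image.1 hg
      refine B.L0.smul_mem _ (B.L0.smul_mem _ ?_)
      rw [← hS]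
      exact Submodule.subset_span (Finset.mem_product.1 hp).2
  · intro g hg
    obtain ⟨p, hp, rfl⟩ := Finset.mem_image.1 hg
    refine B.L0.smul_mem _ ?_
    rw [← hS]
    exact Submodule.subset_span (Finset.mem_product.1 hp).2

/-- A finite set of sections spans the overlap sections modulo the two lattices; after a large
enough twist at infinity none are needed. -/
theorem exists_bound : ∃ (G : Finset B.M) (N : ℕ),
    (∀ m : B.M, m ∈ B.L0.restrictScalars R ⊔
        Submodule.span R {z | ∃ (d : ℕ), ∃ g ∈ G, z = D.yR R ^ d • g}) ∧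
      ∀ g ∈ G, D.yR R ^ N • g ∈ B.L1 := by
  classical
  obtain ⟨G, hG, -⟩ := B.exists_finset_span_L0
  choose f hf using fun g : B.M => B.exists_mem1 g
  refine ⟨G, G.sup f, fun m => ?_,
    fun g hg => B.yR_pow_smul_mem (hf g) (Finset.le_sup hg)⟩
  obtain ⟨e, he⟩ := B.exists_mem0 m
  have he' : D.xR R ^ e • m ∈ B.L0.restrictScalars R := he
  rw [hG] at he'
  obtain ⟨c, hc, hm⟩ : ∃ c ∈ Submodule.span R {z | ∃ (d : ℕ), ∃ g ∈ G, z = D.xR R ^ d • g},
      m = D.yR R ^ e • c := ⟨_, he', (B.yR_pow_smul_xR_pow_smul e m).symm⟩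
  subst hm
  refine Submodule.span_induction ?_ ?_ ?_ ?_ hc
  · rintro _ ⟨d, g, hg, rfl⟩
    rcases le_total e d with h | h
    · apply Submodule.mem_sup_left
      rw [← Nat.sub_add_cancel h, add_comm, pow_add, mul_smul, B.yR_pow_smul_xR_pow_smul, hG]
      exact Submodule.subset_span ⟨d - e, g, hg, rfl⟩
    · apply Submodule.mem_sup_right
      refine Submodule.subset_span ⟨e - d, g, hg, ?_⟩
      rw [← Nat.sub_add_cancel h, pow_add, mul_smul, B.yR_pow_smul_xR_pow_smul, Nat.add_sub_cancel]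
  · rw [smul_zero]; exact Submodule.zero_mem _
  · intro a b _ _ ha hb; rw [smul_add]; exact Submodule.add_mem _ ha hb
  · intro r a _ ha; rw [smul_comm]; exact Submodule.smul_mem _ _ ha

theorem finite_H1 : Module.Finite R B.H1 := by
  classical
  obtain ⟨G, N, hG, hN⟩ := B.exists_bound
  let T : Finset B.M := (Finset.range N ×ˢ G).image fun p => D.yR R ^ p.1 • p.2
  refine Module.finite_def.2 ⟨T.image (Submodule.mkQ _), ?_⟩
  rw [Finset.coe_image, Submodule.span_image, Submodule.map_mkQ_eq_top, eq_top_iff]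
  intro m _
  refine SetLike.le_def.1 (sup_le ?_ ?_) (hG m)
  · exact le_sup_of_le_left le_sup_left
  · rw [Submodule.span_le]
    rintro _ ⟨d, g, hg, rfl⟩
    rcases lt_or_ge d N with h | h
    · refine Submodule.mem_sup_right (Submodule.subset_span ?_)
      exact Finset.mem_coe.2 (Finset.mem_image.2 ⟨(d, g), by simp [h, hg], rfl⟩)
    · exact Submodule.mem_sup_left (Submodule.mem_sup_right (B.yR_pow_smul_mem (hN g hg) h))

theorem exists_twist_sup_eq_top : ∃ N : ℕ, ∀ M ≥ N,
    B.L0.restrictScalars R ⊔ (B.twistL1 (B.xAut ^ M)).restrictScalars R = ⊤ := by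
  obtain ⟨G, N, hG, hN⟩ := B.exists_bound
  refine ⟨N, fun M hM => eq_top_iff.2 fun m _ => SetLike.le_def.1 (sup_le ?_ ?_) (hG m)⟩
  · exact le_sup_left
  · refine le_trans ?_ le_sup_right
    rw [Submodule.span_le]
    rintro _ ⟨d, g, hg, rfl⟩
    change D.yR R ^ d • g ∈ B.twistL1 (B.xAut ^ M)
    rw [B.mem_twistL1_pow, ← mul_smul, ← pow_add]
    exact B.yR_pow_smul_mem (hN g hg) (by omega)

end Bundle

end ChartData

end FermatLib.AV
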