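import Fermat.Agent.AV.Jac.Core.Acyclic
import Fermat.Agent.AV.Jac.Core.BaseChange

/-!
The lattices are direct summands of the overlap sections, and global sections have bounded degree.
-/

set_option autoImplicit false

universe u

open scoped TensorProduct

namespace FermatLib.AV

namespace ChartData

variable {k : Type u} [Field k] {D : ChartData k}

section Ring

variable (D) (R : Type u) [CommRing R] [Algebra k R]

/-- An `R`-linear retraction of restriction from the first chart to the overlap. -/
theorem exists_retraction0 : ∃ r : D.R01 R →ₗ[R] D.R0 R, ∀ a, r (D.r0 R a) = a := by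
  obtain ⟨g, hg⟩ := D.j0.toLinearMap.exists_leftInverse_of_injective
    (LinearMap.ker_eq_bot.2 D.j0_injective)
  refine ⟨g.baseChange R, fun a => ?_⟩
  induction a using TensorProduct.induction_on with
  | zero => simp
  | tmul r a =>
    rw [r0_tmul, LinearMap.baseChange_tmul]
    congr 1
    exact DFunLike.congr_fun hg a
  | add a b ha hb => rw [map_add, map_add, ha, hb]

/-- An `R`-linear retraction of restriction from the second chart to the overlap. -/
theorem exists_retraction1 : ∃ r : D.R01 R →ₗ[R] D.R1 R, ∀ a, r (D.r1 R a) = a := by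
  have hinj : Function.Injective D.j1 := by
    intro a b h
    have h1 : D.r1 k ((1 : k) ⊗ₜ a) = D.r1 k ((1 : k) ⊗ₜ b) := by simp [h]
    exact (Algebra.TensorProduct.lid k D.A1).symm.injective
      (by simpa using D.r1_injective h1)
  obtain ⟨g, hg⟩ := D.j1.toLinearMap.exists_leftInverse_of_injective (LinearMap.ker_eq_bot.2 hinj)
  refine ⟨g.baseChange R, fun a => ?_⟩
  induction a using TensorProduct.induction_on with
  | zero => simp
  | tmul r a =>
    rw [r1_tmul, LinearMap.baseChange_tmul]
    congr 1
    exact DFunLike.congr_fun hg a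
  | add a b ha hb => rw [map_add, map_add, ha, hb]

/-- Functions on the first chart with a pole of order at most `N` at infinity, over the ground field. -/
def boundedSubspace (N : ℕ) : Submodule k D.A0 where
  carrier := {a | ∃ b : D.A1, D.j0 a = D.j0 D.x ^ N * D.j1 b}
  zero_mem' := ⟨0, by simp⟩
  add_mem' := by
    rintro a a' ⟨b, hb⟩ ⟨b', hb'⟩
    exact ⟨b + b', by rw [map_add, map_add, hb, hb']; ring⟩
  smul_mem' := by
    rintro r a ⟨b, hb⟩
    exact ⟨r • b, by rw [map_smul, map_smul, hb, mul_smul_comm]⟩

theorem finite_boundedSubspace (N : ℕ) : Module.Finite k (D.boundedSubspace N) := by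
  induction N with
  | zero =>
    have h : D.boundedSubspace 0 ≤ Submodule.span k {(1 : D.A0)} := by
      rintro a ⟨b, hb⟩
      obtain ⟨r, rfl⟩ := D.const a b (by simpa using hb)
      exact Submodule.mem_span_singleton.2 ⟨r, (Algebra.algebraMap_eq_smul_one r).symm⟩
    exact Module.Finite.of_injective (Submodule.inclusion h) (Submodule.inclusion_injective h)
  | succ N ih =>
    classical
    let Q := D.A1 ⧸ (Ideal.span {D.y}).restrictScalars k
    have hQ : Module.Finite k Q := by
      refine Module.finite_def.2 ⟨Finset.univ.image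
        fun i => Submodule.mkQ ((Ideal.span {D.y}).restrictScalars k) (D.b1 i), ?_⟩
      rw [Finset.coe_image, Finset.coe_univ, Set.image_univ, eq_top_iff]
      rintro ⟨a⟩ -
      obtain ⟨p, rfl⟩ := D.basis1.2 a
      change Submodule.mkQ _ (∑ i, Polynomial.aeval D.y (p i) * D.b1 i) ∈ _
      rw [map_sum]
      refine Submodule.sum_mem _ fun i _ => ?_
      have h : Submodule.mkQ ((Ideal.span {D.y}).restrictScalars k)
            (Polynomial.aeval D.y (p i) * D.b1 i) =
          (p i).coeff 0 • Submodule.mkQ ((Ideal.span {D.y}).restrictScalars k) (D.b1 i) := by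
        rw [← map_smul, Submodule.mkQ_apply, Submodule.mkQ_apply, Submodule.Quotient.eq,
          Submodule.restrictScalars_mem, Algebra.smul_def, ← sub_mul]
        refine Ideal.mul_mem_right _ _ (Ideal.mem_span_singleton.2 ?_)
        have h := Polynomial.X_dvd_sub_C (p := p i)
        simpa using map_dvd (Polynomial.aeval D.y) h
      rw [h]
      exact Submodule.smul_mem _ _ (Submodule.subset_span ⟨i, rfl⟩)
    have hinj : ∀ b b' : D.A1,
        D.j0 D.x ^ (N + 1) * D.j1 b = D.j0 D.x ^ (N + 1) * D.j1 b' → b = b' := by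
      intro b b' h
      have h1 : D.r1 k ((1 : k) ⊗ₜ b) = D.r1 k ((1 : k) ⊗ₜ b') := by
        have hu : IsUnit (D.j0 D.x ^ (N + 1)) := (IsUnit.of_mul_eq_one _ D.x_mul_y).pow _
        simp [hu.mul_left_cancel h]
      exact (Algebra.TensorProduct.lid k D.A1).symm.injective
        (by simpa using D.r1_injective h1)
    choose lead hlead using fun a : D.boundedSubspace (N + 1) => a.2
    let f : D.boundedSubspace (N + 1) →ₗ[k] Q :=
      { toFun := fun a => Submodule.Quotient.mk (lead a)
        map_add' := fun a b => by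
          rw [← Submodule.Quotient.mk_add]
          refine congrArg _ (hinj _ _ ?_)
          rw [← hlead, map_add, mul_add, ← hlead, ← hlead, ← map_add, Submodule.coe_add]
        map_smul' := fun r a => by
          rw [RingHom.id_apply, ← Submodule.Quotient.mk_smul]
          refine congrArg _ (hinj _ _ ?_)
          rw [← hlead, map_smul, mul_smul_comm, ← hlead, ← map_smul]
          rfl }
    have hker : LinearMap.ker f ≤
        (D.boundedSubspace N).comap (D.boundedSubspace (N + 1)).subtype := by
      intro a ha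
      obtain ⟨c, hc⟩ := Ideal.mem_span_singleton.1
        ((Submodule.Quotient.mk_eq_zero _).1 (LinearMap.mem_ker.1 ha))
      refine ⟨c, ?_⟩
      change D.j0 (a : D.A0) = _
      rw [hlead a, hc, map_mul, pow_succ, mul_assoc, ← mul_assoc (D.j0 D.x), D.x_mul_y, one_mul]
    have : Module.Finite k (LinearMap.ker f) :=
      Module.Finite.of_injective
        ((((D.boundedSubspace (N + 1)).subtype.comp (LinearMap.ker f).subtype).codRestrict
          (D.boundedSubspace N) fun a => hker a.2))
        fun a b h => Subtype.ext (Subtype.ext (congrArg (Subtype.val (p := fun z => z ∈ _)) h :))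
    have : Module.Finite k (_ ⧸ LinearMap.ker f) :=
      Module.Finite.equiv f.quotKerEquivRange.symm
    exact Module.Finite.of_submodule_quotient (LinearMap.ker f)

/-- Functions on the first chart over `R` with bounded pole order lie in a finite module. -/
theorem exists_finite_bounded (N : ℕ) : ∃ V : Submodule R (D.R0 R), V.FG ∧
    ∀ (a : D.R0 R) (b : D.R1 R), D.r0 R a = D.r0 R (D.xR R) ^ N * D.r1 R b → a ∈ V := by
  let d : D.A0 × D.A1 →ₗ[k] D.A01 :=
    D.j0.toLinearMap.comp (LinearMap.fst k _ _) -
      ((LinearMap.mulLeft k (D.j0 D.x ^ N)).comp D.j1.toLinearMap).comp (LinearMap.snd k _ _)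
  have hfin := D.finite_boundedSubspace N
  let u : D.boundedSubspace N →ₗ[k] D.A0 := (D.boundedSubspace N).subtype
  refine ⟨LinearMap.range (u.baseChange R), ?_, fun a b h => ?_⟩
  · exact Module.Finite.iff_fg.1 inferInstance
  · let z : R ⊗[k] (D.A0 × D.A1) := (TensorProduct.prodRight k R R D.A0 D.A1).symm (a, b)
    have hz : d.baseChange R z = 0 := by
      have key : ∀ (a : D.R0 R) (b : D.R1 R),
          d.baseChange R ((TensorProduct.prodRight k R R D.A0 D.A1).symm (a, b)) =
            D.r0 R a - D.r0 R (D.xR R) ^ N * D.r1 R b := by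
        intro a b
        have h1 : ∀ a : D.R0 R,
            d.baseChange R ((TensorProduct.prodRight k R R D.A0 D.A1).symm (a, 0)) = D.r0 R a := by
          intro a
          induction a using TensorProduct.induction_on with
          | zero => rw [map_zero, ← Prod.zero_eq_mk, map_zero, map_zero]
          | tmul r a =>
            rw [show ((r ⊗ₜ[k] a : D.R0 R), (0 : D.R1 R)) = (r ⊗ₜ[k] a, r ⊗ₜ[k] (0 : D.A1)) by
              rw [TensorProduct.tmul_zero], TensorProduct.prodRight_symm_tmul,
              LinearMap.baseChange_tmul]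
            simp [d]
          | add a a' ha ha' =>
            rw [map_add, ← ha, ← ha', ← map_add, ← map_add, Prod.mk_add_mk, add_zero]
        have h2 : ∀ b : D.R1 R,
            d.baseChange R ((TensorProduct.prodRight k R R D.A0 D.A1).symm (0, b)) =
              - (D.r0 R (D.xR R) ^ N * D.r1 R b) := by
          intro b
          induction b using TensorProduct.induction_on with
          | zero => rw [map_zero, ← Prod.zero_eq_mk, map_zero, map_zero, mul_zero, neg_zero]
          | tmul r b =>
            rw [show ((0 : D.R0 R), (r ⊗ₜ[k] b : D.R1 R)) = (r ⊗ₜ[k] (0 : D.A0), r ⊗ₜ[k] b) by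
              rw [TensorProduct.tmul_zero], TensorProduct.prodRight_symm_tmul,
              LinearMap.baseChange_tmul]
            simp [d, Algebra.TensorProduct.tmul_pow, Algebra.TensorProduct.tmul_mul_tmul,
              TensorProduct.tmul_neg]
          | add b b' hb hb' =>
            rw [map_add, mul_add, neg_add, ← hb, ← hb', ← map_add, ← map_add, Prod.mk_add_mk,
              add_zero]
        rw [sub_eq_add_neg, ← h1, ← h2, ← map_add, ← map_add, Prod.mk_add_mk, add_zero, zero_add]
      rw [key, h, sub_self]
    obtain ⟨w, hw⟩ := (Module.Flat.lTensor_exact R (LinearMap.exact_subtype_ker_map d) z).1 hz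
    let pr : LinearMap.ker d →ₗ[k] D.boundedSubspace N :=
      ((LinearMap.fst k _ _).comp (LinearMap.ker d).subtype).codRestrict _ fun p =>
        ⟨(p : D.A0 × D.A1).2, sub_eq_zero.1 p.2⟩
    refine ⟨pr.baseChange R w, ?_⟩
    have : ∀ w : R ⊗[k] LinearMap.ker d, u.baseChange R (pr.baseChange R w) =
        (TensorProduct.prodRight k R R D.A0 D.A1 ((LinearMap.ker d).subtype.lTensor R w)).1 := by
      intro w
      induction w using TensorProduct.induction_on with
      | zero => simp
      | tmul r p => simp [pr, u]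
      | add a b ha hb => simp only [map_add, ha, hb, Prod.fst_add]
    rw [this, hw]
    simp [z]

end Ring

namespace Bundle

variable {R : Type u} [CommRing R] [Algebra k R] (B : D.Bundle R)

/-- Coordinates on the first lattice which extend linearly to the overlap sections. -/
theorem exists_coords0 : ∃ (r : ℕ) (e : Fin r → B.M) (f : Fin r → B.M →+ D.R01 R),
    (∀ i, e i ∈ B.L0) ∧ (∀ i (a : D.R01 R) m, f i (a • m) = a * f i m) ∧
      ∀ m ∈ B.L0, ∃ c : Fin r → D.R0 R, (∀ i, f i m = D.r0 R (c i)) ∧ m = ∑ i, c i • e i := by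
  obtain ⟨r, p, i, -, -, hpi⟩ := Module.Finite.exists_comp_eq_id_of_projective (D.R0 R) B.L0
  let : Algebra (D.R0 R) (D.R01 R) := (D.r0 R).toRingHom.toAlgebra
  have : IsScalarTower (D.R0 R) (D.R01 R) B.M := IsScalarTower.of_algebraMap_smul B.smul0
  have hbc := B.isLocalizedModule_L0
  classical
  let g : Fin r → B.L0 →ₗ[D.R0 R] D.R01 R :=
    fun j => (Algebra.linearMap (D.R0 R) (D.R01 R)).comp ((LinearMap.proj j).comp i)
  refine ⟨r, fun j => (p (Pi.single j 1) : B.M), fun j => (hbc.lift (g j)).toAddMonoidHom,
    fun j => (p _).2, fun j a m => (hbc.lift (g j)).map_smul a m, fun m hm => ?_⟩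
  refine ⟨i ⟨m, hm⟩, fun j => hbc.lift_eq (g j) ⟨m, hm⟩, ?_⟩
  have h : p (i ⟨m, hm⟩) = ⟨m, hm⟩ := LinearMap.congr_fun hpi _
  calc m = ((p (i ⟨m, hm⟩) : B.L0) : B.M) := by rw [h]
    _ = _ := by
      conv_lhs => rw [← Finset.univ_sum_single (i ⟨m, hm⟩)]
      rw [map_sum, Submodule.coe_sum]
      refine Finset.sum_congr rfl fun j _ => ?_
      have hs : (Pi.single j (i ⟨m, hm⟩ j) : Fin r → D.R0 R) = i ⟨m, hm⟩ j • Pi.single j 1 := by
        rw [← Pi.single_smul, smul_eq_mul, mul_one]
      rw [hs, map_smul, Submodule.coe_smul]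

/-- Coordinates on the second lattice which extend linearly to the overlap sections. -/
theorem exists_coords1 : ∃ (r : ℕ) (e : Fin r → B.M) (f : Fin r → B.M →+ D.R01 R),
    (∀ i, e i ∈ B.L1) ∧ (∀ i (a : D.R01 R) m, f i (a • m) = a * f i m) ∧
      ∀ m ∈ B.L1, ∃ c : Fin r → D.R1 R, (∀ i, f i m = D.r1 R (c i)) ∧ m = ∑ i, c i • e i := by
  obtain ⟨r, p, i, -, -, hpi⟩ := Module.Finite.exists_comp_eq_id_of_projective (D.R1 R) B.L1
  let : Algebra (D.R1 R) (D.R01 R) := (D.r1 R).toRingHom.toAlgebra
  have : IsScalarTower (D.R1 R) (D.R01 R) B.M := IsScalarTower.of_algebraMap_smul B.smul1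
  have hbc := B.isLocalizedModule_L1
  classical
  let g : Fin r → B.L1 →ₗ[D.R1 R] D.R01 R :=
    fun j => (Algebra.linearMap (D.R1 R) (D.R01 R)).comp ((LinearMap.proj j).comp i)
  refine ⟨r, fun j => (p (Pi.single j 1) : B.M), fun j => (hbc.lift (g j)).toAddMonoidHom,
    fun j => (p _).2, fun j a m => (hbc.lift (g j)).map_smul a m, fun m hm => ?_⟩
  refine ⟨i ⟨m, hm⟩, fun j => hbc.lift_eq (g j) ⟨m, hm⟩, ?_⟩
  have h : p (i ⟨m, hm⟩) = ⟨m, hm⟩ := LinearMap.congr_fun hpi _
  calc m = ((p (i ⟨m, hm⟩) : B.L1) : B.M) := by rw [h]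
    _ = _ := by
      conv_lhs => rw [← Finset.univ_sum_single (i ⟨m, hm⟩)]
      rw [map_sum, Submodule.coe_sum]
      refine Finset.sum_congr rfl fun j _ => ?_
      have hs : (Pi.single j (i ⟨m, hm⟩ j) : Fin r → D.R1 R) = i ⟨m, hm⟩ j • Pi.single j 1 := by
        rw [← Pi.single_smul, smul_eq_mul, mul_one]
      rw [hs, map_smul, Submodule.coe_smul]

/-- The first lattice is an `R`-direct summand of the overlap sections. -/
theorem exists_retraction_L0 :
    ∃ ρ : B.M →ₗ[R] B.L0.restrictScalars R, ∀ m : B.L0.restrictScalars R, ρ m = m := by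
  obtain ⟨ret, hret⟩ := exists_retraction0 D R
  obtain ⟨r, e, f, he, hf, hdec⟩ := B.exists_coords0
  refine ⟨{ toFun := fun m => ⟨∑ i, ret (f i m) • e i,
              B.L0.sum_mem fun i _ => B.L0.smul_mem _ (he i)⟩
            map_add' := fun a b => by
              ext
              simp only [map_add, add_smul, Finset.sum_add_distrib, Submodule.coe_add]
            map_smul' := fun a m => by
              ext
              simp only [RingHom.id_apply, SetLike.val_smul, Finset.smul_sum]
              refine Finset.sum_congr rfl fun i _ => ?_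
              rw [show f i (a • m) = a • f i m by
                rw [← IsScalarTower.algebraMap_smul (D.R01 R) a m, hf, Algebra.smul_def],
                map_smul, smul_assoc] }, ?_⟩
  rintro ⟨m, hm⟩
  ext
  obtain ⟨c, hc, hm'⟩ := hdec m hm
  change ∑ i, ret (f i m) • e i = m
  simp only [hc, hret]
  exact hm'.symm

/-- The second lattice is an `R`-direct summand of the overlap sections. -/
theorem exists_retraction_L1 :
    ∃ ρ : B.M →ₗ[R] B.L1.restrictScalars R, ∀ m : B.L1.restrictScalars R, ρ m = m := by
  obtain ⟨ret, hret⟩ := exists_retraction1 D R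
  obtain ⟨r, e, f, he, hf, hdec⟩ := B.exists_coords1
  refine ⟨{ toFun := fun m => ⟨∑ i, ret (f i m) • e i,
              B.L1.sum_mem fun i _ => B.L1.smul_mem _ (he i)⟩
            map_add' := fun a b => by
              ext
              simp only [map_add, add_smul, Finset.sum_add_distrib, Submodule.coe_add]
            map_smul' := fun a m => by
              ext
              simp only [RingHom.id_apply, SetLike.val_smul, Finset.smul_sum]
              refine Finset.sum_congr rfl fun i _ => ?_
              rw [show f i (a • m) = a • f i m by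
                rw [← IsScalarTower.algebraMap_smul (D.R01 R) a m, hf, Algebra.smul_def],
                map_smul, smul_assoc] }, ?_⟩
  rintro ⟨m, hm⟩
  ext
  obtain ⟨c, hc, hm'⟩ := hdec m hm
  change ∑ i, ret (f i m) • e i = m
  simp only [hc, hret]
  exact hm'.symm

/-- Global sections lie in a finitely generated submodule of the first lattice. -/
theorem exists_fg_bound_H0 :
    ∃ T : Submodule R B.M, T.FG ∧ B.H0 ≤ T ∧ T ≤ B.L0.restrictScalars R := by
  classical
  obtain ⟨r, e, f, he, hf, hdec⟩ := B.exists_coords0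
  obtain ⟨S, hS⟩ := Module.Finite.iff_fg.1 (inferInstance : Module.Finite (D.R1 R) B.L1)
  choose N b hb using fun (p : Fin r × B.M) => D.exists_pow_mul_r1 R (f p.1 p.2)
  let N0 := (Finset.univ ×ˢ S).sup N
  obtain ⟨V, hV, hmem⟩ := exists_finite_bounded D R N0
  obtain ⟨G, hG⟩ := hV
  let T : Finset B.M := (Finset.univ ×ˢ G).image fun p : Fin r × D.R0 R => p.2 • e p.1
  refine ⟨Submodule.span R T, ⟨T, rfl⟩, fun m hm => ?_, Submodule.span_le.2 ?_⟩
  · obtain ⟨c, hc, rfl⟩ := hdec m hm.1
    refine Submodule.sum_mem _ fun i _ => ?_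
    have key : ∀ z ∈ B.L1, ∃ w : D.R1 R, f i z = D.r0 R (D.xR R) ^ N0 * D.r1 R w := by
      intro z hz
      rw [← hS] at hz
      refine Submodule.span_induction ?_ ⟨0, by simp⟩ ?_ ?_ hz
      · intro s hs
        have hN : N (i, s) ≤ N0 :=
          Finset.le_sup (f := N) (Finset.mem_product.2 ⟨Finset.mem_univ i, hs⟩)
        obtain ⟨t, ht⟩ := Nat.exists_eq_add_of_le hN
        refine ⟨D.yR R ^ t * b (i, s), ?_⟩
        rw [map_mul, map_pow, ← hb (i, s), ht, pow_add]
        have h1 := D.r0_x_mul_r1_y R
        calc f i s = (D.r0 R (D.xR R) * D.r1 R (D.yR R)) ^ (N (i, s) + t) * f i s := by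
              rw [h1, one_pow, one_mul]
          _ = _ := by rw [mul_pow, pow_add, pow_add]; ring
      · rintro x y - - ⟨w, hw⟩ ⟨w', hw'⟩
        exact ⟨w + w', by rw [map_add, hw, hw', map_add, mul_add]⟩
      · rintro a x - ⟨w, hw⟩
        exact ⟨a * w, by rw [← B.smul1, hf, hw, map_mul]; ring⟩
    obtain ⟨w, hw⟩ := key _ hm.2
    have hci : c i ∈ Submodule.span R (G : Set (D.R0 R)) := by
      rw [hG]
      exact hmem _ w ((hc i).symm.trans hw)
    refine Submodule.span_induction ?_ ?_ ?_ ?_ hci
    · intro g hg
      exact Submodule.subset_span (Finset.mem_coe.2 (Finset.mem_image.2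
        ⟨(i, g), Finset.mem_product.2 ⟨Finset.mem_univ i, hg⟩, rfl⟩))
    · rw [zero_smul]; exact Submodule.zero_mem _
    · intro a a' _ _ h h'; rw [add_smul]; exact Submodule.add_mem _ h h'
    · intro a g _ h; rw [smul_assoc]; exact Submodule.smul_mem _ _ h
  · intro z hz
    obtain ⟨p, -, rfl⟩ := Finset.mem_image.1 hz
    exact B.L0.smul_mem _ (he _)

theorem projective_M : Module.Projective R B.M := by
  let : Algebra (D.R0 R) (D.R01 R) := (D.r0 R).toRingHom.toAlgebra
  have : IsScalarTower (D.R0 R) (D.R01 R) B.M := IsScalarTower.of_algebraMap_smul B.smul0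
  have : Module.Invertible (D.R01 R) B.M := Module.Invertible.congr B.isLocalizedModule_L0.equiv
  obtain ⟨s, hs⟩ := (inferInstance : Module.Projective (D.R01 R) B.M).out
  have : Module.Projective R (D.R01 R) :=
    .of_basis (Algebra.TensorProduct.basis R (Module.Free.chooseBasis k D.A01))
  exact Module.Projective.of_split (s.restrictScalars R)
    ((Finsupp.linearCombination (D.R01 R) id).restrictScalars R) (LinearMap.ext hs)

end Bundle

end ChartData

end FermatLib.AV
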